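/-
GATE-N / J1-PORT node P4 (helper17): **the Eichler–Shimura relation WITH NEBENTYPUS on the Kummer
model, generic in the function field.**

`F₀ : IntermediateField ℚ (LaurentSeries ℚ)` is ANY field of rational `q`-expansions
(instance in the port: `F₀ := F1 M`, the function field of `X₁(M)` in the `Γ¹`-normalised model
`(E, P) = (𝔾_m / q^{Mℤ}, q)`), `FL := laurentBaseChange Qb F₀`, `gal σ := arithmeticRingAut F₀ σ`,
and `dia : FL ≃ₐ[Qb] FL` is the diamond operator `⟨ℓ⟩` (a VARIABLE here).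

The multiplicative Hecke operator of the `Γ¹`-model is

  `HN1 ℓ u := qExpand ℓ u * normL ℓ (dia u)`        (the diamond sits on the `U`-part),

and the Kummer form of the Eichler–Shimura relation `⟨ℓ⟩ Frob² − T_ℓ Frob + ℓ = 0` reads

  `gal σ (gal σ (dia u)) * u ^ ℓ = HN1 ℓ (gal σ u) * v ^ p`     (`σ` a Frobenius lift at `A ∣ ℓ`).

This file is the twin of `GJ/Kum/ESKummerS.lean` (clause-free `K18s` form); the proofs are the same
abstract Kummer lemma + the characteristic-`ℓ` identities `pow_char_eq_qExpand`, `normL_of_charP`.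
The ONLY new input is (DIA-INT): `dia` maps `A`-integral series of nonzero reduction to such
(= the Gauss valuation is `⟨ℓ⟩`-invariant).  No compatibility of `dia` with reduction is needed.
-/
import Fermat.Agent.GJ.Kum.ESKummer

set_option autoImplicit false

namespace Fermat.Agent.DS.P4

open HahnSeries ModularCurve AlgebraicCurve IsLocalRing
open Fermat.Agent.GJ.Kum (heckeNorm normL resA coe_resA coeffMap_subtype_resA
  residue_resA_of_inertia residue_resA_of_frobenius charP_residueField red_coeffMap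
  red_coeffMap_frob normL_mul normL_one normL_ne_zero normL_C coeffMap_normL normL_of_charP
  pow_char_eq_qExpand coeffMap_frobenius_ne_zero ord_pow_nat Qb)
open Fermat.Agent.GJ.S18.Front (coeffMap_subtype_injective ord_algebraMap_eq_zero ord_div)

/-! ### The clause-free integrality language, generic in `F₀` -/

section AbstractG

variable {L : Type*} [Field L] [Algebra ℚ L]
variable (F₀ : IntermediateField ℚ (LaurentSeries ℚ))
variable (A : ValuationSubring L)

/-- an `A`-integral series lying in the function field over `L`, as an element of that field -/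
noncomputable def elG {F₀ : IntermediateField ℚ (LaurentSeries ℚ)} {A : ValuationSubring L}
    (y : LaurentSeries A) (hy : coeffMap A.subtype y ∈ laurentBaseChange L F₀) :
    laurentBaseChange L F₀ :=
  ⟨coeffMap A.subtype y, hy⟩

variable {F₀ A}

theorem coe_elG (y : LaurentSeries A) (hy : coeffMap A.subtype y ∈ laurentBaseChange L F₀) :
    ((elG y hy : laurentBaseChange L F₀) : LaurentSeries L) = coeffMap A.subtype y := rfl

theorem elG_mul {y y' : LaurentSeries A}
    (hy : coeffMap A.subtype y ∈ laurentBaseChange L F₀)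
    (hy' : coeffMap A.subtype y' ∈ laurentBaseChange L F₀)
    (h : coeffMap A.subtype (y * y') ∈ laurentBaseChange L F₀) :
    elG (y * y') h = elG y hy * elG y' hy' :=
  Subtype.ext (map_mul _ _ _)

theorem elG_ne_zero {y : LaurentSeries A}
    (hy : coeffMap A.subtype y ∈ laurentBaseChange L F₀)
    (hne : coeffMap (residue A) y ≠ 0) : elG y hy ≠ 0 := by
  intro h
  have h0 : coeffMap A.subtype y = 0 := congrArg Subtype.val h
  have hy0 : y = 0 := coeffMap_subtype_injective (by rw [h0, map_zero])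
  exact hne (by rw [hy0, map_zero])

variable (F₀ A)

/-- **(K18s), generic**: the clause-free Kummer statement for the function field
`laurentBaseChange L F₀` at the valuation subring `A` and the exponent `m`. -/
def K18sG (m : ℕ) : Prop :=
  ∀ (a b : LaurentSeries A)
    (ha : coeffMap A.subtype a ∈ laurentBaseChange L F₀)
    (hb : coeffMap A.subtype b ∈ laurentBaseChange L F₀),
    coeffMap (residue A) a = coeffMap (residue A) b → coeffMap (residue A) a ≠ 0 →
    (∀ P : Place L (laurentBaseChange L F₀),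
      (m : ℤ) ∣ P.ord (elG a ha) - P.ord (elG b hb)) →
    ∃ v : laurentBaseChange L F₀, v ≠ 0 ∧ elG a ha = elG b hb * v ^ m

/-- **(GU), generic, element form**: every nonzero function is `c · a / b` with `a, b`
`A`-integral series of nonzero reduction and `c` a nonzero constant. -/
def GaussFracG : Prop :=
  ∀ u : laurentBaseChange L F₀, u ≠ 0 →
    ∃ (c : L) (a b : LaurentSeries A)
      (ha : coeffMap A.subtype a ∈ laurentBaseChange L F₀)
      (hb : coeffMap A.subtype b ∈ laurentBaseChange L F₀),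
      c ≠ 0 ∧ coeffMap (residue A) a ≠ 0 ∧ coeffMap (residue A) b ≠ 0 ∧
        u * elG b hb = algebraMap L (laurentBaseChange L F₀) c * elG a ha

/-- (GU) in series form (the shape of `GJ/GU/GaussFrac.lean`). -/
def GaussFracSeriesG : Prop :=
  ∀ u : LaurentSeries L, u ∈ laurentBaseChange L F₀ → u ≠ 0 →
    ∃ (c : L) (a b : LaurentSeries A), c ≠ 0 ∧
      coeffMap A.subtype a ∈ laurentBaseChange L F₀ ∧
      coeffMap A.subtype b ∈ laurentBaseChange L F₀ ∧
      coeffMap (residue A) a ≠ 0 ∧ coeffMap (residue A) b ≠ 0 ∧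
      u * coeffMap A.subtype b = HahnSeries.C c * coeffMap A.subtype a

variable {F₀ A}

theorem coe_algebraMap_FL (c : L) :
    ((algebraMap L (laurentBaseChange L F₀) c : laurentBaseChange L F₀) : LaurentSeries L) =
      HahnSeries.C c := by
  show algebraMap L (LaurentSeries L) c = HahnSeries.C c
  rw [algebraMap_laurentSeries_eq_single]; rfl

theorem gaussFracG_of_series (hG : GaussFracSeriesG F₀ A) : GaussFracG F₀ A := by
  intro u hu
  obtain ⟨c, a, b, hc, ha, hb, hane, hbne, h⟩ :=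
    hG (u : LaurentSeries L) u.2 (fun h0 => hu (Subtype.ext h0))
  refine ⟨c, a, b, ha, hb, hc, hane, hbne, ?_⟩
  apply Subtype.ext
  show (u : LaurentSeries L) * coeffMap A.subtype b =
    ((algebraMap L (laurentBaseChange L F₀) c : laurentBaseChange L F₀) : LaurentSeries L) *
      coeffMap A.subtype a
  rw [coe_algebraMap_FL, h]

/-- **abstract Kummer lemma, existential form.**  A multiplicative operator `Θ` on the function
field which on every integral element `y` of nonzero reduction is a quotient `num / den` of integral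
elements with `red num = red den ≠ 0`, which maps constants to constants and preserves `p ∣ div`,
takes values in `p`-th powers on `{u | p ∣ div u}` — given (K18s) and (GU). -/
theorem kummer_of_exists_num_den [IsAlgClosed L] {p : ℕ} (hp : 0 < p)
    (hK : K18sG F₀ A p) (hG : GaussFracG F₀ A)
    (Θ : laurentBaseChange L F₀ → laurentBaseChange L F₀)
    (hΘmul : ∀ x y, Θ (x * y) = Θ x * Θ y) (hΘne : ∀ x, x ≠ 0 → Θ x ≠ 0)
    (hΘ : ∀ y (hy : coeffMap A.subtype y ∈ laurentBaseChange L F₀),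
      coeffMap (residue A) y ≠ 0 →
      ∃ (n d : LaurentSeries A)
        (hn : coeffMap A.subtype n ∈ laurentBaseChange L F₀)
        (hd : coeffMap A.subtype d ∈ laurentBaseChange L F₀),
        coeffMap (residue A) n = coeffMap (residue A) d ∧ coeffMap (residue A) d ≠ 0 ∧
          Θ (elG y hy) * elG d hd = elG n hn)
    (hΘc : ∀ c : L, c ≠ 0 → ∃ c' : L,
      Θ (algebraMap L (laurentBaseChange L F₀) c) = algebraMap L (laurentBaseChange L F₀) c')
    (hΘd : ∀ x : laurentBaseChange L F₀, x ≠ 0 →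
      (∀ P : Place L (laurentBaseChange L F₀), (p : ℤ) ∣ P.ord x) →
      ∀ P : Place L (laurentBaseChange L F₀), (p : ℤ) ∣ P.ord (Θ x))
    (u : laurentBaseChange L F₀) (hu : u ≠ 0)
    (hdiv : ∀ P : Place L (laurentBaseChange L F₀), (p : ℤ) ∣ P.ord u) :
    ∃ v : laurentBaseChange L F₀, v ≠ 0 ∧ Θ u = v ^ p := by
  obtain ⟨c, a, b, ha, hb, hc, hane, hbne, hub⟩ := hG u hu
  have hCc : algebraMap L (laurentBaseChange L F₀) c ≠ 0 := by
    rwa [Ne, map_eq_zero]
  obtain ⟨na, da, hna, hda, hreda, hdane, hΘa⟩ := hΘ a ha hane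
  obtain ⟨nb, db, hnb, hdb, hredb, hdbne, hΘb⟩ := hΘ b hb hbne
  have ha₁ : coeffMap A.subtype (na * db) ∈ laurentBaseChange L F₀ := by
    rw [map_mul]; exact mul_mem hna hdb
  have hb₁ : coeffMap A.subtype (da * nb) ∈ laurentBaseChange L F₀ := by
    rw [map_mul]; exact mul_mem hda hnb
  have hred₁ : coeffMap (residue A) (na * db) = coeffMap (residue A) (da * nb) := by
    rw [map_mul, map_mul, hreda, hredb]
  have hne₁ : coeffMap (residue A) (na * db) ≠ 0 := by
    rw [map_mul, hreda]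
    exact mul_ne_zero hdane hdbne
  have hne₂ : coeffMap (residue A) (da * nb) ≠ 0 := hred₁ ▸ hne₁
  have hb₁0 := elG_ne_zero hb₁ hne₂
  have ha₁0 := elG_ne_zero ha₁ hne₁
  have hΘub : Θ u * Θ (elG b hb) = Θ (algebraMap L (laurentBaseChange L F₀) c) * Θ (elG a ha) := by
    rw [← hΘmul, ← hΘmul, hub]
  have hkey : elG (na * db) ha₁ * Θ (algebraMap L (laurentBaseChange L F₀) c) =
      Θ u * elG (da * nb) hb₁ := by
    rw [elG_mul hna hdb, elG_mul hda hnb, ← hΘa, ← hΘb]
    linear_combination (- elG da hda * elG db hdb) * hΘub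
  obtain ⟨c', hc'⟩ := hΘc c hc
  have hΘC0 := hΘne _ hCc
  have hc'0 : c' ≠ 0 := by
    intro h
    rw [hc', h, map_zero] at hΘC0
    exact hΘC0 rfl
  have hΘu0 := hΘne u hu
  obtain ⟨v, hv0, hv⟩ := hK (na * db) (da * nb) ha₁ hb₁ hred₁ hne₁ (fun P => by
    have h1 := congrArg P.ord hkey
    rw [P.ord_mul ha₁0 hΘC0, P.ord_mul hΘu0 hb₁0, hc', ord_algebraMap_eq_zero P hc'0,
      add_zero] at h1
    rw [h1, add_sub_cancel_right]
    exact hΘd u hu hdiv P)
  obtain ⟨d, hd⟩ := IsAlgClosed.exists_pow_nat_eq c' hp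
  have hd0 : d ≠ 0 := by
    intro h
    rw [h, zero_pow hp.ne'] at hd
    exact hc'0 hd.symm
  refine ⟨algebraMap L (laurentBaseChange L F₀) d * v,
    mul_ne_zero (by rwa [Ne, map_eq_zero]) hv0, ?_⟩
  rw [mul_pow, ← map_pow, hd, ← hc']
  rw [hv] at hkey
  have h2 : (Θ u - Θ (algebraMap L (laurentBaseChange L F₀) c) * v ^ p) * elG (da * nb) hb₁ = 0 := by
    linear_combination - hkey
  rcases mul_eq_zero.mp h2 with h3 | h3
  · exact sub_eq_zero.mp h3
  · exact absurd h3 hb₁0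

end AbstractG

/-! ### The interface over `ℚ̄` -/

section Iface

variable (F₀ : IntermediateField ℚ (LaurentSeries ℚ))

/-- the function field over `ℚ̄` -/
noncomputable abbrev FL : IntermediateField Qb (LaurentSeries Qb) := laurentBaseChange Qb F₀

/-- `p ∣ div u` -/
def DivDvdG (p : ℕ) (u : FL F₀) : Prop :=
  ∀ P : Place Qb (FL F₀), (p : ℤ) ∣ P.ord u

/-- the Galois action on the function field (coefficientwise) -/
noncomputable abbrev galG (σ : Qb ≃ₐ[ℚ] Qb) : FL F₀ ≃+* FL F₀ :=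
  arithmeticRingAut F₀ σ

variable {F₀}

/-- the multiplicative Hecke operator of the `Γ¹`-model on series:
`u(q^ℓ) · ∏_b (⟨ℓ⟩u)(ζ^b q^{1/ℓ})`. -/
noncomputable def heckeNorm1 (ℓ : ℕ) [NeZero ℓ] (dia : FL F₀ ≃ₐ[Qb] FL F₀) (u : FL F₀) :
    LaurentSeries Qb :=
  qExpand Qb ℓ (u : LaurentSeries Qb) * normL ℓ ((dia u : FL F₀) : LaurentSeries Qb)

variable (F₀)

/-- (HN1-mem) the Hecke operator maps the function field to itself -/
def HNMem1 (ℓ : ℕ) [NeZero ℓ] (dia : FL F₀ ≃ₐ[Qb] FL F₀) : Prop :=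
  ∀ u : FL F₀, heckeNorm1 ℓ dia u ∈ FL F₀

/-- (HN1-div) the Hecke operator preserves `p ∣ div` -/
def HNDiv1 (p ℓ : ℕ) [NeZero ℓ] (dia : FL F₀ ≃ₐ[Qb] FL F₀) : Prop :=
  ∀ u x : FL F₀, u ≠ 0 → (x : LaurentSeries Qb) = heckeNorm1 ℓ dia u →
    DivDvdG F₀ p u → DivDvdG F₀ p x

/-- (DIA-INT) at `A`: the diamond maps `A`-integral series of nonzero reduction to such
(the Gauss valuation is `⟨ℓ⟩`-invariant). -/
def DiaInt (dia : FL F₀ ≃ₐ[Qb] FL F₀) (A : ValuationSubring Qb) : Prop :=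
  ∀ (y : LaurentSeries A) (hy : coeffMap A.subtype y ∈ FL F₀), coeffMap (residue A) y ≠ 0 →
    ∃ y' : LaurentSeries A, coeffMap A.subtype y' = ((dia (elG y hy) : FL F₀) : LaurentSeries Qb) ∧
      coeffMap (residue A) y' ≠ 0

/-- (DIA-GAL) the diamond is defined over `ℚ`: it commutes with the Galois action -/
def DiaGal (dia : FL F₀ ≃ₐ[Qb] FL F₀) : Prop :=
  ∀ (σ : Qb ≃ₐ[ℚ] Qb) (x : FL F₀), dia (galG F₀ σ x) = galG F₀ σ (dia x)

/-- **(ES-i)** inertia at `ℓ` acts trivially on Kummer classes -/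
def ESInertia1 (p ℓ : ℕ) : Prop :=
  ∀ A : ValuationSubring Qb, A.LiesOverPrime ℓ → ∀ σ ∈ A.inertiaSubgroupIn ℚ,
    ∀ u : FL F₀, u ≠ 0 → DivDvdG F₀ p u → ∃ v : FL F₀, v ≠ 0 ∧ galG F₀ σ u = u * v ^ p

/-- **(ES-ii)** the Eichler–Shimura relation `⟨ℓ⟩σ² − T_ℓ σ + ℓ = 0` on Kummer classes -/
def ESFrob1 (p ℓ : ℕ) [NeZero ℓ] (dia : FL F₀ ≃ₐ[Qb] FL F₀) : Prop :=
  ∀ A : ValuationSubring Qb, A.LiesOverPrime ℓ → ∀ σ : Qb ≃ₐ[ℚ] Qb, A.IsFrobeniusAt σ ℓ →
    ∀ u : FL F₀, u ≠ 0 → DivDvdG F₀ p u →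
      ∃ v : FL F₀, v ≠ 0 ∧
        ((galG F₀ σ (galG F₀ σ (dia u)) * u ^ ℓ : FL F₀) : LaurentSeries Qb) =
          heckeNorm1 ℓ dia (galG F₀ σ u) * (v : LaurentSeries Qb) ^ p

end Iface

/-! ### (ES-i): inertia -/

section Inertia

variable {F₀ : IntermediateField ℚ (LaurentSeries ℚ)} {p ℓ : ℕ}

theorem galG_elG {A : ValuationSubring Qb} (σ : Qb ≃ₐ[ℚ] Qb)
    (hσ : σ ∈ A.decompositionSubgroup ℚ) (y : LaurentSeries A)
    (hy : coeffMap A.subtype y ∈ FL F₀)
    (hy' : coeffMap A.subtype (coeffMap (resA A σ hσ) y) ∈ FL F₀) :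
    galG F₀ σ (elG y hy) = elG (coeffMap (resA A σ hσ) y) hy' := by
  apply Subtype.ext
  show coeffMap (σ : Qb →+* Qb) (coeffMap A.subtype y) =
    coeffMap A.subtype (coeffMap (resA A σ hσ) y)
  rw [coeffMap_subtype_resA]

theorem coeffMap_resA_mem_FLG {A : ValuationSubring Qb} (σ : Qb ≃ₐ[ℚ] Qb)
    (hσ : σ ∈ A.decompositionSubgroup ℚ) (y : LaurentSeries A)
    (hy : coeffMap A.subtype y ∈ FL F₀) :
    coeffMap A.subtype (coeffMap (resA A σ hσ) y) ∈ FL F₀ := by
  rw [coeffMap_subtype_resA]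
  exact coeffMap_mem_laurentBaseChange σ hy

theorem galG_algebraMap (σ : Qb ≃ₐ[ℚ] Qb) (c : Qb) :
    galG F₀ σ (algebraMap Qb (FL F₀) c) = algebraMap Qb (FL F₀) (σ c) :=
  arithmeticRingAut_algebraMap F₀ σ c

theorem galG_ne_zero (σ : Qb ≃ₐ[ℚ] Qb) {x : FL F₀} (hx : x ≠ 0) : galG F₀ σ x ≠ 0 :=
  (map_ne_zero_iff _ (galG F₀ σ).injective).mpr hx

theorem galG_divDvd (σ : Qb ≃ₐ[ℚ] Qb) {x : FL F₀} (h : DivDvdG F₀ p x) :
    DivDvdG F₀ p (galG F₀ σ x) :=
  Fermat.Agent.GJ.Kum.GalDiv.dvd_ord_arithmeticRingAut F₀ σ (p : ℤ) h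

/-- **(ES-i) from (K18s) + (GU)** at one valuation subring. -/
theorem esInertia1_at (hp : 0 < p) (A : ValuationSubring Qb)
    (hK : K18sG F₀ A p) (hG : GaussFracG F₀ A)
    (σ : Qb ≃ₐ[ℚ] Qb) (hσ : σ ∈ A.inertiaSubgroupIn ℚ)
    (u : FL F₀) (hu : u ≠ 0) (hdiv : DivDvdG F₀ p u) :
    ∃ v : FL F₀, v ≠ 0 ∧ galG F₀ σ u = u * v ^ p := by
  have hσd := Fermat.Agent.S05.mem_decompositionSubgroup_of_mem_inertiaSubgroupIn hσ
  have hredτ : ∀ y : LaurentSeries A,
      coeffMap (residue A) (coeffMap (resA A σ hσd) y) = coeffMap (residue A) y := by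
    intro y
    ext n
    exact residue_resA_of_inertia A hσ _
  obtain ⟨v, hv0, hv⟩ := kummer_of_exists_num_den hp hK hG
    (fun x => galG F₀ σ x / x)
    (fun x y => by rw [map_mul, mul_div_mul_comm])
    (fun x hx => div_ne_zero (galG_ne_zero σ hx) hx)
    (fun y hy hne => ⟨coeffMap (resA A σ hσd) y, y, coeffMap_resA_mem_FLG σ hσd y hy, hy,
      hredτ y, hne, by
        rw [div_mul_cancel₀ _ (elG_ne_zero hy hne)]
        exact galG_elG σ hσd y hy (coeffMap_resA_mem_FLG σ hσd y hy)⟩)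
    (fun c hc => ⟨σ c / c, by rw [galG_algebraMap, map_div₀]⟩)
    (fun x hx hxd P => by
      rw [ord_div P (galG_ne_zero σ hx) hx]
      exact dvd_sub (galG_divDvd σ hxd P) (hxd P))
    u hu hdiv
  refine ⟨v, hv0, ?_⟩
  rw [← hv, mul_div_cancel₀ _ hu]

end Inertia

/-! ### (ES-ii): Frobenius, with the diamond -/

section Frobenius

variable {F₀ : IntermediateField ℚ (LaurentSeries ℚ)} {p ℓ : ℕ} [NeZero ℓ]
variable {dia : FL F₀ ≃ₐ[Qb] FL F₀}

/-- the Hecke operator as a self-map of the function field, given (HN1-mem) -/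
noncomputable def HN1F (hM : HNMem1 F₀ ℓ dia) (x : FL F₀) : FL F₀ :=
  ⟨heckeNorm1 ℓ dia x, hM x⟩

theorem coe_HN1F (hM : HNMem1 F₀ ℓ dia) (x : FL F₀) :
    ((HN1F hM x : FL F₀) : LaurentSeries Qb) = heckeNorm1 ℓ dia x := rfl

theorem heckeNorm1_mul (x y : FL F₀) :
    heckeNorm1 ℓ dia (x * y) = heckeNorm1 ℓ dia x * heckeNorm1 ℓ dia y := by
  unfold heckeNorm1
  rw [map_mul dia, MulMemClass.coe_mul, MulMemClass.coe_mul, map_mul, normL_mul]
  ring

theorem HN1F_mul (hM : HNMem1 F₀ ℓ dia) (x y : FL F₀) :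
    HN1F hM (x * y) = HN1F hM x * HN1F hM y :=
  Subtype.ext (heckeNorm1_mul x y)

theorem heckeNorm1_ne_zero {x : FL F₀} (hx : x ≠ 0) : heckeNorm1 ℓ dia x ≠ 0 := by
  unfold heckeNorm1
  refine mul_ne_zero ?_ (normL_ne_zero ℓ ?_)
  · intro h
    apply hx
    apply Subtype.ext
    exact qExpand_injective (R := Qb) (N := ℓ) (by rw [h, ZeroMemClass.coe_zero, map_zero])
  · intro h
    have : dia x = 0 := Subtype.ext h
    exact hx ((map_eq_zero_iff dia dia.injective).mp this)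

theorem HN1F_ne_zero (hM : HNMem1 F₀ ℓ dia) {x : FL F₀} (hx : x ≠ 0) : HN1F hM x ≠ 0 := by
  intro h
  exact heckeNorm1_ne_zero hx (congrArg Subtype.val h)

theorem HN1F_algebraMap (hM : HNMem1 F₀ ℓ dia) (c : Qb) :
    HN1F hM (algebraMap Qb (FL F₀) c) = algebraMap Qb (FL F₀) (c ^ (ℓ + 1)) := by
  apply Subtype.ext
  show heckeNorm1 ℓ dia (algebraMap Qb (FL F₀) c) = _
  unfold heckeNorm1
  rw [dia.commutes, coe_algebraMap_FL, coe_algebraMap_FL, qExpand_C, normL_C, ← map_mul,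
    pow_succ']

/-- the diamond preserves `p ∣ div` -/
theorem dia_divDvd {x : FL F₀} (h : DivDvdG F₀ p x) : DivDvdG F₀ p (dia x) :=
  Fermat.Agent.GJ.Kum.GalDiv.dvd_ord_smul (SemilinearAut.ofAlgAut dia) (p : ℤ) h

/-- **(ES-ii) from (K18s) + (GU) + (HN1) + (DIA)** at one valuation subring: the Eichler–Shimura
relation with nebentypus on `Kum_p` for a Frobenius lift `σ` at `A`. -/
theorem esFrob1_at [hℓ : Fact ℓ.Prime] (hp : 0 < p) (A : ValuationSubring Qb)
    (hA : A.LiesOverPrime ℓ)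
    (hK : K18sG F₀ A p) (hG : GaussFracG F₀ A)
    (hM : HNMem1 F₀ ℓ dia) (hD : HNDiv1 F₀ p ℓ dia)
    (hdI : DiaInt F₀ dia A) (hdG : DiaGal F₀ dia)
    (σ : Qb ≃ₐ[ℚ] Qb) (hF : A.IsFrobeniusAt σ ℓ)
    (u : FL F₀) (hu : u ≠ 0) (hdiv : DivDvdG F₀ p u) :
    ∃ v : FL F₀, v ≠ 0 ∧
      ((galG F₀ σ (galG F₀ σ (dia u)) * u ^ ℓ : FL F₀) : LaurentSeries Qb) =
        heckeNorm1 ℓ dia (galG F₀ σ u) * (v : LaurentSeries Qb) ^ p := by
  have : CharP (ResidueField A) ℓ := charP_residueField A hℓ.out hA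
  have hσd := hF.mem_decompositionSubgroup
  have hτ := residue_resA_of_frobenius A hF
  have hdne : ∀ {x : FL F₀}, x ≠ 0 → dia x ≠ 0 :=
    fun hx h => hx ((map_eq_zero_iff dia dia.injective).mp h)
  have hτmem : ∀ y, coeffMap A.subtype y ∈ FL F₀ →
      coeffMap A.subtype (coeffMap (resA A σ hσd) y) ∈ FL F₀ :=
    fun y hy => coeffMap_resA_mem_FLG σ hσd y hy
  obtain ⟨v, hv0, hv⟩ := kummer_of_exists_num_den hp hK hG
    (fun x => galG F₀ σ (galG F₀ σ (dia x)) * x ^ ℓ / HN1F hM (galG F₀ σ x))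
    (fun x y => by
      rw [map_mul dia, map_mul, map_mul, map_mul, mul_pow, HN1F_mul, div_mul_div_comm]
      congr 1; ring)
    (fun x hx => div_ne_zero
      (mul_ne_zero (galG_ne_zero σ (galG_ne_zero σ (hdne hx))) (pow_ne_zero _ hx))
      (HN1F_ne_zero hM (galG_ne_zero σ hx)))
    (fun y hy hne => by
      -- the integral lift of `dia y`
      obtain ⟨y', hy'eq, hy'ne⟩ := hdI y hy hne
      have hy' : coeffMap A.subtype y' ∈ FL F₀ := by rw [hy'eq]; exact (dia (elG y hy)).2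
      have hdy : dia (elG y hy) = elG y' hy' := Subtype.ext hy'eq.symm
      -- numerator and denominator
      set τ := resA A σ hσd with hτdef
      have hn : coeffMap A.subtype (coeffMap τ (coeffMap τ y') * y ^ ℓ) ∈ FL F₀ := by
        rw [map_mul, map_pow]
        exact mul_mem (hτmem _ (hτmem y' hy')) (pow_mem hy ℓ)
      have hdL : coeffMap A.subtype (qExpand A ℓ (coeffMap τ y) * normL ℓ (coeffMap τ y')) =
          heckeNorm1 ℓ dia (galG F₀ σ (elG y hy)) := by
        unfold heckeNorm1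
        rw [hdG σ (elG y hy), hdy, galG_elG σ hσd y hy (hτmem y hy),
          galG_elG σ hσd y' hy' (hτmem y' hy'), coe_elG, coe_elG, map_mul, coeffMap_qExpand,
          coeffMap_normL]
      have hd : coeffMap A.subtype (qExpand A ℓ (coeffMap τ y) * normL ℓ (coeffMap τ y')) ∈
          FL F₀ := by
        rw [hdL]; exact hM _
      have hredd : coeffMap (residue A) (qExpand A ℓ (coeffMap τ y) * normL ℓ (coeffMap τ y')) =
          coeffMap (residue A) y ^ ℓ *
            coeffMap (frobenius (ResidueField A) ℓ)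
              (coeffMap (frobenius (ResidueField A) ℓ) (coeffMap (residue A) y')) := by
        rw [map_mul, coeffMap_qExpand, coeffMap_normL, red_coeffMap_frob ℓ hτ,
          red_coeffMap_frob ℓ hτ, ← pow_char_eq_qExpand, normL_of_charP]
      have hredn : coeffMap (residue A) (coeffMap τ (coeffMap τ y') * y ^ ℓ) =
          coeffMap (residue A) (qExpand A ℓ (coeffMap τ y) * normL ℓ (coeffMap τ y')) := by
        rw [hredd, map_mul, map_pow, red_coeffMap_frob ℓ hτ, red_coeffMap_frob ℓ hτ, mul_comm]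
      refine ⟨coeffMap τ (coeffMap τ y') * y ^ ℓ,
        qExpand A ℓ (coeffMap τ y) * normL ℓ (coeffMap τ y'), hn, hd, hredn, ?_, ?_⟩
      · rw [hredd]
        exact mul_ne_zero (pow_ne_zero _ hne)
          (coeffMap_frobenius_ne_zero _ ℓ (coeffMap_frobenius_ne_zero _ ℓ hy'ne))
      · have hdel : elG (qExpand A ℓ (coeffMap τ y) * normL ℓ (coeffMap τ y')) hd =
            HN1F hM (galG F₀ σ (elG y hy)) := Subtype.ext hdL
        rw [hdel, div_mul_cancel₀ _ (HN1F_ne_zero hM (galG_ne_zero σ (elG_ne_zero hy hne)))]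
        apply Subtype.ext
        show ((galG F₀ σ (galG F₀ σ (dia (elG y hy))) : FL F₀) : LaurentSeries Qb) *
            ((elG y hy : FL F₀) : LaurentSeries Qb) ^ ℓ =
          coeffMap A.subtype (coeffMap τ (coeffMap τ y') * y ^ ℓ)
        rw [hdy, galG_elG σ hσd y' hy' (hτmem y' hy'),
          galG_elG σ hσd _ (hτmem y' hy') (hτmem _ (hτmem y' hy')), coe_elG, coe_elG, map_mul,
          map_pow])
    (fun c hc => ⟨σ (σ c) * c ^ ℓ / (σ c) ^ (ℓ + 1), by
      rw [dia.commutes, galG_algebraMap, galG_algebraMap, HN1F_algebraMap, map_div₀, map_mul,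
        map_pow, map_pow]⟩)
    (fun x hx hxd P => by
      rw [ord_div P
        (mul_ne_zero (galG_ne_zero σ (galG_ne_zero σ (hdne hx))) (pow_ne_zero _ hx))
        (HN1F_ne_zero hM (galG_ne_zero σ hx)),
        P.ord_mul (galG_ne_zero σ (galG_ne_zero σ (hdne hx))) (pow_ne_zero _ hx), ord_pow_nat]
      exact dvd_sub
        (dvd_add (galG_divDvd σ (galG_divDvd σ (dia_divDvd hxd)) P)
          (dvd_mul_of_dvd_right (hxd P) _))
        (hD (galG F₀ σ x) (HN1F hM (galG F₀ σ x)) (galG_ne_zero σ hx) rfl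
          (galG_divDvd σ hxd) P))
    u hu hdiv
  refine ⟨v, hv0, ?_⟩
  have h1 : galG F₀ σ (galG F₀ σ (dia u)) * u ^ ℓ = HN1F hM (galG F₀ σ u) * v ^ p := by
    rw [← hv, mul_div_cancel₀ _ (HN1F_ne_zero hM (galG_ne_zero σ hu))]
  rw [h1]
  rfl

end Frobenius

/-! ### Packaged statements -/

section Package

variable {F₀ : IntermediateField ℚ (LaurentSeries ℚ)} {p ℓ : ℕ}

/-- **(ES-i)** from (K18s) + (GU). -/
theorem esInertia1_of_k18s (hp : 0 < p)
    (hK : ∀ A : ValuationSubring Qb, A.LiesOverPrime ℓ → K18sG F₀ A p)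
    (hG : ∀ A : ValuationSubring Qb, A.LiesOverPrime ℓ → GaussFracSeriesG F₀ A) :
    ESInertia1 F₀ p ℓ :=
  fun A hA σ hσ u hu hdiv =>
    esInertia1_at hp A (hK A hA) (gaussFracG_of_series (hG A hA)) σ hσ u hu hdiv

/-- **(ES-ii)** from (K18s) + (GU) + (HN1) + (DIA). -/
theorem esFrob1_of_k18s [NeZero ℓ] [Fact ℓ.Prime] (hp : 0 < p)
    {dia : FL F₀ ≃ₐ[Qb] FL F₀}
    (hK : ∀ A : ValuationSubring Qb, A.LiesOverPrime ℓ → K18sG F₀ A p)
    (hG : ∀ A : ValuationSubring Qb, A.LiesOverPrime ℓ → GaussFracSeriesG F₀ A)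
    (hM : HNMem1 F₀ ℓ dia) (hD : HNDiv1 F₀ p ℓ dia)
    (hdI : ∀ A : ValuationSubring Qb, A.LiesOverPrime ℓ → DiaInt F₀ dia A)
    (hdG : DiaGal F₀ dia) :
    ESFrob1 F₀ p ℓ dia :=
  fun A hA σ hF u hu hdiv =>
    esFrob1_at hp A hA (hK A hA) (gaussFracG_of_series (hG A hA)) hM hD (hdI A hA) hdG σ hF u hu
      hdiv

end Package

end Fermat.Agent.DS.P4
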