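/-
GATE-N / J1-PORT node P4, (DIA) repaired (helper22): **Eichler–Shimura with nebentypus from the
FRACTION form of diamond-integrality.**

`DS/P4/ESGen.lean` (helper17) consumes `DiaInt F₀ dia A`: "`dia` maps every `A`-integral series of
nonzero reduction to an `A`-integral SERIES of nonzero reduction".  For a nontrivial diamond this is
false: `dia_d` moves the cusp `(Tate(q^M), q)` to `(Tate(q^M), q^d)`, and a unit of the Gauss
valuation ring that is an integral series at the first cusp need not be one at the second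
(`M = 5`, `d = 2`: `b = -q + …` the Tate-normal-form parameter, `dia b = -1/b`,
`y = b / (1 + ℓ b)`, `dia y = 1 / (ℓ - b)`).

What is true is the fraction form (`dia` preserves the units of the Gauss valuation ring), and the
proof of `esFrob1_at` only ever applies (DIA-INT) to the numerator and the denominator delivered by
(GU).  So we merge (GU) and (DIA-INT) into

  `DiaFracG F₀ dia A` : every `u ≠ 0` is `c · a / b` with `a, b` AND `dia a, dia b` integral series
                          of nonzero reduction,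

which IS provable for `F₀ = F1 M` (`DS/P2/DiaFrac.lean`), and re-prove

  `esFrob1_of_diaFrac : ESFrob1 F₀ p ℓ dia`     (same conclusion as `esFrob1_of_k18s`).
-/
import Fermat.Agent.DS.P4.ESGen

set_option autoImplicit false

namespace Fermat.Agent.DS.P4.DiaFrac

open HahnSeries ModularCurve AlgebraicCurve IsLocalRing
open Fermat.Agent.DS.P4
open Fermat.Agent.GJ.Kum (heckeNorm normL resA coe_resA coeffMap_subtype_resA
  residue_resA_of_inertia residue_resA_of_frobenius charP_residueField red_coeffMap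
  red_coeffMap_frob normL_mul normL_one normL_ne_zero normL_C coeffMap_normL normL_of_charP
  pow_char_eq_qExpand coeffMap_frobenius_ne_zero ord_pow_nat Qb)
open Fermat.Agent.GJ.S18.Front (coeffMap_subtype_injective ord_algebraMap_eq_zero ord_div)

/-! ### The abstract Kummer lemma relative to a class of good integral elements -/

section AbstractG

variable {L : Type*} [Field L] [Algebra ℚ L]
variable {F₀ : IntermediateField ℚ (LaurentSeries ℚ)}
variable {A : ValuationSubring L}

/-- **abstract Kummer lemma, existential form, relative to a class `Good` of integral elements.**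
(Twin of `DS.P4.kummer_of_exists_num_den`.)  A multiplicative operator `Θ` on the function
field which on every GOOD integral element `y` of nonzero reduction is a quotient `num / den` of integral
elements with `red num = red den ≠ 0`, which maps constants to constants and preserves `p ∣ div`,
takes values in `p`-th powers on `{u | p ∣ div u}` — given (K18s) and (GU) with GOOD numerator and
denominator. -/
theorem kummer_of_exists_num_den_good [IsAlgClosed L] {p : ℕ} (hp : 0 < p)
    (hK : K18sG F₀ A p) (Good : LaurentSeries A → Prop)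
    (hG : ∀ u : laurentBaseChange L F₀, u ≠ 0 →
      ∃ (c : L) (a b : LaurentSeries A)
        (ha : coeffMap A.subtype a ∈ laurentBaseChange L F₀)
        (hb : coeffMap A.subtype b ∈ laurentBaseChange L F₀),
        c ≠ 0 ∧ coeffMap (residue A) a ≠ 0 ∧ coeffMap (residue A) b ≠ 0 ∧ Good a ∧ Good b ∧
          u * elG b hb = algebraMap L (laurentBaseChange L F₀) c * elG a ha)
    (Θ : laurentBaseChange L F₀ → laurentBaseChange L F₀)
    (hΘmul : ∀ x y, Θ (x * y) = Θ x * Θ y) (hΘne : ∀ x, x ≠ 0 → Θ x ≠ 0)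
    (hΘ : ∀ y (hy : coeffMap A.subtype y ∈ laurentBaseChange L F₀),
      coeffMap (residue A) y ≠ 0 → Good y →
      ∃ (n d : LaurentSeries A)
        (hn : coeffMap A.subtype n ∈ laurentBaseChange L F₀)
        (hd : coeffMap A.subtype d ∈ laurentBaseChange L F₀),
        coeffMap (residue A) n = coeffMap (residue A) d ∧ coeffMap (residue A) d ≠ 0 ∧
          Θ (elG y hy) * elG d hd = elG n hn)
    (hΘc : ∀ c : L, c ≠ 0 → ∃ c' : L,
      Θ (algebraMap L (laurentBaseChange L F₀) c) = algebraMap L (laurentBaseChange L F₀) c')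
    (hΘd : ∀ x : laurentBaseChange L F₀, x ≠ 0 →
      (∀ P : Place L (laurentBaseChange L F₀), (p : ℤ) ∣ P.ord x) →
      ∀ P : Place L (laurentBaseChange L F₀), (p : ℤ) ∣ P.ord (Θ x))
    (u : laurentBaseChange L F₀) (hu : u ≠ 0)
    (hdiv : ∀ P : Place L (laurentBaseChange L F₀), (p : ℤ) ∣ P.ord u) :
    ∃ v : laurentBaseChange L F₀, v ≠ 0 ∧ Θ u = v ^ p := by
  obtain ⟨c, a, b, ha, hb, hc, hane, hbne, hga, hgb, hub⟩ := hG u hu
  have hCc : algebraMap L (laurentBaseChange L F₀) c ≠ 0 := by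
    rwa [Ne, map_eq_zero]
  obtain ⟨na, da, hna, hda, hreda, hdane, hΘa⟩ := hΘ a ha hane hga
  obtain ⟨nb, db, hnb, hdb, hredb, hdbne, hΘb⟩ := hΘ b hb hbne hgb
  have ha₁ : coeffMap A.subtype (na * db) ∈ laurentBaseChange L F₀ := by
    rw [map_mul]; exact mul_mem hna hdb
  have hb₁ : coeffMap A.subtype (da * nb) ∈ laurentBaseChange L F₀ := by
    rw [map_mul]; exact mul_mem hda hnb
  have hred₁ : coeffMap (residue A) (na * db) = coeffMap (residue A) (da * nb) := by
    rw [map_mul, map_mul, hreda, hredb]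
  have hne₁ : coeffMap (residue A) (na * db) ≠ 0 := by
    rw [map_mul, hreda]
    exact mul_ne_zero hdane hdbne
  have hne₂ : coeffMap (residue A) (da * nb) ≠ 0 := hred₁ ▸ hne₁
  have hb₁0 := elG_ne_zero hb₁ hne₂
  have ha₁0 := elG_ne_zero ha₁ hne₁
  have hΘub : Θ u * Θ (elG b hb) = Θ (algebraMap L (laurentBaseChange L F₀) c) * Θ (elG a ha) := by
    rw [← hΘmul, ← hΘmul, hub]
  have hkey : elG (na * db) ha₁ * Θ (algebraMap L (laurentBaseChange L F₀) c) =
      Θ u * elG (da * nb) hb₁ := by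
    rw [elG_mul hna hdb, elG_mul hda hnb, ← hΘa, ← hΘb]
    linear_combination (- elG da hda * elG db hdb) * hΘub
  obtain ⟨c', hc'⟩ := hΘc c hc
  have hΘC0 := hΘne _ hCc
  have hc'0 : c' ≠ 0 := by
    intro h
    rw [hc', h, map_zero] at hΘC0
    exact hΘC0 rfl
  have hΘu0 := hΘne u hu
  obtain ⟨v, hv0, hv⟩ := hK (na * db) (da * nb) ha₁ hb₁ hred₁ hne₁ (fun P => by
    have h1 := congrArg P.ord hkey
    rw [P.ord_mul ha₁0 hΘC0, P.ord_mul hΘu0 hb₁0, hc', ord_algebraMap_eq_zero P hc'0,
      add_zero] at h1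
    rw [h1, add_sub_cancel_right]
    exact hΘd u hu hdiv P)
  obtain ⟨d, hd⟩ := IsAlgClosed.exists_pow_nat_eq c' hp
  have hd0 : d ≠ 0 := by
    intro h
    rw [h, zero_pow hp.ne'] at hd
    exact hc'0 hd.symm
  refine ⟨algebraMap L (laurentBaseChange L F₀) d * v,
    mul_ne_zero (by rwa [Ne, map_eq_zero]) hv0, ?_⟩
  rw [mul_pow, ← map_pow, hd, ← hc']
  rw [hv] at hkey
  have h2 : (Θ u - Θ (algebraMap L (laurentBaseChange L F₀) c) * v ^ p) * elG (da * nb) hb₁ = 0 := by
    linear_combination - hkey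
  rcases mul_eq_zero.mp h2 with h3 | h3
  · exact sub_eq_zero.mp h3
  · exact absurd h3 hb₁0


end AbstractG

/-! ### The repaired interface -/

section Iface

variable (F₀ : IntermediateField ℚ (LaurentSeries ℚ))

/-- an integral series whose diamond-image is again an integral series of nonzero reduction -/
def DiaGood (dia : FL F₀ ≃ₐ[Qb] FL F₀) (A : ValuationSubring Qb) (y : LaurentSeries A) : Prop :=
  ∃ (hy : coeffMap A.subtype y ∈ FL F₀) (y' : LaurentSeries A),
    coeffMap A.subtype y' = ((dia (elG y hy) : FL F₀) : LaurentSeries Qb) ∧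
      coeffMap (residue A) y' ≠ 0

/-- **(GU) + (DIA-INT), fraction form**: every nonzero function is `c · a / b` with `a, b` AND
`dia a, dia b` all `A`-integral series of nonzero reduction. -/
def DiaFracG (dia : FL F₀ ≃ₐ[Qb] FL F₀) (A : ValuationSubring Qb) : Prop :=
  ∀ u : FL F₀, u ≠ 0 →
    ∃ (c : Qb) (a b a' b' : LaurentSeries A)
      (ha : coeffMap A.subtype a ∈ FL F₀) (hb : coeffMap A.subtype b ∈ FL F₀),
      c ≠ 0 ∧ coeffMap (residue A) a ≠ 0 ∧ coeffMap (residue A) b ≠ 0 ∧
      coeffMap (residue A) a' ≠ 0 ∧ coeffMap (residue A) b' ≠ 0 ∧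
      u * elG b hb = algebraMap Qb (FL F₀) c * elG a ha ∧
      coeffMap A.subtype a' = ((dia (elG a ha) : FL F₀) : LaurentSeries Qb) ∧
      coeffMap A.subtype b' = ((dia (elG b hb) : FL F₀) : LaurentSeries Qb)

variable {F₀}

/-- (DIA-FRAC) contains (GU) -/
theorem DiaFracG.gaussFracG {dia : FL F₀ ≃ₐ[Qb] FL F₀} {A : ValuationSubring Qb}
    (h : DiaFracG F₀ dia A) : GaussFracG F₀ A := by
  intro u hu
  obtain ⟨c, a, b, -, -, ha, hb, hc, hane, hbne, -, -, hub, -, -⟩ := h u hu
  exact ⟨c, a, b, ha, hb, hc, hane, hbne, hub⟩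

/-- the (false in general, but sufficient) series form implies the fraction form -/
theorem diaFracG_of_diaInt {dia : FL F₀ ≃ₐ[Qb] FL F₀} {A : ValuationSubring Qb}
    (hG : GaussFracG F₀ A) (hdI : DiaInt F₀ dia A) : DiaFracG F₀ dia A := by
  intro u hu
  obtain ⟨c, a, b, ha, hb, hc, hane, hbne, hub⟩ := hG u hu
  obtain ⟨a', ha', hane'⟩ := hdI a ha hane
  obtain ⟨b', hb', hbne'⟩ := hdI b hb hbne
  exact ⟨c, a, b, a', b', ha, hb, hc, hane, hbne, hane', hbne', hub, ha', hb'⟩

end Iface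

/-! ### (ES-ii): Frobenius, with the diamond -/

section Frobenius

variable {F₀ : IntermediateField ℚ (LaurentSeries ℚ)} {p ℓ : ℕ} [NeZero ℓ]
variable {dia : FL F₀ ≃ₐ[Qb] FL F₀}

/-- **(ES-ii) from (K18s) + (DIA-FRAC) + (HN1) + (DIA-GAL)** at one valuation subring: the Eichler–Shimura
relation with nebentypus on `Kum_p` for a Frobenius lift `σ` at `A`. -/
theorem esFrob1_at_diaFrac [hℓ : Fact ℓ.Prime] (hp : 0 < p) (A : ValuationSubring Qb)
    (hA : A.LiesOverPrime ℓ)
    (hK : K18sG F₀ A p) (hGd : DiaFracG F₀ dia A)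
    (hM : HNMem1 F₀ ℓ dia) (hD : HNDiv1 F₀ p ℓ dia)
    (hdG : DiaGal F₀ dia)
    (σ : Qb ≃ₐ[ℚ] Qb) (hF : A.IsFrobeniusAt σ ℓ)
    (u : FL F₀) (hu : u ≠ 0) (hdiv : DivDvdG F₀ p u) :
    ∃ v : FL F₀, v ≠ 0 ∧
      ((galG F₀ σ (galG F₀ σ (dia u)) * u ^ ℓ : FL F₀) : LaurentSeries Qb) =
        heckeNorm1 ℓ dia (galG F₀ σ u) * (v : LaurentSeries Qb) ^ p := by
  have : CharP (ResidueField A) ℓ := charP_residueField A hℓ.out hA
  have hσd := hF.mem_decompositionSubgroup
  have hτ := residue_resA_of_frobenius A hF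
  have hdne : ∀ {x : FL F₀}, x ≠ 0 → dia x ≠ 0 :=
    fun hx h => hx ((map_eq_zero_iff dia dia.injective).mp h)
  have hτmem : ∀ y, coeffMap A.subtype y ∈ FL F₀ →
      coeffMap A.subtype (coeffMap (resA A σ hσd) y) ∈ FL F₀ :=
    fun y hy => coeffMap_resA_mem_FLG σ hσd y hy
  obtain ⟨v, hv0, hv⟩ := kummer_of_exists_num_den_good hp hK (DiaGood F₀ dia A)
    (fun u hu => by
      obtain ⟨c, a, b, a', b', ha, hb, hc, hane, hbne, hane', hbne', hub, ha', hb'⟩ := hGd u hu
      exact ⟨c, a, b, ha, hb, hc, hane, hbne, ⟨ha, a', ha', hane'⟩, ⟨hb, b', hb', hbne'⟩, hub⟩)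
    (fun x => galG F₀ σ (galG F₀ σ (dia x)) * x ^ ℓ / HN1F hM (galG F₀ σ x))
    (fun x y => by
      rw [map_mul dia, map_mul, map_mul, map_mul, mul_pow, HN1F_mul, div_mul_div_comm]
      congr 1; ring)
    (fun x hx => div_ne_zero
      (mul_ne_zero (galG_ne_zero σ (galG_ne_zero σ (hdne hx))) (pow_ne_zero _ hx))
      (HN1F_ne_zero hM (galG_ne_zero σ hx)))
    (fun y hy hne hgood => by
      -- the integral lift of `dia y`
      obtain ⟨_, y', hy'eq, hy'ne⟩ := hgood
      have hy' : coeffMap A.subtype y' ∈ FL F₀ := by rw [hy'eq]; exact (dia (elG y hy)).2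
      have hdy : dia (elG y hy) = elG y' hy' := Subtype.ext hy'eq.symm
      -- numerator and denominator
      set τ := resA A σ hσd with hτdef
      have hn : coeffMap A.subtype (coeffMap τ (coeffMap τ y') * y ^ ℓ) ∈ FL F₀ := by
        rw [map_mul, map_pow]
        exact mul_mem (hτmem _ (hτmem y' hy')) (pow_mem hy ℓ)
      have hdL : coeffMap A.subtype (qExpand A ℓ (coeffMap τ y) * normL ℓ (coeffMap τ y')) =
          heckeNorm1 ℓ dia (galG F₀ σ (elG y hy)) := by
        unfold heckeNorm1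
        rw [hdG σ (elG y hy), hdy, galG_elG σ hσd y hy (hτmem y hy),
          galG_elG σ hσd y' hy' (hτmem y' hy'), coe_elG, coe_elG, map_mul, coeffMap_qExpand,
          coeffMap_normL]
      have hd : coeffMap A.subtype (qExpand A ℓ (coeffMap τ y) * normL ℓ (coeffMap τ y')) ∈
          FL F₀ := by
        rw [hdL]; exact hM _
      have hredd : coeffMap (residue A) (qExpand A ℓ (coeffMap τ y) * normL ℓ (coeffMap τ y')) =
          coeffMap (residue A) y ^ ℓ *
            coeffMap (frobenius (ResidueField A) ℓ)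
              (coeffMap (frobenius (ResidueField A) ℓ) (coeffMap (residue A) y')) := by
        rw [map_mul, coeffMap_qExpand, coeffMap_normL, red_coeffMap_frob ℓ hτ,
          red_coeffMap_frob ℓ hτ, ← pow_char_eq_qExpand, normL_of_charP]
      have hredn : coeffMap (residue A) (coeffMap τ (coeffMap τ y') * y ^ ℓ) =
          coeffMap (residue A) (qExpand A ℓ (coeffMap τ y) * normL ℓ (coeffMap τ y')) := by
        rw [hredd, map_mul, map_pow, red_coeffMap_frob ℓ hτ, red_coeffMap_frob ℓ hτ, mul_comm]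
      refine ⟨coeffMap τ (coeffMap τ y') * y ^ ℓ,
        qExpand A ℓ (coeffMap τ y) * normL ℓ (coeffMap τ y'), hn, hd, hredn, ?_, ?_⟩
      · rw [hredd]
        exact mul_ne_zero (pow_ne_zero _ hne)
          (coeffMap_frobenius_ne_zero _ ℓ (coeffMap_frobenius_ne_zero _ ℓ hy'ne))
      · have hdel : elG (qExpand A ℓ (coeffMap τ y) * normL ℓ (coeffMap τ y')) hd =
            HN1F hM (galG F₀ σ (elG y hy)) := Subtype.ext hdL
        rw [hdel, div_mul_cancel₀ _ (HN1F_ne_zero hM (galG_ne_zero σ (elG_ne_zero hy hne)))]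
        apply Subtype.ext
        show ((galG F₀ σ (galG F₀ σ (dia (elG y hy))) : FL F₀) : LaurentSeries Qb) *
            ((elG y hy : FL F₀) : LaurentSeries Qb) ^ ℓ =
          coeffMap A.subtype (coeffMap τ (coeffMap τ y') * y ^ ℓ)
        rw [hdy, galG_elG σ hσd y' hy' (hτmem y' hy'),
          galG_elG σ hσd _ (hτmem y' hy') (hτmem _ (hτmem y' hy')), coe_elG, coe_elG, map_mul,
          map_pow])
    (fun c hc => ⟨σ (σ c) * c ^ ℓ / (σ c) ^ (ℓ + 1), by
      rw [dia.commutes, galG_algebraMap, galG_algebraMap, HN1F_algebraMap, map_div₀, map_mul,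
        map_pow, map_pow]⟩)
    (fun x hx hxd P => by
      rw [ord_div P
        (mul_ne_zero (galG_ne_zero σ (galG_ne_zero σ (hdne hx))) (pow_ne_zero _ hx))
        (HN1F_ne_zero hM (galG_ne_zero σ hx)),
        P.ord_mul (galG_ne_zero σ (galG_ne_zero σ (hdne hx))) (pow_ne_zero _ hx), ord_pow_nat]
      exact dvd_sub
        (dvd_add (galG_divDvd σ (galG_divDvd σ (dia_divDvd hxd)) P)
          (dvd_mul_of_dvd_right (hxd P) _))
        (hD (galG F₀ σ x) (HN1F hM (galG F₀ σ x)) (galG_ne_zero σ hx) rfl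
          (galG_divDvd σ hxd) P))
    u hu hdiv
  refine ⟨v, hv0, ?_⟩
  have h1 : galG F₀ σ (galG F₀ σ (dia u)) * u ^ ℓ = HN1F hM (galG F₀ σ u) * v ^ p := by
    rw [← hv, mul_div_cancel₀ _ (HN1F_ne_zero hM (galG_ne_zero σ hu))]
  rw [h1]
  rfl


end Frobenius

/-! ### Packaged statements -/

section Package

variable {F₀ : IntermediateField ℚ (LaurentSeries ℚ)} {p ℓ : ℕ}

/-- **(ES-i)** from (K18s) + (DIA-FRAC) (the latter contains (GU)). -/
theorem esInertia1_of_diaFrac (hp : 0 < p) {dia : FL F₀ ≃ₐ[Qb] FL F₀}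
    (hK : ∀ A : ValuationSubring Qb, A.LiesOverPrime ℓ → K18sG F₀ A p)
    (hGd : ∀ A : ValuationSubring Qb, A.LiesOverPrime ℓ → DiaFracG F₀ dia A) :
    ESInertia1 F₀ p ℓ :=
  fun A hA σ hσ u hu hdiv =>
    esInertia1_at hp A (hK A hA) (hGd A hA).gaussFracG σ hσ u hu hdiv

/-- **(ES-ii)** from (K18s) + (DIA-FRAC) + (HN1) + (DIA-GAL): the repaired twin of
`DS.P4.esFrob1_of_k18s`, with the SAME conclusion. -/
theorem esFrob1_of_diaFrac [NeZero ℓ] [Fact ℓ.Prime] (hp : 0 < p)
    {dia : FL F₀ ≃ₐ[Qb] FL F₀}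
    (hK : ∀ A : ValuationSubring Qb, A.LiesOverPrime ℓ → K18sG F₀ A p)
    (hGd : ∀ A : ValuationSubring Qb, A.LiesOverPrime ℓ → DiaFracG F₀ dia A)
    (hM : HNMem1 F₀ ℓ dia) (hD : HNDiv1 F₀ p ℓ dia)
    (hdG : DiaGal F₀ dia) :
    ESFrob1 F₀ p ℓ dia :=
  fun A hA σ hF u hu hdiv =>
    esFrob1_at_diaFrac hp A hA (hK A hA) (hGd A hA) hM hD hdG σ hF u hu hdiv

end Package

end Fermat.Agent.DS.P4.DiaFrac
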