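/-
GATE-N / J1-PORT node P4, repair of the (DIA-INT) interface (helper67).

`DS/P4/ESGen.lean` consumes `DiaInt F₀ dia A`: "`dia` maps an `A`-integral SERIES of nonzero
reduction to an `A`-integral SERIES of nonzero reduction".  For a nontrivial diamond this is false:
the diamond moves the cusp of the expansion, and a unit of the Gauss valuation ring which is an
integral series at one cusp need not be one at another (`1 / (ℓ + u)` with `u` of order `0` at the
first cusp and positive order at the second).  What IS true (the Gauss valuation is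
`dia`-invariant) is the weak form `DiaInt2` below: `dia y = y1 / y2` with `y1, y2` integral series
IN the function field, of nonzero reduction.

This file re-proves the Eichler–Shimura relation `esFrob1_at` of `ESGen.lean` from `DiaInt2`, with
the SAME conclusion.  The new ingredient is the Gauss-descent lemma `exists_num_den_of_series`:
an element `x` of the function field which is a quotient `N / D` of integral series of the AMBIENT
Laurent series ring with equal nonzero reductions is also such a quotient with numerator and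
denominator IN the function field (from (GU) only).
-/
import Fermat.Agent.DS.P4.ESGen

set_option autoImplicit false

namespace Fermat.Agent.DS.P4

open HahnSeries ModularCurve AlgebraicCurve IsLocalRing
open Fermat.Agent.GJ.Kum (heckeNorm normL resA coe_resA coeffMap_subtype_resA
  residue_resA_of_inertia residue_resA_of_frobenius charP_residueField red_coeffMap
  red_coeffMap_frob normL_mul normL_one normL_ne_zero normL_C coeffMap_normL normL_of_charP
  pow_char_eq_qExpand coeffMap_frobenius_ne_zero ord_pow_nat Qb)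
open Fermat.Agent.GJ.S18.Front (coeffMap_subtype_injective ord_algebraMap_eq_zero ord_div)

/-! ### Gauss descent -/

section Descent

variable {L : Type*} [Field L] [Algebra ℚ L]
variable {F₀ : IntermediateField ℚ (LaurentSeries ℚ)} {A : ValuationSubring L}

omit [Algebra ℚ L] in
theorem coeffMap_subtype_constA (c : A) :
    coeffMap A.subtype (HahnSeries.C c : LaurentSeries A) = HahnSeries.C (c : L) := by
  show coeffMap A.subtype (HahnSeries.single 0 c) = HahnSeries.single 0 (c : L)
  rw [coeffMap_single]; rfl

omit [Algebra ℚ L] in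
theorem coeffMap_residue_constA (c : A) :
    coeffMap (residue A) (HahnSeries.C c : LaurentSeries A) = HahnSeries.C (residue A c) := by
  show coeffMap (residue A) (HahnSeries.single 0 c) = HahnSeries.single 0 (residue A c)
  rw [coeffMap_single]

/-- **Gauss descent.**  If `x` in the function field satisfies `x · D = N` in the ambient Laurent
series ring, with `N, D` `A`-integral series of equal nonzero reduction (NOT assumed to lie in the
function field), then `x · d = n` with `n, d` `A`-integral series IN the function field, of equal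
nonzero reduction.  Uses only (GU). -/
theorem exists_num_den_of_series (hG : GaussFracG F₀ A) (x : laurentBaseChange L F₀)
    (N D : LaurentSeries A)
    (hND : coeffMap (residue A) N = coeffMap (residue A) D)
    (hD : coeffMap (residue A) D ≠ 0)
    (h : (x : LaurentSeries L) * coeffMap A.subtype D = coeffMap A.subtype N) :
    ∃ (n d : LaurentSeries A)
      (hn : coeffMap A.subtype n ∈ laurentBaseChange L F₀)
      (hd : coeffMap A.subtype d ∈ laurentBaseChange L F₀),
      coeffMap (residue A) n = coeffMap (residue A) d ∧ coeffMap (residue A) d ≠ 0 ∧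
        x * elG d hd = elG n hn := by
  have hN0 : N ≠ 0 := by
    intro h0
    apply hD
    rw [← hND, h0, map_zero]
  have hx : x ≠ 0 := by
    intro h0
    rw [h0, ZeroMemClass.coe_zero, zero_mul] at h
    exact hN0 (coeffMap_subtype_injective (by rw [← h, map_zero]))
  obtain ⟨c, a, b, ha, hb, hc, hane, hbne, hub⟩ := hG x hx
  have hser : (x : LaurentSeries L) * coeffMap A.subtype b =
      HahnSeries.C c * coeffMap A.subtype a := by
    have h1 := congrArg Subtype.val hub
    rw [MulMemClass.coe_mul, MulMemClass.coe_mul, coe_algebraMap_FL, coe_elG, coe_elG] at h1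
    exact h1
  have hkey : coeffMap A.subtype N * coeffMap A.subtype b =
      HahnSeries.C c * coeffMap A.subtype a * coeffMap A.subtype D := by
    rw [← h]
    linear_combination (coeffMap A.subtype D) * hser
  rcases A.mem_or_inv_mem c with hcA | hcA
  · -- `c ∈ A`
    have hkeyA : N * b = HahnSeries.C (⟨c, hcA⟩ : A) * a * D := by
      apply coeffMap_subtype_injective
      rw [map_mul, map_mul, map_mul, coeffMap_subtype_constA]
      exact hkey
    have hred := congrArg (coeffMap (residue A)) hkeyA
    rw [map_mul, map_mul, map_mul, coeffMap_residue_constA, hND] at hred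
    have hredb : coeffMap (residue A) b =
        HahnSeries.C (residue A (⟨c, hcA⟩ : A)) * coeffMap (residue A) a := by
      have h2 : coeffMap (residue A) D * (coeffMap (residue A) b -
          HahnSeries.C (residue A (⟨c, hcA⟩ : A)) * coeffMap (residue A) a) = 0 := by
        linear_combination hred
      rcases mul_eq_zero.mp h2 with h3 | h3
      · exact absurd h3 hD
      · exact sub_eq_zero.mp h3
    have hn : coeffMap A.subtype (HahnSeries.C (⟨c, hcA⟩ : A) * a) ∈ laurentBaseChange L F₀ := by
      rw [map_mul, coeffMap_subtype_constA, ← coe_algebraMap_FL (F₀ := F₀)]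
      exact (algebraMap L (laurentBaseChange L F₀) c * elG a ha).2
    refine ⟨HahnSeries.C (⟨c, hcA⟩ : A) * a, b, hn, hb, ?_, hbne, ?_⟩
    · rw [map_mul, coeffMap_residue_constA, hredb]
    · rw [hub]
      apply Subtype.ext
      rw [MulMemClass.coe_mul, coe_algebraMap_FL, coe_elG, coe_elG, map_mul, coeffMap_subtype_constA]
  · -- `c⁻¹ ∈ A`
    by_cases hu : IsUnit (⟨c⁻¹, hcA⟩ : A)
    · -- then `c ∈ A` as well
      obtain ⟨w, hw⟩ := hu.exists_right_inv
      have hw' : c⁻¹ * (w : L) = 1 := by
        have := congrArg (fun z : A => (z : L)) hw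
        simpa using this
      have hcw : c = (w : L) := by
        field_simp at hw'
        exact hw'.symm
      have hcA' : c ∈ A := hcw ▸ w.2
      have hkeyA : N * b = HahnSeries.C (⟨c, hcA'⟩ : A) * a * D := by
        apply coeffMap_subtype_injective
        rw [map_mul, map_mul, map_mul, coeffMap_subtype_constA]
        exact hkey
      have hred := congrArg (coeffMap (residue A)) hkeyA
      rw [map_mul, map_mul, map_mul, coeffMap_residue_constA, hND] at hred
      have hredb : coeffMap (residue A) b =
          HahnSeries.C (residue A (⟨c, hcA'⟩ : A)) * coeffMap (residue A) a := by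
        have h2 : coeffMap (residue A) D * (coeffMap (residue A) b -
            HahnSeries.C (residue A (⟨c, hcA'⟩ : A)) * coeffMap (residue A) a) = 0 := by
          linear_combination hred
        rcases mul_eq_zero.mp h2 with h3 | h3
        · exact absurd h3 hD
        · exact sub_eq_zero.mp h3
      have hn : coeffMap A.subtype (HahnSeries.C (⟨c, hcA'⟩ : A) * a) ∈
          laurentBaseChange L F₀ := by
        rw [map_mul, coeffMap_subtype_constA, ← coe_algebraMap_FL (F₀ := F₀)]
        exact (algebraMap L (laurentBaseChange L F₀) c * elG a ha).2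
      refine ⟨HahnSeries.C (⟨c, hcA'⟩ : A) * a, b, hn, hb, ?_, hbne, ?_⟩
      · rw [map_mul, coeffMap_residue_constA, hredb]
      · rw [hub]
        apply Subtype.ext
        rw [MulMemClass.coe_mul, coe_algebraMap_FL, coe_elG, coe_elG, map_mul,
          coeffMap_subtype_constA]
    · -- `c⁻¹` is in the maximal ideal: contradiction by reduction
      exfalso
      have hres : residue A (⟨c⁻¹, hcA⟩ : A) = 0 :=
        (residue_eq_zero_iff _).mpr ((mem_maximalIdeal _).mpr hu)
      have hkeyA : HahnSeries.C (⟨c⁻¹, hcA⟩ : A) * N * b = a * D := by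
        apply coeffMap_subtype_injective
        rw [map_mul, map_mul, map_mul, coeffMap_subtype_constA, mul_assoc, hkey]
        show HahnSeries.C c⁻¹ * (HahnSeries.C c * coeffMap A.subtype a * coeffMap A.subtype D) = _
        rw [← mul_assoc, ← mul_assoc, ← map_mul, inv_mul_cancel₀ hc, map_one, one_mul]
      have hred := congrArg (coeffMap (residue A)) hkeyA
      rw [map_mul, map_mul, map_mul, coeffMap_residue_constA, hres, map_zero, zero_mul, zero_mul] at hred
      exact mul_ne_zero hane hD hred.symm

end Descent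

/-! ### The corrected (DIA-INT) and the Eichler–Shimura relation from it -/

section Iface2

variable (F₀ : IntermediateField ℚ (LaurentSeries ℚ))

/-- **(DIA-INT), correct form**, at `A`: the diamond maps an `A`-integral series of nonzero
reduction to a QUOTIENT of two such, both in the function field (the Gauss valuation is
`dia`-invariant). -/
def DiaInt2 (dia : FL F₀ ≃ₐ[Qb] FL F₀) (A : ValuationSubring Qb) : Prop :=
  ∀ (y : LaurentSeries A) (hy : coeffMap A.subtype y ∈ FL F₀), coeffMap (residue A) y ≠ 0 →
    ∃ (y1 y2 : LaurentSeries A) (h1 : coeffMap A.subtype y1 ∈ FL F₀)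
      (h2 : coeffMap A.subtype y2 ∈ FL F₀),
      coeffMap (residue A) y1 ≠ 0 ∧ coeffMap (residue A) y2 ≠ 0 ∧
        dia (elG y hy) * elG y2 h2 = elG y1 h1

variable {F₀}

/-- the strong (series) form implies the correct one -/
theorem diaInt2_of_diaInt {dia : FL F₀ ≃ₐ[Qb] FL F₀} {A : ValuationSubring Qb}
    (h : DiaInt F₀ dia A) : DiaInt2 F₀ dia A := by
  intro y hy hne
  obtain ⟨y', hy'eq, hy'ne⟩ := h y hy hne
  have hy' : coeffMap A.subtype y' ∈ FL F₀ := by rw [hy'eq]; exact (dia (elG y hy)).2
  have h1 : coeffMap A.subtype (1 : LaurentSeries A) ∈ FL F₀ := by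
    rw [map_one]; exact one_mem _
  refine ⟨y', 1, hy', h1, hy'ne, ?_, ?_⟩
  · rw [map_one]; exact one_ne_zero
  · apply Subtype.ext
    rw [MulMemClass.coe_mul, coe_elG, coe_elG, map_one, mul_one, hy'eq]

end Iface2

section Frobenius2

variable {F₀ : IntermediateField ℚ (LaurentSeries ℚ)} {p ℓ : ℕ} [NeZero ℓ]
variable {dia : FL F₀ ≃ₐ[Qb] FL F₀}

/-- **(ES-ii) from (K18s) + (GU) + (HN1) + (DIA), correct (DIA-INT)**, at one valuation subring:
same conclusion as `esFrob1_at`. -/
theorem esFrob1_at2 [hℓ : Fact ℓ.Prime] (hp : 0 < p) (A : ValuationSubring Qb)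
    (hA : A.LiesOverPrime ℓ)
    (hK : K18sG F₀ A p) (hG : GaussFracG F₀ A)
    (hM : HNMem1 F₀ ℓ dia) (hD : HNDiv1 F₀ p ℓ dia)
    (hdI : DiaInt2 F₀ dia A) (hdG : DiaGal F₀ dia)
    (σ : Qb ≃ₐ[ℚ] Qb) (hF : A.IsFrobeniusAt σ ℓ)
    (u : FL F₀) (hu : u ≠ 0) (hdiv : DivDvdG F₀ p u) :
    ∃ v : FL F₀, v ≠ 0 ∧
      ((galG F₀ σ (galG F₀ σ (dia u)) * u ^ ℓ : FL F₀) : LaurentSeries Qb) =
        heckeNorm1 ℓ dia (galG F₀ σ u) * (v : LaurentSeries Qb) ^ p := by
  have : CharP (ResidueField A) ℓ := charP_residueField A hℓ.out hA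
  have hσd := hF.mem_decompositionSubgroup
  have hτ := residue_resA_of_frobenius A hF
  have hdne : ∀ {x : FL F₀}, x ≠ 0 → dia x ≠ 0 :=
    fun hx h => hx ((map_eq_zero_iff dia dia.injective).mp h)
  have hτmem : ∀ y, coeffMap A.subtype y ∈ FL F₀ →
      coeffMap A.subtype (coeffMap (resA A σ hσd) y) ∈ FL F₀ :=
    fun y hy => coeffMap_resA_mem_FLG σ hσd y hy
  obtain ⟨v, hv0, hv⟩ := kummer_of_exists_num_den hp hK hG
    (fun x => galG F₀ σ (galG F₀ σ (dia x)) * x ^ ℓ / HN1F hM (galG F₀ σ x))
    (fun x y => by
      rw [map_mul dia, map_mul, map_mul, map_mul, mul_pow, HN1F_mul, div_mul_div_comm]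
      congr 1; ring)
    (fun x hx => div_ne_zero
      (mul_ne_zero (galG_ne_zero σ (galG_ne_zero σ (hdne hx))) (pow_ne_zero _ hx))
      (HN1F_ne_zero hM (galG_ne_zero σ hx)))
    (fun y hy hne => by
      obtain ⟨y1, y2, h1, h2, hy1ne, hy2ne, hdy⟩ := hdI y hy hne
      -- Galois translates of `dia y · y2 = y1`
      have hdy1 : galG F₀ σ (dia (elG y hy)) *
          elG (coeffMap (resA A σ hσd) y2) (hτmem y2 h2) =
          elG (coeffMap (resA A σ hσd) y1) (hτmem y1 h1) := by
        rw [← galG_elG σ hσd y2 h2 (hτmem y2 h2), ← galG_elG σ hσd y1 h1 (hτmem y1 h1),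
          ← map_mul, hdy]
      have hdy2 : galG F₀ σ (galG F₀ σ (dia (elG y hy))) *
          elG (coeffMap (resA A σ hσd) (coeffMap (resA A σ hσd) y2))
            (hτmem _ (hτmem y2 h2)) =
          elG (coeffMap (resA A σ hσd) (coeffMap (resA A σ hσd) y1))
            (hτmem _ (hτmem y1 h1)) := by
        rw [← galG_elG σ hσd _ (hτmem y2 h2) (hτmem _ (hτmem y2 h2)),
          ← galG_elG σ hσd _ (hτmem y1 h1) (hτmem _ (hτmem y1 h1)), ← map_mul, hdy1]
      -- the four series identities
      have e1 : ((galG F₀ σ (galG F₀ σ (dia (elG y hy))) * elG y hy ^ ℓ /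
            HN1F hM (galG F₀ σ (elG y hy)) : FL F₀) : LaurentSeries Qb) *
          heckeNorm1 ℓ dia (galG F₀ σ (elG y hy)) =
          ((galG F₀ σ (galG F₀ σ (dia (elG y hy))) : FL F₀) : LaurentSeries Qb) *
            coeffMap A.subtype y ^ ℓ := by
        have h0 := div_mul_cancel₀
          (galG F₀ σ (galG F₀ σ (dia (elG y hy))) * elG y hy ^ ℓ)
          (HN1F_ne_zero hM (galG_ne_zero σ (elG_ne_zero hy hne)))
        have h0' := congrArg Subtype.val h0
        rw [MulMemClass.coe_mul, MulMemClass.coe_mul, SubmonoidClass.coe_pow, coe_HN1F,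
          coe_elG] at h0'
        exact h0'
      have e2 : ((galG F₀ σ (galG F₀ σ (dia (elG y hy))) : FL F₀) : LaurentSeries Qb) *
          coeffMap A.subtype (coeffMap (resA A σ hσd) (coeffMap (resA A σ hσd) y2)) =
          coeffMap A.subtype (coeffMap (resA A σ hσd) (coeffMap (resA A σ hσd) y1)) := by
        have h0' := congrArg Subtype.val hdy2
        rw [MulMemClass.coe_mul, coe_elG, coe_elG] at h0'
        exact h0'
      have e3 : heckeNorm1 ℓ dia (galG F₀ σ (elG y hy)) =
          coeffMap A.subtype (qExpand A ℓ (coeffMap (resA A σ hσd) y)) *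
            normL ℓ ((galG F₀ σ (dia (elG y hy)) : FL F₀) : LaurentSeries Qb) := by
        unfold heckeNorm1
        rw [hdG σ (elG y hy), galG_elG σ hσd y hy (hτmem y hy), coe_elG, coeffMap_qExpand]
      have e4 : normL ℓ ((galG F₀ σ (dia (elG y hy)) : FL F₀) : LaurentSeries Qb) *
          coeffMap A.subtype (normL ℓ (coeffMap (resA A σ hσd) y2)) =
          coeffMap A.subtype (normL ℓ (coeffMap (resA A σ hσd) y1)) := by
        have h0' := congrArg Subtype.val hdy1
        rw [MulMemClass.coe_mul, coe_elG, coe_elG] at h0'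
        rw [coeffMap_normL, coeffMap_normL, ← h0', normL_mul]
      -- numerator and denominator in the ambient ring
      have hredN : coeffMap (residue A)
          (coeffMap (resA A σ hσd) (coeffMap (resA A σ hσd) y1) * y ^ ℓ *
            normL ℓ (coeffMap (resA A σ hσd) y2)) =
          coeffMap (frobenius (ResidueField A) ℓ)
              (coeffMap (frobenius (ResidueField A) ℓ) (coeffMap (residue A) y1)) *
            coeffMap (residue A) y ^ ℓ *
            coeffMap (frobenius (ResidueField A) ℓ)
              (coeffMap (frobenius (ResidueField A) ℓ) (coeffMap (residue A) y2)) := by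
        rw [map_mul, map_mul, map_pow, coeffMap_normL, red_coeffMap_frob ℓ hτ,
          red_coeffMap_frob ℓ hτ, red_coeffMap_frob ℓ hτ, normL_of_charP]
      have hredD : coeffMap (residue A)
          (coeffMap (resA A σ hσd) (coeffMap (resA A σ hσd) y2) *
            (qExpand A ℓ (coeffMap (resA A σ hσd) y) *
              normL ℓ (coeffMap (resA A σ hσd) y1))) =
          coeffMap (frobenius (ResidueField A) ℓ)
              (coeffMap (frobenius (ResidueField A) ℓ) (coeffMap (residue A) y2)) *
            (coeffMap (residue A) y ^ ℓ *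
            coeffMap (frobenius (ResidueField A) ℓ)
              (coeffMap (frobenius (ResidueField A) ℓ) (coeffMap (residue A) y1))) := by
        rw [map_mul, map_mul, coeffMap_qExpand, coeffMap_normL, red_coeffMap_frob ℓ hτ,
          red_coeffMap_frob ℓ hτ, red_coeffMap_frob ℓ hτ, red_coeffMap_frob ℓ hτ,
          ← pow_char_eq_qExpand, normL_of_charP]
      refine exists_num_den_of_series hG _
        (coeffMap (resA A σ hσd) (coeffMap (resA A σ hσd) y1) * y ^ ℓ *
            normL ℓ (coeffMap (resA A σ hσd) y2))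
        (coeffMap (resA A σ hσd) (coeffMap (resA A σ hσd) y2) *
            (qExpand A ℓ (coeffMap (resA A σ hσd) y) *
              normL ℓ (coeffMap (resA A σ hσd) y1))) ?_ ?_ ?_
      · rw [hredN, hredD]; ring
      · rw [hredD]
        exact mul_ne_zero
          (coeffMap_frobenius_ne_zero _ ℓ (coeffMap_frobenius_ne_zero _ ℓ hy2ne))
          (mul_ne_zero (pow_ne_zero _ hne)
            (coeffMap_frobenius_ne_zero _ ℓ (coeffMap_frobenius_ne_zero _ ℓ hy1ne)))
      · rw [e3] at e1
        rw [map_mul, map_mul, map_mul, map_mul, map_pow]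
        linear_combination
          (-(((galG F₀ σ (galG F₀ σ (dia (elG y hy))) * elG y hy ^ ℓ /
            HN1F hM (galG F₀ σ (elG y hy)) : FL F₀) : LaurentSeries Qb) *
            coeffMap A.subtype (coeffMap (resA A σ hσd) (coeffMap (resA A σ hσd) y2)) *
            coeffMap A.subtype (qExpand A ℓ (coeffMap (resA A σ hσd) y)))) * e4 +
          (coeffMap A.subtype (coeffMap (resA A σ hσd) (coeffMap (resA A σ hσd) y2)) *
            coeffMap A.subtype (normL ℓ (coeffMap (resA A σ hσd) y2))) * e1 +
          (coeffMap A.subtype y ^ ℓ *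
            coeffMap A.subtype (normL ℓ (coeffMap (resA A σ hσd) y2))) * e2)
    (fun c hc => ⟨σ (σ c) * c ^ ℓ / (σ c) ^ (ℓ + 1), by
      rw [dia.commutes, galG_algebraMap, galG_algebraMap, HN1F_algebraMap, map_div₀, map_mul,
        map_pow, map_pow]⟩)
    (fun x hx hxd P => by
      rw [ord_div P
        (mul_ne_zero (galG_ne_zero σ (galG_ne_zero σ (hdne hx))) (pow_ne_zero _ hx))
        (HN1F_ne_zero hM (galG_ne_zero σ hx)),
        P.ord_mul (galG_ne_zero σ (galG_ne_zero σ (hdne hx))) (pow_ne_zero _ hx), ord_pow_nat]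
      exact dvd_sub
        (dvd_add (galG_divDvd σ (galG_divDvd σ (dia_divDvd hxd)) P)
          (dvd_mul_of_dvd_right (hxd P) _))
        (hD (galG F₀ σ x) (HN1F hM (galG F₀ σ x)) (galG_ne_zero σ hx) rfl
          (galG_divDvd σ hxd) P))
    u hu hdiv
  refine ⟨v, hv0, ?_⟩
  have h1 : galG F₀ σ (galG F₀ σ (dia u)) * u ^ ℓ = HN1F hM (galG F₀ σ u) * v ^ p := by
    rw [← hv, mul_div_cancel₀ _ (HN1F_ne_zero hM (galG_ne_zero σ hu))]
  rw [h1]
  rfl

end Frobenius2

/-! ### Packaged statement -/

section Package2

variable {F₀ : IntermediateField ℚ (LaurentSeries ℚ)} {p ℓ : ℕ}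

/-- **(ES-ii)** from (K18s) + (GU) + (HN1) + (DIA) with the correct (DIA-INT). -/
theorem esFrob1_of_k18s2 [NeZero ℓ] [Fact ℓ.Prime] (hp : 0 < p)
    {dia : FL F₀ ≃ₐ[Qb] FL F₀}
    (hK : ∀ A : ValuationSubring Qb, A.LiesOverPrime ℓ → K18sG F₀ A p)
    (hG : ∀ A : ValuationSubring Qb, A.LiesOverPrime ℓ → GaussFracSeriesG F₀ A)
    (hM : HNMem1 F₀ ℓ dia) (hD : HNDiv1 F₀ p ℓ dia)
    (hdI : ∀ A : ValuationSubring Qb, A.LiesOverPrime ℓ → DiaInt2 F₀ dia A)
    (hdG : DiaGal F₀ dia) :
    ESFrob1 F₀ p ℓ dia :=
  fun A hA σ hF u hu hdiv =>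
    esFrob1_at2 hp A hA (hK A hA) (gaussFracG_of_series (hG A hA)) hM hD (hdI A hA) hdG σ hF u hu
      hdiv

end Package2

end Fermat.Agent.DS.P4
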