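/-
GATE-N / S48 J1-port, P4, leaf S48-P4-HNDIV-DESC (helper18): **(HN1-div) over `ℚ̄` from the analytic
statement over `ℂ`**, generic in the field `F₀ ⊂ ℚ((q))` of rational `q`-expansions.

Setting (helper17's `DS/P4/ESGen`): `FL F₀ = laurentBaseChange ℚ̄ F₀`, `dia : FL F₀ ≃ₐ[ℚ̄] FL F₀` the
diamond, `heckeNorm1 ℓ dia u = u(q^ℓ) · N_ℓ(dia u)` the multiplicative Hecke operator of the
`Γ¹`-model, `HNDiv1 F₀ p ℓ dia` = "`heckeNorm1` preserves `p ∣ div`" (the binder `hD` of helper69's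
`PortAsm.portExport1_of_leaves`), `HNMem1 F₀ ℓ dia` = "`heckeNorm1` maps `FL` into `FL`" (binder `hM`).

Over `ℂ`: `FC = laurentBaseChange ℂ F₀`, `bcG F₀ : FL F₀ →+* FC` (helper49's `Desc1G`), a realisation
`realC : FC →+* Mer` and an analytic multiplicative operator `Nm : Mer → Mer` (instance:
`heckeNormT1 ℓ σ = normG (rep1 ℓ σ)`, helper49's `HeckeMer1`).

* `hnDiv1_of_an` : (AN) `realC Tw = Nm (realC w) ∧ p ∣ div w ⟹ p ∣ div Tw` over `ℂ` (helper17's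
  `HNDivAn.dvd_ord_merSys` at the instance) + (HN) `realC (bc x) = Nm (realC (bc (dia u)))` whenever
  `x = heckeNorm1 ℓ dia u` ⟹ `HNDiv1 F₀ p ℓ dia`.  Proof: `D1G ∘ (AN) ∘ D1convG ∘ dia_divDvd`.
* `hHN_of_hecke1`, `hnMem1_of_hecke1` : (HN) and `HNMem1` from helper62's `HN1Q1.exists_hecke1_of_real`
  shape (H1) and helper45's diamond law (DIA) `compM σ (realC (bc (dia u))) = realC (bc u)`.
* `hnDiv1_of_hecke1`, `hnDiv1_heckeNormT1` : the two combined; the second one at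
  `Nm := heckeNormT1 ℓ σ`.
* `hnDiv1_P5`, `hnMem1_P5` : the same in helper69's `KumType1.HNDiv1 / HNMem1` shape (instance
  `[NeZero ℓ]` quantified inside), i.e. the binders `hD`, `hM` of `portExport1_of_leaves` VERBATIM
  once `δ := diaP dia hq hqM`.
-/
import Mathlib
import Fermat.Agent.DS.P4.ESGen
import Fermat.Agent.DS.P3.Desc1G
import Fermat.Agent.DS.P3.HeckeMer1
import Fermat.Agent.DS.P5.FromP4

set_option autoImplicit false
set_option linter.unusedSectionVars false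
set_option linter.style.haveILetI false

open AlgebraicCurve ModularCurve
open scoped MatrixGroups

noncomputable section

namespace Fermat.Agent.DS.P4.HNDivDesc

open Fermat.Agent.S24 Fermat.Agent.S24_helper82 Fermat.Agent.GJ.Desc Fermat.Agent.GJ.Kum
open Fermat.Agent.DS.P3.Desc1G Fermat.Agent.DS.P3.EigDescG Fermat.Agent.DS.P3.HeckeMer1
open Fermat.Agent.GJ.EigAsm (algKbC)

attribute [local instance] Fermat.Agent.GJ.EigAsm.algKbC

variable (F₀ : IntermediateField ℚ (LaurentSeries ℚ))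

/-! ### The generic descent -/

/-- **(HN1-div) over `ℚ̄` from the analytic statement over `ℂ`.** -/
theorem hnDiv1_of_an (p ℓ : ℕ) [Fact p.Prime] [NeZero ℓ] (dia : FL F₀ ≃ₐ[Qb] FL F₀)
    (x₀ : FL F₀) [IsGen Qb x₀]
    (realC : ↥(laurentBaseChange ℂ F₀) →+* Mer) (Nm : Mer → Mer)
    (hAN : ∀ w Tw : ↥(laurentBaseChange ℂ F₀), realC Tw = Nm (realC w) →
      (∀ Q : Place ℂ ↥(laurentBaseChange ℂ F₀), (p : ℤ) ∣ Q.ord w) →
      ∀ Q : Place ℂ ↥(laurentBaseChange ℂ F₀), (p : ℤ) ∣ Q.ord Tw)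
    (hHN : ∀ u x : FL F₀, (x : LaurentSeries Qb) = heckeNorm1 ℓ dia u →
      realC (bcG F₀ x) = Nm (realC (bcG F₀ (dia u)))) :
    HNDiv1 F₀ p ℓ dia := by
  intro u x _ hx hdiv
  refine d1G F₀ p x₀ x ?_
  exact hAN (bcG F₀ (dia u)) (bcG F₀ x) (hHN u x hx)
    (d1convG F₀ p (dia u) (dia_divDvd hdiv))

/-! ### The bridge from the analytic Hecke norm -/

section Bridge

variable {F₀}
variable {ℓ : ℕ} [NeZero ℓ] (dia : FL F₀ ≃ₐ[Qb] FL F₀)
  (realC : ↥(laurentBaseChange ℂ F₀) →+* Mer) (Nm : Mer → Mer) (σ : SL(2, ℤ))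

/-- **(H1)** the shape of helper62's `HN1Q1.exists_hecke1_of_real` at `K := ℚ̄`: if `w` realises the
`σ`-twist-inverse of `u`, the series `u(q^ℓ) · N_ℓ(w)` is in the field and is realised by
`Nm (real w)`. -/
def Hecke1Real : Prop :=
  ∀ u w : FL F₀, compM σ (realC (bcG F₀ w)) = realC (bcG F₀ u) →
    ∃ T : FL F₀, (T : LaurentSeries Qb) =
        qExpand Qb ℓ (u : LaurentSeries Qb) * normL ℓ (w : LaurentSeries Qb) ∧
      realC (bcG F₀ T) = Nm (realC (bcG F₀ w))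

/-- **(DIA)** the shape of helper45's diamond law: `dia` is realised by the inverse of `compM σ`. -/
def DiaReal : Prop :=
  ∀ u : FL F₀, compM σ (realC (bcG F₀ (dia u))) = realC (bcG F₀ u)

variable {dia realC Nm σ}

/-- (HN1-mem) from (H1) + (DIA). -/
theorem hnMem1_of_hecke1 (hH1 : Hecke1Real (ℓ := ℓ) realC Nm σ) (hDia : DiaReal dia realC σ) :
    HNMem1 F₀ ℓ dia := by
  intro u
  obtain ⟨T, hT, -⟩ := hH1 u (dia u) (hDia u)
  have : heckeNorm1 ℓ dia u = (T : LaurentSeries Qb) := hT.symm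
  rw [this]
  exact T.2

/-- (HN) from (H1) + (DIA). -/
theorem hHN_of_hecke1 (hH1 : Hecke1Real (ℓ := ℓ) realC Nm σ) (hDia : DiaReal dia realC σ)
    (u x : FL F₀) (hx : (x : LaurentSeries Qb) = heckeNorm1 ℓ dia u) :
    realC (bcG F₀ x) = Nm (realC (bcG F₀ (dia u))) := by
  obtain ⟨T, hT, hreal⟩ := hH1 u (dia u) (hDia u)
  have hxT : x = T := Subtype.ext (hx.trans hT.symm)
  rw [hxT]
  exact hreal

/-- **(HN1-div) from (AN) + (H1) + (DIA).** -/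
theorem hnDiv1_of_hecke1 (p : ℕ) [Fact p.Prime] (x₀ : FL F₀) [IsGen Qb x₀]
    (hAN : ∀ w Tw : ↥(laurentBaseChange ℂ F₀), realC Tw = Nm (realC w) →
      (∀ Q : Place ℂ ↥(laurentBaseChange ℂ F₀), (p : ℤ) ∣ Q.ord w) →
      ∀ Q : Place ℂ ↥(laurentBaseChange ℂ F₀), (p : ℤ) ∣ Q.ord Tw)
    (hH1 : Hecke1Real (ℓ := ℓ) realC Nm σ) (hDia : DiaReal dia realC σ) :
    HNDiv1 F₀ p ℓ dia :=
  hnDiv1_of_an F₀ p ℓ dia x₀ realC Nm hAN (hHN_of_hecke1 hH1 hDia)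

/-- the same at `Nm := heckeNormT1 ℓ σ` (the product over helper10's representatives `rep1 ℓ σ`). -/
theorem hnDiv1_heckeNormT1 (p : ℕ) [Fact p.Prime] (x₀ : FL F₀) [IsGen Qb x₀]
    (hAN : ∀ w Tw : ↥(laurentBaseChange ℂ F₀), realC Tw = heckeNormT1 ℓ σ (realC w) →
      (∀ Q : Place ℂ ↥(laurentBaseChange ℂ F₀), (p : ℤ) ∣ Q.ord w) →
      ∀ Q : Place ℂ ↥(laurentBaseChange ℂ F₀), (p : ℤ) ∣ Q.ord Tw)
    (hH1 : Hecke1Real (ℓ := ℓ) realC (heckeNormT1 ℓ σ) σ) (hDia : DiaReal dia realC σ) :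
    HNDiv1 F₀ p ℓ dia :=
  hnDiv1_of_hecke1 p x₀ hAN hH1 hDia

end Bridge

/-! ### The shapes of helper69's `KumType1` (instance quantified inside) -/

section P5

variable {F₀}
variable {ℓ : ℕ} {δ : FL F₀ ≃ₐ[Qb] FL F₀}
  {realC : ↥(laurentBaseChange ℂ F₀) →+* Mer} {σ : SL(2, ℤ)}

/-- the binder `hM` of `PortAsm.portExport1_of_leaves` (at `δ := diaP dia hq hqM`). -/
theorem hnMem1_P5 {Nm : Mer → Mer}
    (hH1 : ∀ [NeZero ℓ], Hecke1Real (ℓ := ℓ) realC Nm σ) (hDia : DiaReal δ realC σ) :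
    Fermat.Agent.DS.P5.KumType1.HNMem1 ℓ δ :=
  Fermat.Agent.DS.P5.FromP4.hnMem1_of_P4 fun {_} => hnMem1_of_hecke1 hH1 hDia

/-- the binder `hD` of `PortAsm.portExport1_of_leaves` (at `δ := diaP dia hq hqM`). -/
theorem hnDiv1_P5 (p : ℕ) [Fact p.Prime] (x₀ : FL F₀) [IsGen Qb x₀]
    (hAN : ∀ [NeZero ℓ] (w Tw : ↥(laurentBaseChange ℂ F₀)), realC Tw = heckeNormT1 ℓ σ (realC w) →
      (∀ Q : Place ℂ ↥(laurentBaseChange ℂ F₀), (p : ℤ) ∣ Q.ord w) →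
      ∀ Q : Place ℂ ↥(laurentBaseChange ℂ F₀), (p : ℤ) ∣ Q.ord Tw)
    (hH1 : ∀ [NeZero ℓ], Hecke1Real (ℓ := ℓ) realC (heckeNormT1 ℓ σ) σ)
    (hDia : DiaReal δ realC σ) :
    Fermat.Agent.DS.P5.KumType1.HNDiv1 p ℓ δ :=
  Fermat.Agent.DS.P5.FromP4.hnDiv1_of_P4 fun {_} => hnDiv1_heckeNormT1 p x₀ hAN hH1 hDia

end P5

end Fermat.Agent.DS.P4.HNDivDesc
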