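/-
GATE-N / J1-PORT node P4 (helper17): **the ORBIT-NORM lemma** (Mathlib only).

`F ⊆ F'` a finite separable field extension, `Ω` a field with an `F`-algebra structure,
`s : X → (F' →ₐ[F] Ω)` a finite family of `F`-embeddings (in the application: the `ℓ + 1`
translates `f ↦ (real f) ∘ γ_x⁻¹` of the realisation of the level-`Γ ∩ Γ₀(ℓ)` field in `Mer`).

Hypotheses:
* (POLY) for every `y : F'` the polynomial `∏_x (T - s_x y)` has coefficients in `F`
  (in the application: its coefficients are `Γ`-invariant, hence in the image of `F` by field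
  generation — `poly_of_sat` below derives (POLY) from such a saturation statement);
* (TRANS) a group `G` acts transitively on `X` and `s x = s x' → s (g • x) = s (g • x')`.

Conclusion (`prod_eq_norm_pow`): there is `k` with `k * [F' : F] = #X` and

  `∏_x s_x y = (Norm_{F'/F} y) ^ k`     for all `y : F'`.

No knowledge of the degree `[F' : F]` and no distinctness of the `s_x` is needed.
-/
import Mathlib

set_option autoImplicit false

namespace Fermat.Agent.DS.P4.OrbitNorm

open Polynomial

section Embeddings

variable {F F' Ω : Type*} [Field F] [Field F'] [Field Ω] [Algebra F F'] [Algebra F Ω]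
variable {X : Type*} [Fintype X]

/-- **All embeddings are among the `s_x`.**  If every `∏_x (T - s_x y)` has coefficients in `F`,
then every `F`-embedding of `F'` into an extension `E` of `Ω` is one of the `s_x`. -/
theorem exists_eq_comp [FiniteDimensional F F'] [Algebra.IsSeparable F F'] [Nonempty X]
    (s : X → (F' →ₐ[F] Ω))
    (hpoly : ∀ y : F', ∃ P : F[X],
      P.map (algebraMap F Ω) = ∏ x, (Polynomial.X - Polynomial.C (s x y)))
    {E : Type*} [Field E] [Algebra Ω E] [Algebra F E] [IsScalarTower F Ω E]
    (τ : F' →ₐ[F] E) : ∃ x, τ = (IsScalarTower.toAlgHom F Ω E).comp (s x) := by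
  classical
  obtain ⟨α, hα⟩ := Field.exists_primitive_element F F'
  obtain ⟨P, hP⟩ := hpoly α
  have x₀ : X := Classical.arbitrary X
  -- `P(α) = 0`
  have h1 : aeval α P = 0 := by
    have h : s x₀ (aeval α P) = 0 := by
      rw [← aeval_algHom_apply, aeval_def, ← eval_map, hP, eval_prod]
      exact Finset.prod_eq_zero (Finset.mem_univ x₀) (by simp)
    exact (map_eq_zero_iff _ (s x₀).toRingHom.injective).mp h
  -- `τ α` is a root of the image of `P` in `E[T]`
  have h2 : (P.map (algebraMap F E)).eval (τ α) = 0 := by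
    rw [eval_map, ← aeval_def, aeval_algHom_apply, h1, map_zero]
  have h3 : P.map (algebraMap F E) =
      ∏ x, (Polynomial.X - Polynomial.C (algebraMap Ω E (s x α))) := by
    rw [IsScalarTower.algebraMap_eq F Ω E, ← Polynomial.map_map, hP, Polynomial.map_prod]
    refine Finset.prod_congr rfl fun x _ => ?_
    rw [Polynomial.map_sub, Polynomial.map_X, Polynomial.map_C]
  rw [h3, eval_prod, Finset.prod_eq_zero_iff] at h2
  obtain ⟨x, -, hx⟩ := h2
  have hx' : τ α = algebraMap Ω E (s x α) := by
    rw [eval_sub, eval_X, eval_C, sub_eq_zero] at hx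
    exact hx
  refine ⟨x, ?_⟩
  have hint : IsAlgebraic F α := (Algebra.IsIntegral.isIntegral α).isAlgebraic
  have htop : Algebra.adjoin F {α} = ⊤ := by
    rw [← IntermediateField.adjoin_simple_toSubalgebra_of_isAlgebraic hint, hα]
    rfl
  refine AlgHom.ext_of_adjoin_eq_top htop ?_
  intro z hz
  rw [Set.mem_singleton_iff] at hz
  subst hz
  exact hx'

end Embeddings

section Fibres

variable {X T : Type*} [Fintype X] [DecidableEq T]
variable {G : Type*} [Group G] [MulAction G X] [MulAction.IsPretransitive G X]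

/-- all fibres of a map compatible with a transitive action have the same cardinality -/
theorem card_fiber_eq (t : X → T)
    (heq : ∀ (g : G) (x x' : X), t x = t x' → t (g • x) = t (g • x')) (x x' : X) :
    (Finset.univ.filter fun a => t a = t x).card =
      (Finset.univ.filter fun a => t a = t x').card := by
  obtain ⟨g, rfl⟩ := MulAction.exists_smul_eq G x x'
  refine Finset.card_bij (fun a _ => g • a) ?_ ?_ ?_
  · intro a ha
    rw [Finset.mem_filter] at ha ⊢
    exact ⟨Finset.mem_univ _, heq g a x ha.2⟩
  · intro a _ b _ hab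
    exact MulAction.injective g hab
  · intro b hb
    rw [Finset.mem_filter] at hb
    refine ⟨g⁻¹ • b, ?_, smul_inv_smul g b⟩
    rw [Finset.mem_filter]
    refine ⟨Finset.mem_univ _, ?_⟩
    have := heq g⁻¹ b (g • x) hb.2
    rwa [inv_smul_smul] at this

end Fibres

section Main

variable {F F' Ω : Type*} [Field F] [Field F'] [Field Ω] [Algebra F F'] [Algebra F Ω]
variable [FiniteDimensional F F'] [Algebra.IsSeparable F F']
variable {X : Type*} [Fintype X] [Nonempty X]
variable {G : Type*} [Group G] [MulAction G X] [MulAction.IsPretransitive G X]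

/-- **ORBIT-NORM.**  The product of a transitive family of `F`-embeddings, whose symmetric
functions are `F`-rational, is a power of the norm. -/
theorem prod_eq_norm_pow (s : X → (F' →ₐ[F] Ω))
    (hpoly : ∀ y : F', ∃ P : F[X],
      P.map (algebraMap F Ω) = ∏ x, (Polynomial.X - Polynomial.C (s x y)))
    (heq : ∀ (g : G) (x x' : X), s x = s x' → s (g • x) = s (g • x')) :
    ∃ k : ℕ, k * Module.finrank F F' = Fintype.card X ∧
      ∀ y : F', ∏ x, s x y = algebraMap F Ω (Algebra.norm F y) ^ k := by
  classical
  let E := AlgebraicClosure Ω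
  let t : X → (F' →ₐ[F] E) := fun x => (IsScalarTower.toAlgHom F Ω E).comp (s x)
  have ht : ∀ x y, t x y = algebraMap Ω E (s x y) := fun x y => rfl
  have hinjE : Function.Injective (algebraMap Ω E) := (algebraMap Ω E).injective
  -- `t x = t x' ↔ s x = s x'`
  have htinj : ∀ x x', t x = t x' → s x = s x' := by
    intro x x' h
    ext y
    apply hinjE
    rw [← ht, ← ht, h]
  have hteq : ∀ (g : G) (x x' : X), t x = t x' → t (g • x) = t (g • x') := by
    intro g x x' h
    show (IsScalarTower.toAlgHom F Ω E).comp (s (g • x)) =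
      (IsScalarTower.toAlgHom F Ω E).comp (s (g • x'))
    rw [heq g x x' (htinj x x' h)]
  -- surjectivity of `t`
  have hsurj : Function.Surjective t := fun τ => by
    obtain ⟨x, hx⟩ := exists_eq_comp s hpoly τ
    exact ⟨x, hx.symm⟩
  have himage : (Finset.univ : Finset X).image t = Finset.univ := by
    ext τ
    simp only [Finset.mem_image, Finset.mem_univ, true_and, iff_true]
    exact hsurj τ
  have x₀ : X := Classical.arbitrary X
  let k : ℕ := (Finset.univ.filter fun a => t a = t x₀).card
  have hk : ∀ τ : F' →ₐ[F] E, (Finset.univ.filter fun a => t a = τ).card = k := by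
    intro τ
    obtain ⟨x, rfl⟩ := hsurj τ
    exact card_fiber_eq (G := G) t hteq x x₀
  refine ⟨k, ?_, fun y => ?_⟩
  · -- counting
    have h1 : Fintype.card X = ∑ τ ∈ (Finset.univ : Finset X).image t,
        (Finset.univ.filter fun a => t a = τ).card := by
      rw [← Finset.card_univ]
      exact Finset.card_eq_sum_card_image t Finset.univ
    rw [h1, himage, Finset.sum_congr rfl fun τ _ => hk τ, Finset.sum_const, Finset.card_univ,
      AlgHom.card F F' E, smul_eq_mul, mul_comm]
  · apply hinjE
    rw [map_prod, map_pow, ← IsScalarTower.algebraMap_apply F Ω E,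
      Algebra.norm_eq_prod_embeddings F E y]
    have h2 : ∏ x, algebraMap Ω E (s x y) = ∏ x, (fun τ : F' →ₐ[F] E => τ y) (t x) :=
      Finset.prod_congr rfl fun x _ => (ht x y).symm
    rw [h2, Finset.prod_comp (fun τ : F' →ₐ[F] E => τ y) t, himage, ← Finset.prod_pow]
    exact Finset.prod_congr rfl fun τ _ => by rw [hk τ]

end Main

section Sat

variable {F F' Ω : Type*} [Field F] [Field F'] [Field Ω] [Algebra F F'] [Algebra F Ω]
variable {X : Type*} [Fintype X]
variable {G : Type*} [Group G] [MulAction G X]

/-- **(POLY) from saturation.**  If a family `ρ g` of ring endomorphisms of `Ω` permutes the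
embeddings (`ρ g ∘ s x = s (g • x)`) and every `ρ`-invariant element of a subring `Ω₁ ⊇ s_x(F')`
comes from `F`, then all `∏_x (T - s_x y)` have coefficients in `F`. -/
theorem poly_of_sat (s : X → (F' →ₐ[F] Ω)) (ρ : G → (Ω →+* Ω))
    (hρs : ∀ (g : G) (x : X) (y : F'), ρ g (s x y) = s (g • x) y)
    (Ω₁ : Subring Ω) (hmem : ∀ (x : X) (y : F'), s x y ∈ Ω₁)
    (hsat : ∀ z ∈ Ω₁, (∀ g : G, ρ g z = z) → z ∈ (algebraMap F Ω).range) (y : F') :
    ∃ P : F[X], P.map (algebraMap F Ω) = ∏ x, (Polynomial.X - Polynomial.C (s x y)) := by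
  classical
  set Q : Polynomial Ω := ∏ x, (Polynomial.X - Polynomial.C (s x y)) with hQ
  -- invariance
  have hinv : ∀ g : G, Q.map (ρ g) = Q := by
    intro g
    rw [hQ, Polynomial.map_prod]
    have h1 : ∀ x, (Polynomial.X - Polynomial.C (s x y)).map (ρ g) =
        Polynomial.X - Polynomial.C (s (g • x) y) := by
      intro x
      rw [Polynomial.map_sub, Polynomial.map_X, Polynomial.map_C, hρs]
    rw [Finset.prod_congr rfl fun x _ => h1 x]
    exact Fintype.prod_equiv (MulAction.toPerm g) _ _ fun x => rfl
  -- coefficients in `Ω₁`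
  have hcoeff : ∀ n, Q.coeff n ∈ Ω₁ := by
    intro n
    let Q₁ : Polynomial Ω₁ := ∏ x, (Polynomial.X - Polynomial.C (⟨s x y, hmem x y⟩ : Ω₁))
    have hQ₁ : Q₁.map Ω₁.subtype = Q := by
      rw [hQ, Polynomial.map_prod]
      refine Finset.prod_congr rfl fun x _ => ?_
      rw [Polynomial.map_sub, Polynomial.map_X, Polynomial.map_C]
      rfl
    rw [← hQ₁, Polynomial.coeff_map]
    exact (Q₁.coeff n).2
  have hlift : Q ∈ Polynomial.lifts (algebraMap F Ω) := by
    rw [Polynomial.lifts_iff_coeff_lifts]
    intro n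
    have h := hsat (Q.coeff n) (hcoeff n) fun g => by
      have := congrArg (fun R : Polynomial Ω => R.coeff n) (hinv g)
      simpa [Polynomial.coeff_map] using this
    exact h
  exact (Polynomial.mem_lifts _).mp hlift

/-- **ORBIT-NORM from saturation** (the form used for the Hecke norm). -/
theorem prod_eq_norm_pow_of_sat [FiniteDimensional F F'] [Algebra.IsSeparable F F'] [Nonempty X]
    [MulAction.IsPretransitive G X] (s : X → (F' →ₐ[F] Ω)) (ρ : G → (Ω →+* Ω))
    (hρs : ∀ (g : G) (x : X) (y : F'), ρ g (s x y) = s (g • x) y)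
    (Ω₁ : Subring Ω) (hmem : ∀ (x : X) (y : F'), s x y ∈ Ω₁)
    (hsat : ∀ z ∈ Ω₁, (∀ g : G, ρ g z = z) → z ∈ (algebraMap F Ω).range) :
    ∃ k : ℕ, k * Module.finrank F F' = Fintype.card X ∧
      ∀ y : F', ∏ x, s x y = algebraMap F Ω (Algebra.norm F y) ^ k := by
  refine prod_eq_norm_pow (G := G) s (poly_of_sat s ρ hρs Ω₁ hmem hsat) ?_
  intro g x x' h
  ext y
  rw [← hρs, ← hρs, h]

end Sat

end Fermat.Agent.DS.P4.OrbitNorm
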