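/-
GATE-N / J1-PORT node P4 (helper17): **the Hecke norm preserves `p ∣ div`, generic fields form.**

`ψ φ : F →ₐ[K] F'` (`ψ` = the inclusion `F ⊆ F'`, `φ` = `u ↦ u(q^ℓ)`), `r : F →+* Ω` a realisation,
`s x : F' →+* Ω` (`x ∈ X`, a finite set) realisations of `F'` extending `r` along `ψ`, permuted
transitively by a group `G` acting on `Ω` (`ρ g ∘ s x = s (g • x)`), and (SAT): every `ρ`-invariant
element of a subring `Ω₁ ⊇ s_x(F')` lies in `r(F)`.  Then for `u, Tu : F` with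

  `r Tu = ∏_x s_x (φ u)`

(`Tu` = the multiplicative Hecke operator applied to `u`) `p ∣ div u` implies `p ∣ div Tu`:
by the ORBIT-NORM lemma `Tu = (Norm_ψ (φ u))^k`, and `OrdNorm.dvd_ord_normAlong`.
-/
import Fermat.Agent.DS.P4.OrbitNorm
import Fermat.Agent.GJ.HInputs.OrdNorm

set_option autoImplicit false
set_option linter.style.haveILetI false

namespace Fermat.Agent.DS.P4.HNDivGen

open AlgebraicCurve Fermat.Agent.GJ.HInputs Fermat.Agent.DS.P4.OrbitNorm

variable {K F F' Ω : Type*} [Field K] [Field F] [Field F'] [Field Ω] [Algebra K F] [Algebra K F']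
variable {X : Type*} [Fintype X] [Nonempty X]
variable {G : Type*} [Group G] [MulAction G X] [MulAction.IsPretransitive G X]

theorem ord_pow_nat' (P : Place K F) (f : F) (n : ℕ) : P.ord (f ^ n) = n * P.ord f := by
  rcases eq_or_ne f 0 with rfl | hf
  · rcases Nat.eq_zero_or_pos n with rfl | hn
    · simp
    · rw [zero_pow hn.ne', Place.ord_zero, mul_zero]
  induction n with
  | zero => simp
  | succ n ih =>
    rw [pow_succ, P.ord_mul (pow_ne_zero n hf) hf, ih]
    push_cast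
    ring

/-- **the product of the translates is a power of the norm** -/
theorem eq_normAlong_pow [CharZero K] (ψ : F →ₐ[K] F') (hfin : FiniteAlong K ψ)
    (r : F →+* Ω) (s : X → (F' →+* Ω)) (hs : ∀ x f, s x (ψ f) = r f)
    (ρ : G → (Ω →+* Ω)) (hρs : ∀ (g : G) (x : X) (y : F'), ρ g (s x y) = s (g • x) y)
    (Ω₁ : Subring Ω) (hmem : ∀ (x : X) (y : F'), s x y ∈ Ω₁)
    (hsat : ∀ z ∈ Ω₁, (∀ g : G, ρ g z = z) → z ∈ r.range) :
    ∃ k : ℕ, ∀ (y : F') (Ty : F), r Ty = ∏ x, s x y → Ty = normAlong ψ y ^ k := by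
  letI : Algebra F F' := algebraAlong ψ
  letI : Algebra F Ω := r.toAlgebra
  haveI : Module.Finite F F' := hfin
  haveI : CharZero F := charZero_of_injective_algebraMap (algebraMap K F).injective
  let s' : X → (F' →ₐ[F] Ω) := fun x =>
    { s x with commutes' := fun f => hs x f }
  have hs' : ∀ x y, s' x y = s x y := fun x y => rfl
  obtain ⟨k, -, hk⟩ := prod_eq_norm_pow_of_sat (G := G) s' ρ
    (fun g x y => by rw [hs', hs']; exact hρs g x y) Ω₁ (fun x y => by rw [hs']; exact hmem x y)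
    hsat
  refine ⟨k, fun y Ty hTy => ?_⟩
  apply r.injective
  rw [hTy, map_pow]
  exact hk y

/-- **HNDiv, generic fields form.** -/
theorem dvd_ord_of_prod_eq [IsAlgClosed K] [CharZero K] [HasPrincipalDivisors K F']
    (φ ψ : F →ₐ[K] F') (hφ : φ.toRingHom.IsIntegral)
    (hψ : ψ.toRingHom.IsIntegral) (hfin : FiniteAlong K ψ)
    (hdeg : ∀ P : Place K F, P.deg = 1)
    (r : F →+* Ω) (s : X → (F' →+* Ω)) (hs : ∀ x f, s x (ψ f) = r f)
    (ρ : G → (Ω →+* Ω)) (hρs : ∀ (g : G) (x : X) (y : F'), ρ g (s x y) = s (g • x) y)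
    (Ω₁ : Subring Ω) (hmem : ∀ (x : X) (y : F'), s x y ∈ Ω₁)
    (hsat : ∀ z ∈ Ω₁, (∀ g : G, ρ g z = z) → z ∈ r.range)
    (p : ℤ) (u Tu : F) (hTu : r Tu = ∏ x, s x (φ u))
    (hu : ∀ P : Place K F, p ∣ P.ord u) (P : Place K F) : p ∣ P.ord Tu := by
  obtain ⟨k, hk⟩ := eq_normAlong_pow (G := G) ψ hfin r s hs ρ hρs Ω₁ hmem hsat
  rw [hk (φ u) Tu hTu, ord_pow_nat']
  exact Dvd.dvd.mul_left (dvd_ord_normAlong φ ψ hφ hψ hfin hdeg p u hu P) _

end Fermat.Agent.DS.P4.HNDivGen
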