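/-
GATE-N / J1-PORT node P4 (helper17): **the ORBIT-NORM lemma, generating-subspace form**.

Same statement as `OrbitNorm.prod_eq_norm_pow(_of_sat)`, but the rationality hypothesis (POLY)
(resp. the membership `s_x y ∈ Ω₁` in the saturation form) is only required for `y` in a
`ℚ`-subspace `Y ⊆ F'` which generates `F'` as an `F`-algebra.  (In the application `Y` = the
elements whose translates are HOLOMORPHIC of moderate growth, so that plain field generation
`FieldGenHol` applies to the symmetric functions, with no denominators to clear.)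

Proof of the key step: every `F`-embedding `τ` of `F'` satisfies `τ y ∈ {s_x y}` for `y ∈ Y`,
so `Y` is the union of the finitely many `ℚ`-subspaces `{y ∈ Y | τ y = s_x y}`; a vector space over
an infinite field is not a finite union of proper subspaces.
-/
import Mathlib
import Fermat.Agent.DS.P4.OrbitNorm

set_option autoImplicit false
set_option linter.style.haveILetI false

namespace Fermat.Agent.DS.P4.OrbitNormY

open Polynomial Fermat.Agent.DS.P4.OrbitNorm

section Embeddings

variable {F F' Ω : Type*} [Field F] [Field F'] [Field Ω] [Algebra F F'] [Algebra F Ω]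
variable [CharZero F']
variable {X : Type*} [Fintype X]

/-- **All embeddings are among the `s_x`**, generating-subspace form. -/
theorem exists_eq_comp_of_subspace [Nonempty X] (s : X → (F' →ₐ[F] Ω))
    (Y : Submodule ℚ F') (hY : Algebra.adjoin F (Y : Set F') = ⊤)
    (hpoly : ∀ y ∈ Y, ∃ P : F[X],
      P.map (algebraMap F Ω) = ∏ x, (Polynomial.X - Polynomial.C (s x y)))
    {E : Type*} [Field E] [Algebra Ω E] [Algebra F E] [IsScalarTower F Ω E]
    (τ : F' →ₐ[F] E) : ∃ x, τ = (IsScalarTower.toAlgHom F Ω E).comp (s x) := by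
  classical
  have : CharZero E := charZero_of_injective_ringHom
    ((algebraMap Ω E).comp (s (Classical.arbitrary X)).toRingHom).injective
  -- pointwise statement
  have hpt : ∀ y ∈ Y, ∃ x, τ y = algebraMap Ω E (s x y) := by
    intro y hy
    obtain ⟨P, hP⟩ := hpoly y hy
    have x₀ : X := Classical.arbitrary X
    have h1 : aeval y P = 0 := by
      have h : s x₀ (aeval y P) = 0 := by
        rw [← aeval_algHom_apply, aeval_def, ← eval_map, hP, eval_prod]
        exact Finset.prod_eq_zero (Finset.mem_univ x₀) (by simp)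
      exact (map_eq_zero_iff _ (s x₀).toRingHom.injective).mp h
    have h2 : (P.map (algebraMap F E)).eval (τ y) = 0 := by
      rw [eval_map, ← aeval_def, aeval_algHom_apply, h1, map_zero]
    have h3 : P.map (algebraMap F E) =
        ∏ x, (Polynomial.X - Polynomial.C (algebraMap Ω E (s x y))) := by
      rw [IsScalarTower.algebraMap_eq F Ω E, ← Polynomial.map_map, hP, Polynomial.map_prod]
      refine Finset.prod_congr rfl fun x _ => ?_
      rw [Polynomial.map_sub, Polynomial.map_X, Polynomial.map_C]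
    rw [h3, eval_prod, Finset.prod_eq_zero_iff] at h2
    obtain ⟨x, -, hx⟩ := h2
    refine ⟨x, ?_⟩
    rw [eval_sub, eval_X, eval_C, sub_eq_zero] at hx
    exact hx
  -- the covering by equalisers
  let fτ : F' →ₗ[ℚ] E := (τ : F' →+* E).toRatAlgHom.toLinearMap
  let ft : X → (F' →ₗ[ℚ] E) := fun x =>
    ((algebraMap Ω E).comp (s x : F' →+* Ω)).toRatAlgHom.toLinearMap
  let W : X → Submodule ℚ Y := fun x =>
    LinearMap.eqLocus (fτ.comp Y.subtype) ((ft x).comp Y.subtype)
  have hcover : ⋃ x, (W x : Set Y) = Set.univ := by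
    rw [Set.eq_univ_iff_forall]
    intro y
    obtain ⟨x, hx⟩ := hpt y y.2
    exact Set.mem_iUnion.mpr ⟨x, hx⟩
  obtain ⟨x, hx⟩ := Subspace.exists_eq_top_of_iUnion_eq_univ hcover
  refine ⟨x, ?_⟩
  refine AlgHom.ext_of_adjoin_eq_top hY ?_
  intro y hy
  have hmem : (⟨y, hy⟩ : Y) ∈ W x := by rw [hx]; trivial
  exact hmem

/-- `F'` is integral over `F` as soon as the generating subspace `Y` satisfies (POLY). -/
theorem isIntegral_of_poly [Nonempty X] (s : X → (F' →ₐ[F] Ω))
    (Y : Submodule ℚ F') (hY : Algebra.adjoin F (Y : Set F') = ⊤)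
    (hpoly : ∀ y ∈ Y, ∃ P : F[X],
      P.map (algebraMap F Ω) = ∏ x, (Polynomial.X - Polynomial.C (s x y))) :
    Algebra.IsIntegral F F' := by
  classical
  have x₀ : X := Classical.arbitrary X
  have hYint : ∀ y ∈ Y, IsIntegral F y := by
    intro y hy
    obtain ⟨P, hP⟩ := hpoly y hy
    have hmonic : P.Monic := by
      have h1 : (P.map (algebraMap F Ω)).Monic := by
        rw [hP]
        exact Polynomial.monic_prod_of_monic _ _ fun x _ => Polynomial.monic_X_sub_C _
      exact Polynomial.monic_map_iff.mp h1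
    refine ⟨P, hmonic, ?_⟩
    have h : s x₀ (aeval y P) = 0 := by
      rw [← aeval_algHom_apply, aeval_def, ← eval_map, hP, eval_prod]
      exact Finset.prod_eq_zero (Finset.mem_univ x₀) (by simp)
    have h' := (map_eq_zero_iff _ (s x₀).toRingHom.injective).mp h
    rw [aeval_def] at h'
    exact h'
  have hle : Algebra.adjoin F (Y : Set F') ≤ integralClosure F F' :=
    Algebra.adjoin_le fun y hy => hYint y hy
  rw [hY] at hle
  exact ⟨fun z => hle (Algebra.mem_top : z ∈ (⊤ : Subalgebra F F'))⟩

/-- **Finiteness**: `F'` is finite over `F` (of degree at most `#X`) as soon as the generating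
subspace `Y` satisfies (POLY). -/
theorem finiteDimensional_of_poly [CharZero F] [Nonempty X] (s : X → (F' →ₐ[F] Ω))
    (Y : Submodule ℚ F') (hY : Algebra.adjoin F (Y : Set F') = ⊤)
    (hpoly : ∀ y ∈ Y, ∃ P : F[X],
      P.map (algebraMap F Ω) = ∏ x, (Polynomial.X - Polynomial.C (s x y))) :
    FiniteDimensional F F' := by
  classical
  haveI : Algebra.IsIntegral F F' := isIntegral_of_poly s Y hY hpoly
  haveI : Algebra.IsAlgebraic F F' := Algebra.IsIntegral.isAlgebraic
  by_contra hnfd
  obtain ⟨L, hfin, hlt⟩ :=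
    IntermediateField.exists_lt_finrank_of_infinite_dimensional hnfd (Fintype.card X)
  let E := AlgebraicClosure Ω
  haveI : FiniteDimensional F L := hfin
  have hcard : Fintype.card (L →ₐ[F] E) = Module.finrank F L := AlgHom.card F L E
  -- every embedding of `L` is the restriction of some `s_x`
  have hex : ∀ τL : L →ₐ[F] E, ∃ x : X,
      τL = ((IsScalarTower.toAlgHom F Ω E).comp (s x)).comp L.val := by
    intro τL
    letI : Algebra L E := τL.toRingHom.toAlgebra
    haveI : IsScalarTower F L E := IsScalarTower.of_algebraMap_eq fun a => (τL.commutes a).symm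
    haveI : Algebra.IsAlgebraic L F' := Algebra.IsAlgebraic.tower_top (K := F) L
    let τ' : F' →ₐ[L] E := IsAlgClosed.lift
    let τ : F' →ₐ[F] E := τ'.restrictScalars F
    obtain ⟨x, hx⟩ := exists_eq_comp_of_subspace s Y hY hpoly τ
    refine ⟨x, ?_⟩
    ext z
    have h1 : τ (z : F') = τL z := τ'.commutes z
    rw [← h1, hx]
    rfl
  choose c hc using hex
  have hinj : Function.Injective c := by
    intro τ₁ τ₂ h
    rw [hc τ₁, hc τ₂, h]
  have := Fintype.card_le_of_injective c hinj
  omega

end Embeddings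

section Main

variable {F F' Ω : Type*} [Field F] [Field F'] [Field Ω] [Algebra F F'] [Algebra F Ω]
variable [CharZero F'] [FiniteDimensional F F'] [Algebra.IsSeparable F F']
variable {X : Type*} [Fintype X] [Nonempty X]
variable {G : Type*} [Group G] [MulAction G X] [MulAction.IsPretransitive G X]

/-- **ORBIT-NORM**, generating-subspace form. -/
theorem prod_eq_norm_pow (s : X → (F' →ₐ[F] Ω))
    (Y : Submodule ℚ F') (hY : Algebra.adjoin F (Y : Set F') = ⊤)
    (hpoly : ∀ y ∈ Y, ∃ P : F[X],
      P.map (algebraMap F Ω) = ∏ x, (Polynomial.X - Polynomial.C (s x y)))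
    (heq : ∀ (g : G) (x x' : X), s x = s x' → s (g • x) = s (g • x')) :
    ∃ k : ℕ, k * Module.finrank F F' = Fintype.card X ∧
      ∀ y : F', ∏ x, s x y = algebraMap F Ω (Algebra.norm F y) ^ k := by
  classical
  let E := AlgebraicClosure Ω
  let t : X → (F' →ₐ[F] E) := fun x => (IsScalarTower.toAlgHom F Ω E).comp (s x)
  have ht : ∀ x y, t x y = algebraMap Ω E (s x y) := fun x y => rfl
  have hinjE : Function.Injective (algebraMap Ω E) := (algebraMap Ω E).injective
  have htinj : ∀ x x', t x = t x' → s x = s x' := by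
    intro x x' h
    ext y
    apply hinjE
    rw [← ht, ← ht, h]
  have hteq : ∀ (g : G) (x x' : X), t x = t x' → t (g • x) = t (g • x') := by
    intro g x x' h
    show (IsScalarTower.toAlgHom F Ω E).comp (s (g • x)) =
      (IsScalarTower.toAlgHom F Ω E).comp (s (g • x'))
    rw [heq g x x' (htinj x x' h)]
  have hsurj : Function.Surjective t := fun τ => by
    obtain ⟨x, hx⟩ := exists_eq_comp_of_subspace s Y hY hpoly τ
    exact ⟨x, hx.symm⟩
  have himage : (Finset.univ : Finset X).image t = Finset.univ := by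
    ext τ
    simp only [Finset.mem_image, Finset.mem_univ, true_and, iff_true]
    exact hsurj τ
  have x₀ : X := Classical.arbitrary X
  let k : ℕ := (Finset.univ.filter fun a => t a = t x₀).card
  have hk : ∀ τ : F' →ₐ[F] E, (Finset.univ.filter fun a => t a = τ).card = k := by
    intro τ
    obtain ⟨x, rfl⟩ := hsurj τ
    exact card_fiber_eq (G := G) t hteq x x₀
  refine ⟨k, ?_, fun y => ?_⟩
  · have h1 : Fintype.card X = ∑ τ ∈ (Finset.univ : Finset X).image t,
        (Finset.univ.filter fun a => t a = τ).card := by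
      rw [← Finset.card_univ]
      exact Finset.card_eq_sum_card_image t Finset.univ
    rw [h1, himage, Finset.sum_congr rfl fun τ _ => hk τ, Finset.sum_const, Finset.card_univ,
      AlgHom.card F F' E, smul_eq_mul, mul_comm]
  · apply hinjE
    rw [map_prod, map_pow, ← IsScalarTower.algebraMap_apply F Ω E,
      Algebra.norm_eq_prod_embeddings F E y]
    have h2 : ∏ x, algebraMap Ω E (s x y) = ∏ x, (fun τ : F' →ₐ[F] E => τ y) (t x) :=
      Finset.prod_congr rfl fun x _ => (ht x y).symm
    rw [h2, Finset.prod_comp (fun τ : F' →ₐ[F] E => τ y) t, himage, ← Finset.prod_pow]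
    exact Finset.prod_congr rfl fun τ _ => by rw [hk τ]

end Main

section Sat

variable {F F' Ω : Type*} [Field F] [Field F'] [Field Ω] [Algebra F F'] [Algebra F Ω]
variable {X : Type*} [Fintype X]
variable {G : Type*} [Group G] [MulAction G X]

/-- **(POLY) on `Y` from saturation.** -/
theorem poly_of_sat (s : X → (F' →ₐ[F] Ω)) (ρ : G → (Ω →+* Ω))
    (hρs : ∀ (g : G) (x : X) (y : F'), ρ g (s x y) = s (g • x) y)
    (Ω₁ : Subring Ω) (Y : Set F') (hmem : ∀ (x : X), ∀ y ∈ Y, s x y ∈ Ω₁)
    (hsat : ∀ z ∈ Ω₁, (∀ g : G, ρ g z = z) → z ∈ (algebraMap F Ω).range) :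
    ∀ y ∈ Y, ∃ P : F[X],
      P.map (algebraMap F Ω) = ∏ x, (Polynomial.X - Polynomial.C (s x y)) := by
  classical
  intro y hy
  set Q : Polynomial Ω := ∏ x, (Polynomial.X - Polynomial.C (s x y)) with hQ
  have hinv : ∀ g : G, Q.map (ρ g) = Q := by
    intro g
    rw [hQ, Polynomial.map_prod]
    have h1 : ∀ x, (Polynomial.X - Polynomial.C (s x y)).map (ρ g) =
        Polynomial.X - Polynomial.C (s (g • x) y) := by
      intro x
      rw [Polynomial.map_sub, Polynomial.map_X, Polynomial.map_C, hρs]
    rw [Finset.prod_congr rfl fun x _ => h1 x]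
    exact Fintype.prod_equiv (MulAction.toPerm g) _ _ fun x => rfl
  have hcoeff : ∀ n, Q.coeff n ∈ Ω₁ := by
    intro n
    let Q₁ : Polynomial Ω₁ := ∏ x, (Polynomial.X - Polynomial.C (⟨s x y, hmem x y hy⟩ : Ω₁))
    have hQ₁ : Q₁.map Ω₁.subtype = Q := by
      rw [hQ, Polynomial.map_prod]
      refine Finset.prod_congr rfl fun x _ => ?_
      rw [Polynomial.map_sub, Polynomial.map_X, Polynomial.map_C]
      rfl
    rw [← hQ₁, Polynomial.coeff_map]
    exact (Q₁.coeff n).2
  have hlift : Q ∈ Polynomial.lifts (algebraMap F Ω) := by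
    rw [Polynomial.lifts_iff_coeff_lifts]
    intro n
    have h := hsat (Q.coeff n) (hcoeff n) fun g => by
      have := congrArg (fun R : Polynomial Ω => R.coeff n) (hinv g)
      simpa [Polynomial.coeff_map] using this
    exact h
  exact (Polynomial.mem_lifts _).mp hlift

/-- **ORBIT-NORM from saturation**, generating-subspace form. -/
theorem prod_eq_norm_pow_of_sat [CharZero F'] [FiniteDimensional F F'] [Algebra.IsSeparable F F']
    [Nonempty X] [MulAction.IsPretransitive G X] (s : X → (F' →ₐ[F] Ω)) (ρ : G → (Ω →+* Ω))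
    (hρs : ∀ (g : G) (x : X) (y : F'), ρ g (s x y) = s (g • x) y)
    (Ω₁ : Subring Ω) (Y : Submodule ℚ F') (hY : Algebra.adjoin F (Y : Set F') = ⊤)
    (hmem : ∀ (x : X), ∀ y ∈ Y, s x y ∈ Ω₁)
    (hsat : ∀ z ∈ Ω₁, (∀ g : G, ρ g z = z) → z ∈ (algebraMap F Ω).range) :
    ∃ k : ℕ, k * Module.finrank F F' = Fintype.card X ∧
      ∀ y : F', ∏ x, s x y = algebraMap F Ω (Algebra.norm F y) ^ k := by
  refine prod_eq_norm_pow (G := G) s Y hY
    (poly_of_sat s ρ hρs Ω₁ (Y : Set F') hmem hsat) ?_
  intro g x x' h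
  ext y
  rw [← hρs, ← hρs, h]

/-- every element of `Y` is integral over `F` (no finiteness assumption) -/
theorem isIntegral_of_sat [Nonempty X] (s : X → (F' →ₐ[F] Ω)) (ρ : G → (Ω →+* Ω))
    (hρs : ∀ (g : G) (x : X) (y : F'), ρ g (s x y) = s (g • x) y)
    (Ω₁ : Subring Ω) (Y : Set F') (hmem : ∀ (x : X), ∀ y ∈ Y, s x y ∈ Ω₁)
    (hsat : ∀ z ∈ Ω₁, (∀ g : G, ρ g z = z) → z ∈ (algebraMap F Ω).range) :
    ∀ y ∈ Y, IsIntegral F y := by
  classical
  intro y hy
  obtain ⟨P, hP⟩ := poly_of_sat s ρ hρs Ω₁ Y hmem hsat y hy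
  have x₀ : X := Classical.arbitrary X
  have hmonic : P.Monic := by
    have h1 : (P.map (algebraMap F Ω)).Monic := by
      rw [hP]
      exact Polynomial.monic_prod_of_monic _ _ fun x _ => Polynomial.monic_X_sub_C _
    exact Polynomial.monic_map_iff.mp h1
  refine ⟨P, hmonic, ?_⟩
  have h : s x₀ (aeval y P) = 0 := by
    rw [← aeval_algHom_apply, aeval_def, ← eval_map, hP, eval_prod]
    exact Finset.prod_eq_zero (Finset.mem_univ x₀) (by simp)
  have h' := (map_eq_zero_iff _ (s x₀).toRingHom.injective).mp h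
  rw [aeval_def] at h'
  exact h'

end Sat

end Fermat.Agent.DS.P4.OrbitNormY
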