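/-
GATE-N / J1-PORT node P4 (helper17): **the Hecke norm preserves `p ∣ div`, generic fields form,
generating-subspace version** (twin of `HNDivGen.lean` on top of `OrbitNormY.lean`).

The saturation hypothesis is only used on the translates of a `ℚ`-subspace `Y ⊆ F'` which,
together with `ψ(F)`, generates `F'` as a ring.
-/
import Fermat.Agent.DS.P4.OrbitNormY
import Fermat.Agent.DS.P4.HNDivGen

set_option autoImplicit false
set_option linter.style.haveILetI false
set_option linter.unusedSectionVars false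

namespace Fermat.Agent.DS.P4.HNDivGenY

open AlgebraicCurve Fermat.Agent.GJ.HInputs Fermat.Agent.DS.P4.OrbitNormY
open Fermat.Agent.DS.P4.HNDivGen (ord_pow_nat')

variable {K F F' Ω : Type*} [Field K] [Field F] [Field F'] [Field Ω] [Algebra K F] [Algebra K F']
variable [CharZero F']
variable {X : Type*} [Fintype X] [Nonempty X]
variable {G : Type*} [Group G] [MulAction G X] [MulAction.IsPretransitive G X]

/-- `Algebra.adjoin F Y = ⊤` (along `ψ`) from the ring-closure form -/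
theorem adjoin_eq_top_of_closure (ψ : F →ₐ[K] F') (Y : Set F')
    (hY : Subring.closure (Set.range ψ ∪ Y) = ⊤) :
    letI := algebraAlong ψ
    Algebra.adjoin F Y = ⊤ := by
  letI : Algebra F F' := algebraAlong ψ
  have h1 := Algebra.adjoin_eq_ring_closure (R := F) Y
  have h2 : Set.range (algebraMap F F') = Set.range ψ := rfl
  rw [h2, hY] at h1
  apply Subalgebra.toSubring_injective
  rw [h1]
  rfl

/-- **the product of the translates is a power of the norm** -/
theorem eq_normAlong_pow [CharZero K] (ψ : F →ₐ[K] F') (hfin : FiniteAlong K ψ)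
    (r : F →+* Ω) (s : X → (F' →+* Ω)) (hs : ∀ x f, s x (ψ f) = r f)
    (ρ : G → (Ω →+* Ω)) (hρs : ∀ (g : G) (x : X) (y : F'), ρ g (s x y) = s (g • x) y)
    (Ω₁ : Subring Ω) (Y : Submodule ℚ F')
    (hY : Subring.closure (Set.range ψ ∪ (Y : Set F')) = ⊤)
    (hmem : ∀ (x : X), ∀ y ∈ Y, s x y ∈ Ω₁)
    (hsat : ∀ z ∈ Ω₁, (∀ g : G, ρ g z = z) → z ∈ r.range) :
    ∃ k : ℕ, ∀ (y : F') (Ty : F), r Ty = ∏ x, s x y → Ty = normAlong ψ y ^ k := by
  letI : Algebra F F' := algebraAlong ψ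
  letI : Algebra F Ω := r.toAlgebra
  haveI : Module.Finite F F' := hfin
  haveI : CharZero F := charZero_of_injective_algebraMap (algebraMap K F).injective
  let s' : X → (F' →ₐ[F] Ω) := fun x =>
    { s x with commutes' := fun f => hs x f }
  have hs' : ∀ x y, s' x y = s x y := fun x y => rfl
  obtain ⟨k, -, hk⟩ := prod_eq_norm_pow_of_sat (G := G) s' ρ
    (fun g x y => by rw [hs', hs']; exact hρs g x y) Ω₁ Y (adjoin_eq_top_of_closure ψ _ hY)
    (fun x y hy => by rw [hs']; exact hmem x y hy) hsat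
  refine ⟨k, fun y Ty hTy => ?_⟩
  apply r.injective
  rw [hTy, map_pow]
  exact hk y

/-- **finiteness of `F'` over `F` along `ψ`** from saturation on a generating subspace -/
theorem finiteAlong_of_sat [CharZero K] (ψ : F →ₐ[K] F')
    (r : F →+* Ω) (s : X → (F' →+* Ω)) (hs : ∀ x f, s x (ψ f) = r f)
    (ρ : G → (Ω →+* Ω)) (hρs : ∀ (g : G) (x : X) (y : F'), ρ g (s x y) = s (g • x) y)
    (Ω₁ : Subring Ω) (Y : Submodule ℚ F')
    (hY : Subring.closure (Set.range ψ ∪ (Y : Set F')) = ⊤)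
    (hmem : ∀ (x : X), ∀ y ∈ Y, s x y ∈ Ω₁)
    (hsat : ∀ z ∈ Ω₁, (∀ g : G, ρ g z = z) → z ∈ r.range) :
    FiniteAlong K ψ := by
  letI : Algebra F F' := algebraAlong ψ
  letI : Algebra F Ω := r.toAlgebra
  haveI : CharZero F := charZero_of_injective_algebraMap (algebraMap K F).injective
  let s' : X → (F' →ₐ[F] Ω) := fun x =>
    { s x with commutes' := fun f => hs x f }
  have hs' : ∀ x y, s' x y = s x y := fun x y => rfl
  exact finiteDimensional_of_poly s' Y (adjoin_eq_top_of_closure ψ _ hY)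
    (poly_of_sat (G := G) s' ρ (fun g x y => by rw [hs', hs']; exact hρs g x y) Ω₁ (Y : Set F')
      (fun x y hy => by rw [hs']; exact hmem x y hy) hsat)

/-- every element of `Y` is integral over `F` along `ψ` -/
theorem isIntegral_along_of_sat (ψ : F →ₐ[K] F')
    (r : F →+* Ω) (s : X → (F' →+* Ω)) (hs : ∀ x f, s x (ψ f) = r f)
    (ρ : G → (Ω →+* Ω)) (hρs : ∀ (g : G) (x : X) (y : F'), ρ g (s x y) = s (g • x) y)
    (Ω₁ : Subring Ω) (Y : Set F')
    (hmem : ∀ (x : X), ∀ y ∈ Y, s x y ∈ Ω₁)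
    (hsat : ∀ z ∈ Ω₁, (∀ g : G, ρ g z = z) → z ∈ r.range) :
    ∀ y ∈ Y, ψ.toRingHom.IsIntegralElem y := by
  letI : Algebra F F' := algebraAlong ψ
  letI : Algebra F Ω := r.toAlgebra
  let s' : X → (F' →ₐ[F] Ω) := fun x =>
    { s x with commutes' := fun f => hs x f }
  have hs' : ∀ x y, s' x y = s x y := fun x y => rfl
  intro y hy
  exact isIntegral_of_sat (G := G) s' ρ
    (fun g x y => by rw [hs', hs']; exact hρs g x y) Ω₁ Y
    (fun x y hy => by rw [hs']; exact hmem x y hy) hsat y hy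

/-- **HNDiv, generic fields form, generating-subspace version.** -/
theorem dvd_ord_of_prod_eq [IsAlgClosed K] [CharZero K] [HasPrincipalDivisors K F']
    (φ ψ : F →ₐ[K] F') (hφ : φ.toRingHom.IsIntegral)
    (hdeg : ∀ P : Place K F, P.deg = 1)
    (r : F →+* Ω) (s : X → (F' →+* Ω)) (hs : ∀ x f, s x (ψ f) = r f)
    (ρ : G → (Ω →+* Ω)) (hρs : ∀ (g : G) (x : X) (y : F'), ρ g (s x y) = s (g • x) y)
    (Ω₁ : Subring Ω) (Y : Submodule ℚ F')
    (hY : Subring.closure (Set.range ψ ∪ (Y : Set F')) = ⊤)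
    (hmem : ∀ (x : X), ∀ y ∈ Y, s x y ∈ Ω₁)
    (hsat : ∀ z ∈ Ω₁, (∀ g : G, ρ g z = z) → z ∈ r.range)
    (p : ℤ) (u Tu : F) (hTu : r Tu = ∏ x, s x (φ u))
    (hu : ∀ P : Place K F, p ∣ P.ord u) (P : Place K F) : p ∣ P.ord Tu := by
  have hfin : FiniteAlong K ψ := finiteAlong_of_sat (G := G) ψ r s hs ρ hρs Ω₁ Y hY hmem hsat
  have hψ : ψ.toRingHom.IsIntegral := isIntegral_of_finiteAlong ψ hfin
  obtain ⟨k, hk⟩ := eq_normAlong_pow (G := G) ψ hfin r s hs ρ hρs Ω₁ Y hY hmem hsat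
  rw [hk (φ u) Tu hTu, ord_pow_nat']
  exact Dvd.dvd.mul_left (dvd_ord_normAlong φ ψ hφ hψ hfin hdeg p u hu P) _

end Fermat.Agent.DS.P4.HNDivGenY
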