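/-
GATE-N / J1-PORT node P4 (helper17): **the Hecke norm preserves `p ∣ div`, analytic instance,
generic in the group `Γ ≤ SL(2,ℤ)` and in the Hecke correspondence** (`HeckeSys Γ` of helper42).

Let `realC : F →ₐ[ℂ] Mer` realise a function field `F/ℂ` by `Γ`-invariant meromorphic functions,
with field generation (`FieldGenHyp`: every `Γ`-invariant holomorphic function of moderate growth
is realised) and the quotient presentation (`QuotHyp`).  For a Hecke correspondence `S` with
integral representatives, permuted transitively by `Γ`, the multiplicative norm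
`merSys S m = ∏ₓ m ∘ rep x` preserves `p ∣ div` on `F`:

  `realC Tw = merSys S (realC w)`, `p ∣ div w`  ⟹  `p ∣ div Tw`.

Proof: `F' := ℂ(realC F, realC F ∘ rep x₀) ⊂ Mer` is the function field of the correspondence
curve; `ψ = realC`, `φ = (· ∘ rep x₀) ∘ realC : F → F'`; the translates `sₓ := (· ∘ γₓ)`
(`γₓ ∈ Γ`, `x₀ γₓ = x`) are `F`-embeddings `F' → Mer` permuted transitively by `Γ`, and
`∏ₓ sₓ(φ w) = merSys S (realC w)`.  The generic orbit-norm lemma `HNDivGenY.dvd_ord_of_prod_eq`
(no degree knowledge needed) gives `Tw = Norm_{F'/F}(φ w)^k`, and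
`ord_P Norm(φ w) = ∑_{Q ∣ P} e(Q/P) e_φ(Q) ord_{φ^*Q} w` is divisible by `p`.
-/
import Mathlib
import Fermat.Agent.DS.P4.HNDivGenY
import Fermat.Agent.GJ.HInputs.Modular
import Fermat.Agent.DS.P3.HNMem
import Fermat.Agent.DS.P3.Sat1

set_option autoImplicit false
set_option linter.style.haveILetI false
set_option linter.unusedSectionVars false

open UpperHalfPlane Complex
open scoped MatrixGroups

noncomputable section

namespace Fermat.Agent.DS.P4.HNDivAn

open AlgebraicCurve IntermediateField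
open Fermat.Agent.S24 Fermat.Agent.S24_helper82 Fermat.Agent.GJ.HeckeMer
open Fermat.Agent.GJ.Dict.FieldGen Fermat.Agent.GJ.HInputs
open Fermat.Agent.DS.P3 Fermat.Agent.DS.P3.HeckeMerG Fermat.Agent.DS.P3.HeckeMerSys
open Fermat.Agent.DS.P3.Sat1 Fermat.Agent.DS.ES
open Matrix.SpecialLinearGroup

/-! ### Generators along a finite extension -/

section Gen

variable {K F F' : Type*} [Field K] [Field F] [Field F'] [Algebra K F] [Algebra K F']

/-- the image of a generator under a finite extension of function fields is a generator -/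
theorem isGen_map_of_finiteAlong (ψ : F →ₐ[K] F') (hfin : FiniteAlong K ψ) (x : F)
    [hx : IsGen K x] : IsGen K (ψ x) := by
  refine ⟨fun halg => hx.transcendental ((isAlgebraic_algHom_iff ψ ψ.injective).mp halg), ?_⟩
  letI : Algebra F F' := algebraAlong ψ
  haveI : IsScalarTower K F F' := isScalarTower_along ψ
  haveI : Module.Finite F F' := hfin
  haveI : Module.Finite K⟮x⟯ F := hx.finite
  haveI : Module.Finite K⟮x⟯ F' := Module.Finite.trans F F'
  have hmap : K⟮x⟯.map ψ = K⟮ψ x⟯ := by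
    rw [IntermediateField.adjoin_map, Set.image_singleton]
  let e₁ : K⟮x⟯ ≃+* K⟮ψ x⟯ :=
    ((K⟮x⟯.equivMap ψ).trans (IntermediateField.equivOfEq hmap)).toRingEquiv
  refine Module.Finite.of_equiv_equiv (A₁ := K⟮x⟯) (B₁ := F') e₁ (RingEquiv.refl F') ?_
  ext a
  rfl

end Gen

/-! ### The correspondence field -/

section Corr

variable {Γ : Subgroup SL(2, ℤ)} {N : ℕ} [NeZero N] {F : Type*} [Field F] [Algebra ℂ F]
variable (realC : F →ₐ[ℂ] Mer) (S : HeckeSys Γ) (hdet : ∀ x, 0 < (S.rep x).det.val) (x₀ : S.X)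

/-- precomposition with `α ∈ GL(2,ℝ)⁺` as a `ℂ`-algebra endomorphism of `Mer` -/
def compMGLa (α : GL (Fin 2) ℝ) (hα : 0 < α.det.val) : Mer →ₐ[ℂ] Mer :=
  { compMGL α hα with commutes' := compMGL_const α hα }

@[simp] theorem compMGLa_apply (α : GL (Fin 2) ℝ) (hα : 0 < α.det.val) (m : Mer) :
    compMGLa α hα m = compMGL α hα m := rfl

/-- the twisted realisation `f ↦ realC f ∘ rep x₀` -/
def realTw : F →ₐ[ℂ] Mer := (compMGLa (S.rep x₀) (hdet x₀)).comp realC

@[simp] theorem realTw_apply (f : F) :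
    realTw realC S hdet x₀ f = compMGL (S.rep x₀) (hdet x₀) (realC f) := rfl

/-- the function field of the correspondence: `ℂ(realC F, realC F ∘ rep x₀) ⊂ Mer` -/
def corrField : IntermediateField ℂ Mer :=
  IntermediateField.adjoin ℂ (Set.range realC ∪ Set.range (realTw realC S hdet x₀))

theorem realC_mem (f : F) : realC f ∈ corrField realC S hdet x₀ :=
  IntermediateField.subset_adjoin _ _ (Or.inl ⟨f, rfl⟩)

theorem realTw_mem (f : F) : realTw realC S hdet x₀ f ∈ corrField realC S hdet x₀ :=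
  IntermediateField.subset_adjoin _ _ (Or.inr ⟨f, rfl⟩)

/-- `ψ : F → F'`, the realisation -/
def psi : F →ₐ[ℂ] corrField realC S hdet x₀ :=
  realC.codRestrict (corrField realC S hdet x₀).toSubalgebra (realC_mem realC S hdet x₀)

/-- `φ : F → F'`, the twisted realisation -/
def phi : F →ₐ[ℂ] corrField realC S hdet x₀ :=
  (realTw realC S hdet x₀).codRestrict (corrField realC S hdet x₀).toSubalgebra
    (realTw_mem realC S hdet x₀)

@[simp] theorem coe_psi (f : F) : ((psi realC S hdet x₀ f : corrField realC S hdet x₀) : Mer)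
    = realC f := rfl

@[simp] theorem coe_phi (f : F) : ((phi realC S hdet x₀ f : corrField realC S hdet x₀) : Mer)
    = compMGL (S.rep x₀) (hdet x₀) (realC f) := rfl

/-- the basic relation: `(m ∘ rep x) ∘ g = (m ∘ c(g,x)) ∘ rep (x g)` -/
theorem compM_compMGL_rep (g : Γ) (x : S.X) (m : Mer) :
    compM (g : SL(2, ℤ)) (compMGL (S.rep x) (hdet x) m)
      = compMGL (S.rep (S.perm g x)) (hdet _) (compM (S.c g x : SL(2, ℤ)) m) := by
  rw [← compMGL_mapGL, ← compMGL_mul (hdet x) (det_mapGL_pos _),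
    ← compMGL_mapGL (S.c g x : SL(2, ℤ)), ← compMGL_mul (det_mapGL_pos _) (hdet _)]
  exact compMGL_congr (S.c_rel g x) _ _ m

variable {realC S hdet x₀}

/-- the stabiliser of `x₀` fixes the correspondence field pointwise -/
theorem compM_eq_self_of_stab (hinv : ∀ (γ : Γ) (f : F), compM (γ : SL(2, ℤ)) (realC f) = realC f)
    (h : Γ) (hh : S.perm h x₀ = x₀) {y : Mer} (hy : y ∈ corrField realC S hdet x₀) :
    compM (h : SL(2, ℤ)) y = y := by
  refine IntermediateField.adjoin_induction ℂ
    (p := fun y _ => compM (h : SL(2, ℤ)) y = y) ?_ ?_ ?_ ?_ ?_ hy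
  · rintro m (⟨f, rfl⟩ | ⟨f, rfl⟩)
    · exact hinv h f
    · rw [realTw_apply, compM_compMGL_rep, hinv]
      exact compMGL_congr (by rw [hh]) _ _ _
  · intro c
    exact compM_const _ c
  · intro a b _ _ ha hb
    show compM (h : SL(2, ℤ)) (a + b) = a + b
    rw [RingHom.map_add, ha, hb]
  · intro a _ ha
    show compM (h : SL(2, ℤ)) a⁻¹ = a⁻¹
    rw [map_inv₀, ha]
  · intro a b _ _ ha hb
    show compM (h : SL(2, ℤ)) (a * b) = a * b
    rw [RingHom.map_mul, ha, hb]

/-- two elements of `Γ` moving `x₀` to the same point act in the same way on the correspondence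
field -/
theorem compM_eq_of_perm_eq (hinv : ∀ (γ : Γ) (f : F), compM (γ : SL(2, ℤ)) (realC f) = realC f)
    (a b : Γ) (hab : S.perm a x₀ = S.perm b x₀) {y : Mer} (hy : y ∈ corrField realC S hdet x₀) :
    compM (a : SL(2, ℤ)) y = compM (b : SL(2, ℤ)) y := by
  have h1 : S.perm (a * b⁻¹) x₀ = x₀ := by
    rw [S.perm_mul, hab, ← S.perm_mul, mul_inv_cancel, S.perm_one]
  have h2 := compM_eq_self_of_stab hinv (a * b⁻¹) h1 hy
  have h3 : (a : SL(2, ℤ)) = ((a * b⁻¹ : Γ) : SL(2, ℤ)) * (b : SL(2, ℤ)) := by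
    rw [← Subgroup.coe_mul, inv_mul_cancel_right]
  rw [h3, compM_mul, h2]

end Corr

/-! ### The action, the translates -/

section Act

variable {Γ : Subgroup SL(2, ℤ)} {N : ℕ} [NeZero N] {F : Type*} [Field F] [Algebra ℂ F]
variable {realC : F →ₐ[ℂ] Mer} {S : HeckeSys Γ} {hdet : ∀ x, 0 < (S.rep x).det.val} {x₀ : S.X}

/-- the left action of `Γ` on the index set: `g • x = x g⁻¹` -/
@[reducible] def actX (S : HeckeSys Γ) : MulAction Γ S.X where
  smul g x := S.perm g⁻¹ x
  one_smul x := by
    show S.perm (1 : Γ)⁻¹ x = x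
    rw [inv_one, S.perm_one]
  mul_smul g h x := by
    show S.perm (g * h)⁻¹ x = S.perm g⁻¹ (S.perm h⁻¹ x)
    rw [mul_inv_rev, S.perm_mul]

theorem actX_smul (g : Γ) (x : S.X) :
    letI := actX S
    g • x = S.perm g⁻¹ x := rfl

theorem actX_pretransitive (htrans : ∀ x, ∃ g : Γ, S.perm g x₀ = x) :
    letI := actX S
    MulAction.IsPretransitive Γ S.X := by
  letI := actX S
  refine ⟨fun x y => ?_⟩
  obtain ⟨gx, hx⟩ := htrans x
  obtain ⟨gy, hy⟩ := htrans y
  refine ⟨(gx⁻¹ * gy)⁻¹, ?_⟩
  show S.perm ((gx⁻¹ * gy)⁻¹)⁻¹ x = y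
  rw [inv_inv, S.perm_mul, ← hx, ← S.perm_mul gx gx⁻¹, mul_inv_cancel, S.perm_one, hy]

/-- an element of `Γ` moving `x₀` to `x` -/
def gam (htrans : ∀ x, ∃ g : Γ, S.perm g x₀ = x) (x : S.X) : Γ := (htrans x).choose

theorem gam_spec (htrans : ∀ x, ∃ g : Γ, S.perm g x₀ = x) (x : S.X) :
    S.perm (gam htrans x) x₀ = x := (htrans x).choose_spec

/-- the translates `sₓ = (· ∘ γₓ) : F' → Mer` -/
def sX (realC : F →ₐ[ℂ] Mer) (hdet : ∀ x, 0 < (S.rep x).det.val)
    (htrans : ∀ x, ∃ g : Γ, S.perm g x₀ = x) (x : S.X) :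
    corrField realC S hdet x₀ →+* Mer :=
  (compM (gam htrans x : SL(2, ℤ))).comp (algebraMap (corrField realC S hdet x₀) Mer)

theorem sX_apply (htrans : ∀ x, ∃ g : Γ, S.perm g x₀ = x) (x : S.X)
    (y : corrField realC S hdet x₀) :
    sX realC hdet htrans x y = compM (gam htrans x : SL(2, ℤ)) (y : Mer) := rfl

theorem sX_psi (hinv : ∀ (γ : Γ) (f : F), compM (γ : SL(2, ℤ)) (realC f) = realC f)
    (htrans : ∀ x, ∃ g : Γ, S.perm g x₀ = x) (x : S.X) (f : F) :
    sX realC hdet htrans x (psi realC S hdet x₀ f) = realC f := by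
  rw [sX_apply, coe_psi, hinv]

theorem sX_phi (hinv : ∀ (γ : Γ) (f : F), compM (γ : SL(2, ℤ)) (realC f) = realC f)
    (htrans : ∀ x, ∃ g : Γ, S.perm g x₀ = x) (x : S.X) (f : F) :
    sX realC hdet htrans x (phi realC S hdet x₀ f) = compMGL (S.rep x) (hdet x) (realC f) := by
  rw [sX_apply, coe_phi, compM_compMGL_rep, hinv]
  exact compMGL_congr (by rw [gam_spec]) _ _ _

/-- the action on the target: `ρ g = (· ∘ g⁻¹)` -/
def rho (g : Γ) : Mer →+* Mer := compM ((g⁻¹ : Γ) : SL(2, ℤ))

theorem rho_sX (hinv : ∀ (γ : Γ) (f : F), compM (γ : SL(2, ℤ)) (realC f) = realC f)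
    (htrans : ∀ x, ∃ g : Γ, S.perm g x₀ = x) (g : Γ) (x : S.X)
    (y : corrField realC S hdet x₀) :
    letI := actX S
    rho g (sX realC hdet htrans x y) = sX realC hdet htrans (g • x) y := by
  letI := actX S
  rw [sX_apply, sX_apply, rho, ← compM_mul, ← Subgroup.coe_mul]
  refine compM_eq_of_perm_eq hinv _ _ ?_ y.2
  rw [S.perm_mul, gam_spec, gam_spec]
  rfl

end Act

/-! ### Saturation -/

section Sat

variable {Γ : Subgroup SL(2, ℤ)} (N : ℕ) [NeZero N] {F : Type*} [Field F] [Algebra ℂ F]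
variable (realC : F →ₐ[ℂ] Mer) (S : HeckeSys Γ) (hdet : ∀ x, 0 < (S.rep x).det.val) (x₀ : S.X)

/-- the holomorphic elements of moderate growth of the correspondence field -/
def holSub : Submodule ℂ (corrField realC S hdet x₀) where
  carrier := {y | ∃ H ∈ MG N, (y : Mer) = algebraMap Hol Mer H}
  add_mem' := by
    rintro a b ⟨H, hH, ha⟩ ⟨H', hH', hb⟩
    exact ⟨H + H', add_mem hH hH', by rw [IntermediateField.coe_add, ha, hb, map_add]⟩
  zero_mem' := ⟨0, zero_mem _, by rw [IntermediateField.coe_zero, map_zero]⟩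
  smul_mem' := by
    rintro c a ⟨H, hH, ha⟩
    refine ⟨c • H, Subalgebra.smul_mem _ hH c, ?_⟩
    rw [IntermediateField.coe_smul, ha, Algebra.smul_def, Algebra.smul_def, map_mul,
      ← IsScalarTower.algebraMap_apply]

/-- the subring of `Mer` of holomorphic functions of moderate growth -/
def omega1 : Subring Mer := (MG N).toSubring.map (algebraMap Hol Mer)

variable {N realC S hdet x₀}

theorem sX_mem_omega1 (htrans : ∀ x, ∃ g : Γ, S.perm g x₀ = x) (x : S.X)
    {y : corrField realC S hdet x₀} (hy : y ∈ holSub N realC S hdet x₀) :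
    sX realC hdet htrans x y ∈ omega1 N := by
  obtain ⟨H, hH, hy⟩ := hy
  rw [sX_apply, hy, compM_algebraMap]
  exact ⟨compSL _ H, compSL_mem_MG N _ hH, rfl⟩

theorem sat_omega1 (hFG : FieldGenHyp Γ N (realC : F →+* Mer)) {z : Mer} (hz : z ∈ omega1 N)
    (hinv : ∀ g : Γ, rho g z = z) : z ∈ (realC : F →+* Mer).range := by
  obtain ⟨H, hH, rfl⟩ := hz
  have h1 : ∀ γ ∈ Γ, compSL γ H = H := by
    intro γ hγ
    have := hinv (⟨γ, hγ⟩⁻¹)
    rw [rho, inv_inv] at this
    exact IsFractionRing.injective Hol Mer ((compM_algebraMap γ H).symm.trans this)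
  obtain ⟨f, hf⟩ := hFG H h1 hH
  exact ⟨f, hf⟩

theorem phi_mem_holSub (hint : IsIntGL (S.rep x₀)) {f : F} {H : Hol} (hH : H ∈ MG N)
    (hf : realC f = algebraMap Hol Mer H) :
    phi realC S hdet x₀ f ∈ holSub N realC S hdet x₀ :=
  ⟨compGL (S.rep x₀) (hdet x₀) H, Fermat.Agent.DS.P3.HNMem.compGL_mem_MG hint (hdet x₀) hH, by
    rw [coe_phi, hf, compMGL_algebraMap]⟩

end Sat

/-! ### Generation and the main theorem -/

section Main

variable {Γ : Subgroup SL(2, ℤ)} {N : ℕ} [NeZero N] {F : Type*} [Field F] [Algebra ℂ F]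
variable {realC : F →ₐ[ℂ] Mer} {S : HeckeSys Γ} {hdet : ∀ x, 0 < (S.rep x).det.val} {x₀ : S.X}

instance : CharZero (corrField realC S hdet x₀) :=
  charZero_of_injective_algebraMap (algebraMap ℂ (corrField realC S hdet x₀)).injective

/-- the canonical `ℚ`-module structure of a field of characteristic zero (the one used by
`HNDivGenY`) -/
@[reducible] def ratMod (E : Type*) [Field E] [CharZero E] : Module ℚ E := inferInstance

theorem ratMod_smul_def {E : Type*} [Field E] [CharZero E] (c : ℚ) (a : E) :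
    letI := ratMod E
    c • a = (c : E) * a := Rat.smul_def c a

/-- the `ℚ`-subspace used in the orbit-norm lemma -/
def holSubQ (N : ℕ) [NeZero N] (realC : F →ₐ[ℂ] Mer) (S : HeckeSys Γ)
    (hdet : ∀ x, 0 < (S.rep x).det.val) (x₀ : S.X) :
    @Submodule ℚ (corrField realC S hdet x₀) _ _ (ratMod (corrField realC S hdet x₀)) :=
  letI := ratMod (corrField realC S hdet x₀)
  { carrier := holSub N realC S hdet x₀
    add_mem' := (holSub N realC S hdet x₀).add_mem
    zero_mem' := (holSub N realC S hdet x₀).zero_mem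
    smul_mem' := fun c a ha => by
      have h : c • a = (c : ℂ) • a := by
        rw [ratMod_smul_def, Algebra.smul_def, map_ratCast]
      rw [h]
      exact (holSub N realC S hdet x₀).smul_mem _ ha }

theorem mem_holSubQ {y : corrField realC S hdet x₀} :
    y ∈ holSubQ N realC S hdet x₀ ↔ y ∈ holSub N realC S hdet x₀ := Iff.rfl

/-- `F'` is generated as a ring by `ψ(F)` and the holomorphic elements of moderate growth -/
theorem closure_eq_top (hFG : FieldGenHyp Γ N (realC : F →+* Mer))
    (hquot : QuotHyp Γ N (realC : F →+* Mer)) (hint : IsIntGL (S.rep x₀))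
    (htrans : ∀ x, ∃ g : Γ, S.perm g x₀ = x) :
    Subring.closure (Set.range (psi realC S hdet x₀) ∪
      (holSubQ N realC S hdet x₀ : Set (corrField realC S hdet x₀))) = ⊤ := by
  have hinv : ∀ (γ : Γ) (f : F), compM (γ : SL(2, ℤ)) (realC f) = realC f :=
    fun γ f => compM_real_of_quot hquot f γ.2
  letI := actX S
  haveI := actX_pretransitive htrans
  haveI : Nonempty S.X := ⟨x₀⟩
  set ψ := psi realC S hdet x₀ with hψdef
  set Y : Set (corrField realC S hdet x₀) :=
    (holSubQ N realC S hdet x₀ : Set (corrField realC S hdet x₀)) with hYdef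
  letI : Algebra F (corrField realC S hdet x₀) := algebraAlong ψ
  have hint' : ∀ y ∈ Y, IsIntegral F y :=
    Fermat.Agent.DS.P4.HNDivGenY.isIntegral_along_of_sat (G := Γ) ψ (realC : F →+* Mer)
      (sX realC hdet htrans) (sX_psi hinv htrans) rho (rho_sX hinv htrans) (omega1 N) Y
      (fun x y hy => sX_mem_omega1 htrans x hy) (fun z hz h => sat_omega1 hFG hz h)
  have htop : IntermediateField.adjoin F Y = ⊤ := by
    rw [eq_top_iff]
    rintro ⟨y, hy⟩ -
    refine IntermediateField.adjoin_induction ℂ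
      (p := fun m hm => (⟨m, hm⟩ : corrField realC S hdet x₀) ∈ IntermediateField.adjoin F Y)
      ?_ ?_ ?_ ?_ ?_ hy
    · rintro m (⟨f, rfl⟩ | ⟨f, rfl⟩)
      · exact (IntermediateField.adjoin F Y).algebraMap_mem f
      · obtain ⟨H, Q, hH, hQ, hQ0, hrel⟩ := hquot f
        obtain ⟨h, hh⟩ := hFG H hH.2 hH.1
        obtain ⟨q, hq⟩ := hFG Q hQ.2 hQ.1
        have hq0 : q ≠ 0 := by
          rintro rfl
          rw [map_zero] at hq
          exact hQ0 (IsFractionRing.injective Hol Mer (hq.symm.trans (map_zero _).symm))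
        have hf : f = h / q := by
          rw [eq_div_iff hq0]
          apply realC.injective
          rw [map_mul, mul_comm]
          exact (congrArg (· * realC f) hq).trans (hrel.trans hh.symm)
        have h1 : phi realC S hdet x₀ h ∈ IntermediateField.adjoin F Y :=
          IntermediateField.subset_adjoin _ _ (phi_mem_holSub hint hH.1 hh)
        have h2 : phi realC S hdet x₀ q ∈ IntermediateField.adjoin F Y :=
          IntermediateField.subset_adjoin _ _ (phi_mem_holSub hint hQ.1 hq)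
        have h3 := div_mem h1 h2
        rw [← map_div₀, ← hf] at h3
        exact h3
    · intro c
      have := (IntermediateField.adjoin F Y).algebraMap_mem (algebraMap ℂ F c)
      convert this using 1
      exact Subtype.ext (realC.commutes c).symm
    · intro a b ha hb ha' hb'
      exact add_mem ha' hb'
    · intro a ha ha'
      exact inv_mem ha'
    · intro a b ha hb ha' hb'
      exact mul_mem ha' hb'
  have h2 : Algebra.adjoin F Y = ⊤ :=
    (IntermediateField.adjoin_eq_top_iff_of_isAlgebraic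
      (fun y hy => (hint' y hy).isAlgebraic)).mp htop
  have h1 := Algebra.adjoin_eq_ring_closure (R := F) Y
  rw [h2] at h1
  have h3 : Set.range (algebraMap F (corrField realC S hdet x₀)) = Set.range ψ := rfl
  rw [h3] at h1
  rw [← h1]
  rfl

/-- **(HN-div), analytic form, generic in `Γ` and in the Hecke correspondence**: the
multiplicative norm of a Hecke correspondence whose index set is permuted transitively by `Γ`
preserves `p ∣ div` on the function field. -/
theorem dvd_ord_merSys (realC : F →ₐ[ℂ] Mer) (hFG : FieldGenHyp Γ N (realC : F →+* Mer))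
    (hquot : QuotHyp Γ N (realC : F →+* Mer)) (S : HeckeSys Γ)
    (hdet : ∀ x, 0 < (S.rep x).det.val) (hint : ∀ x, IsIntGL (S.rep x)) (x₀ : S.X)
    (htrans : ∀ x, ∃ g : Γ, S.perm g x₀ = x) (j : F) [hj : IsGen ℂ j] (p : ℤ) (w Tw : F)
    (hTw : realC Tw = merSys S hdet (realC w)) (hw : ∀ P : Place ℂ F, p ∣ P.ord w)
    (P : Place ℂ F) : p ∣ P.ord Tw := by
  have hinv : ∀ (γ : Γ) (f : F), compM (γ : SL(2, ℤ)) (realC f) = realC f :=
    fun γ f => compM_real_of_quot hquot f γ.2
  letI := actX S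
  haveI := actX_pretransitive htrans
  haveI : Nonempty S.X := ⟨x₀⟩
  have hY := closure_eq_top (hdet := hdet) hFG hquot (hint x₀) htrans
  have hmem : ∀ (x : S.X), ∀ y ∈ holSubQ N realC S hdet x₀,
      sX realC hdet htrans x y ∈ omega1 N := fun x y hy => sX_mem_omega1 htrans x hy
  have hsat : ∀ z ∈ omega1 N, (∀ g : Γ, rho g z = z) → z ∈ (realC : F →+* Mer).range :=
    fun z hz h => sat_omega1 hFG hz h
  have hfin : FiniteAlong ℂ (psi realC S hdet x₀) :=
    Fermat.Agent.DS.P4.HNDivGenY.finiteAlong_of_sat (G := Γ) (psi realC S hdet x₀)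
      (realC : F →+* Mer) (sX realC hdet htrans) (sX_psi hinv htrans) rho (rho_sX hinv htrans)
      (omega1 N) (holSubQ N realC S hdet x₀) hY hmem hsat
  haveI : IsGen ℂ (psi realC S hdet x₀ j) := isGen_map_of_finiteAlong _ hfin j
  haveI : HasPrincipalDivisors ℂ (corrField realC S hdet x₀) :=
    Principal.hasPrincipalDivisors_of_isGen (psi realC S hdet x₀ j)
  have hdeg : ∀ P : Place ℂ F, P.deg = 1 := fun P => PlaceB.deg_eq_one P j
  have htr : Transcendental ℂ (phi realC S hdet x₀ j) := fun halg =>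
    hj.transcendental ((isAlgebraic_algHom_iff (phi realC S hdet x₀)
      (phi realC S hdet x₀).injective).mp halg)
  haveI : IsGen ℂ (phi realC S hdet x₀ j) :=
    IsGen.of_transcendental (psi realC S hdet x₀ j) htr
  have hφfin : FiniteAlong ℂ (phi realC S hdet x₀) := finiteAlong_of_gen _ j
  have hφ := isIntegral_of_finiteAlong _ hφfin
  refine Fermat.Agent.DS.P4.HNDivGenY.dvd_ord_of_prod_eq (G := Γ) (phi realC S hdet x₀)
    (psi realC S hdet x₀) hφ hdeg (realC : F →+* Mer) (sX realC hdet htrans)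
    (sX_psi hinv htrans) rho (rho_sX hinv htrans) (omega1 N) (holSubQ N realC S hdet x₀) hY
    hmem hsat p w Tw ?_ hw P
  show realC Tw = _
  rw [hTw, merSys_apply]
  exact Finset.prod_congr rfl fun x _ => (sX_phi hinv htrans x w).symm

end Main

end Fermat.Agent.DS.P4.HNDivAn
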