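/-
GATE-N / J1-PORT node P4 (helper17): **the `Γ₁(M)` / `T_ℓ` instance of `HNDivAn.dvd_ord_merSys`**.

* `trans_sysT` : `Γ₁(M)` permutes the index set `ℙ¹(𝔽_ℓ)` of helper42's Hecke system
  `Coh1.sysT` transitively (`ℓ ∤ M`);
* `dvd_ord_heckeNormT1` : for every realisation `realC : F →ₐ[ℂ] Mer` of a function field by
  `Γ₁(M)`-invariant functions with field generation and quotient presentation, the multiplicative
  Hecke operator `heckeNormT1 ℓ σ` preserves `p ∣ div`;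
* `dvd_ord_heckeNormT1'` : the same for a ring homomorphism `real : F →+* Mer` which is the
  identity on constants.
-/
import Mathlib
import Fermat.Agent.DS.P4.HNDivAn
import Fermat.Agent.DS.P3.HNMem1

set_option autoImplicit false
set_option linter.style.haveILetI false
set_option linter.unusedSectionVars false

open UpperHalfPlane Complex CongruenceSubgroup
open scoped MatrixGroups

noncomputable section

namespace Fermat.Agent.DS.P4.HNDivInst1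

open AlgebraicCurve
open Fermat.Agent.S24 Fermat.Agent.S24_helper82 Fermat.Agent.GJ.HeckeMer
open Fermat.Agent.DS.P3 Fermat.Agent.DS.P3.HeckeMerG Fermat.Agent.DS.P3.HeckeMerSys
open Fermat.Agent.DS.P3.HeckeMer1 Fermat.Agent.DS.P3.Sat1 Fermat.Agent.DS.ES
open Fermat.Agent.DS.N0 Fermat.Agent.DS.P4.HNDivAn
open Matrix.SpecialLinearGroup

variable {M : ℕ} {ℓ : ℕ} [Fact ℓ.Prime]

/-- **transitivity**: `Γ₁(M)` permutes `ℙ¹(𝔽_ℓ)` transitively (`ℓ ∤ M`) -/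
theorem trans_sysT (hℓM : ¬ ℓ ∣ M) (σ : SL(2, ℤ)) (hσ0 : (M : ℤ) ∣ σ 1 0)
    (hσ1 : ((σ 1 1 : ℤ) : ZMod M) = (ℓ : ZMod M)) (x : OnePoint (ZMod ℓ)) :
    ∃ g : Gamma1 M, (Coh1.sysT hℓM σ hσ0 hσ1).perm g OnePoint.infty = x := by
  induction x using OnePoint.rec with
  | infty => exact ⟨1, (Coh1.sysT hℓM σ hσ0 hσ1).perm_one _⟩
  | coe t =>
    have hM : ((M : ℤ) : ZMod ℓ) ≠ 0 := by
      rw [Int.cast_natCast, Ne, ZMod.natCast_eq_zero_iff]
      exact hℓM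
    obtain ⟨b, hb⟩ := ZMod.intCast_surjective (t - ((M : ℤ) : ZMod ℓ)⁻¹)
    let g : SL(2, ℤ) := ⟨!![1, b; (M : ℤ), (M : ℤ) * b + 1], by
      rw [Matrix.det_fin_two_of]; ring⟩
    have hg : g ∈ Gamma1 M := by
      rw [mem_Gamma1_iff_dvd_and]
      refine ⟨by simp [g], ?_⟩
      show (((M : ℤ) * b + 1 : ℤ) : ZMod M) = 1
      push_cast
      simp
    refine ⟨⟨g, hg⟩, ?_⟩
    rw [Coh1.sysT_perm, OnePoint.smul_infty_eq_ite]
    have h10 : redMat ℓ g 1 0 = ((M : ℤ) : ZMod ℓ) := by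
      rw [redMat_apply_one_zero]; rfl
    have h00 : redMat ℓ g 0 0 = ((M : ℤ) : ZMod ℓ) * (b : ZMod ℓ) + 1 := by
      rw [redMat_apply_zero_zero]
      show ((((M : ℤ) * b + 1 : ℤ)) : ZMod ℓ) = _
      push_cast; rfl
    rw [if_neg (by rw [h10]; exact hM), h10, h00, hb]
    congr 1
    field_simp
    ring

variable {N : ℕ} [NeZero N] {F : Type*} [Field F] [Algebra ℂ F]

/-- **(HN-div) for `T_ℓ` on `Γ₁(M)`, analytic form**: the multiplicative Hecke operator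
`heckeNormT1 ℓ σ` (`σ ∈ Γ₀(M)`, `σ₁₁ ≡ ℓ`) preserves `p ∣ div` on every function field realised
by `Γ₁(M)`-invariant functions with field generation and quotient presentation. -/
theorem dvd_ord_heckeNormT1 (hℓM : ¬ ℓ ∣ M) {σ : SL(2, ℤ)} (hσ0 : (M : ℤ) ∣ σ 1 0)
    (hσ1 : ((σ 1 1 : ℤ) : ZMod M) = (ℓ : ZMod M)) (realC : F →ₐ[ℂ] Mer)
    (hFG : FieldGenHyp (Gamma1 M) N (realC : F →+* Mer))
    (hquot : QuotHyp (Gamma1 M) N (realC : F →+* Mer)) (j : F) [IsGen ℂ j] (p : ℤ) (w Tw : F)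
    (hTw : realC Tw = heckeNormT1 ℓ σ (realC w)) (hw : ∀ P : Place ℂ F, p ∣ P.ord w)
    (P : Place ℂ F) : p ∣ P.ord Tw :=
  dvd_ord_merSys realC hFG hquot (Coh1.sysT hℓM σ hσ0 hσ1) (det_rep1_pos ℓ σ)
    (fun x => Fermat.Agent.DS.P3.HNMem1.isIntGL_rep1 (NeZero.ne ℓ) σ x) OnePoint.infty
    (trans_sysT hℓM σ hσ0 hσ1) j p w Tw hTw hw P

/-- the same for a ring homomorphism which is the identity on constants -/
theorem dvd_ord_heckeNormT1' (hℓM : ¬ ℓ ∣ M) {σ : SL(2, ℤ)} (hσ0 : (M : ℤ) ∣ σ 1 0)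
    (hσ1 : ((σ 1 1 : ℤ) : ZMod M) = (ℓ : ZMod M)) (real : F →+* Mer)
    (hreal : ∀ c : ℂ, real (algebraMap ℂ F c) = algebraMap ℂ Mer c)
    (hFG : FieldGenHyp (Gamma1 M) N real) (hquot : QuotHyp (Gamma1 M) N real) (j : F)
    [IsGen ℂ j] (p : ℤ) (w Tw : F)
    (hTw : real Tw = heckeNormT1 ℓ σ (real w)) (hw : ∀ P : Place ℂ F, p ∣ P.ord w)
    (P : Place ℂ F) : p ∣ P.ord Tw :=
  dvd_ord_heckeNormT1 hℓM hσ0 hσ1 ({ real with commutes' := hreal } : F →ₐ[ℂ] Mer) hFG hquot j p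
    w Tw hTw hw P

/-- `QuotHyp` from helper42's `QuotHol` (`real f = A / B`) -/
theorem quotHyp_of_quotHol {Γ : Subgroup SL(2, ℤ)} {real : F →+* Mer}
    (h : Fermat.Agent.DS.P3.HNMem.QuotHol Γ N real) : QuotHyp Γ N real := by
  intro f
  obtain ⟨A, B, hB, hAinv, hBinv, hAmg, hBmg, hf⟩ := h f
  refine ⟨A, B, ⟨hAmg, hAinv⟩, ⟨hBmg, hBinv⟩, hB, ?_⟩
  rw [hf, mul_div_cancel₀]
  exact (map_ne_zero_iff _ (IsFractionRing.injective Hol Mer)).mpr hB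

end Fermat.Agent.DS.P4.HNDivInst1
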