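/-
GATE-N / J1-PORT node P4 (helper17): **(HN1-div) for `T_ℓ` on `Γ₁(M)` over `ℚ̄`**, for ANY field
`F₀ ⊂ ℚ((q))` and any realisation `realC` of `F₀ ⊗ ℂ` — the twin for `HNDiv1` of helper86's
`HNAsm.hnMem1_Gamma1`, with the SAME inputs

* (EXP)  `MerCE 1 (realC f) f`,
* (GEN)  `FieldGenHol (Gamma1 M) M realC`,
* (QUOT) `HNMem.QuotHol (Gamma1 M) M realC`,
* (DIA)  `realC (bc (δ u)) = compM σ' (realC (bc u))`,

plus `realC` is the identity on constants and a generator `x₀` of `F₀ ⊗ ℚ̄`.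

Chain: `HNDivAn.dvd_ord_merSys` (orbit-norm over `ℂ`) → `HNDivInst1.dvd_ord_heckeNormT1'` →
helper18 `HNDivDesc.hnDiv1_of_an` (descent, helper49 `Desc1G`) with the analytic bridge (HN) of
helper86 `HNAsm.exists_hn1`.
-/
import Mathlib
import Fermat.Agent.DS.P4.HNDivInst1
import Fermat.Agent.DS.P4.HNDivDesc
import Fermat.Agent.DS.P3.HNAsm

set_option autoImplicit false
set_option linter.unusedSectionVars false
set_option linter.style.haveILetI false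

open Complex ModularCurve ModularForm CongruenceSubgroup AlgebraicCurve
open UpperHalfPlane hiding I
open scoped MatrixGroups

noncomputable section

namespace Fermat.Agent.DS.P4.HNDivGamma1

open Fermat.Agent.S24 Fermat.Agent.S24_helper82
open Fermat.Agent.GJ.HeckeMer Fermat.Agent.GJ.TwEis Fermat.Agent.GJ.Kum Fermat.Agent.GJ.Desc
open Fermat.Agent.DS.P3 Fermat.Agent.DS.P3.HeckeMer1 Fermat.Agent.DS.P3.HNMem
open Fermat.Agent.DS.P3.TwEisG Fermat.Agent.DS.P3.Desc1G Fermat.Agent.DS.P3.HNAsm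
open Fermat.Agent.DS.P4 Fermat.Agent.DS.P4.HNDivInst1 Fermat.Agent.DS.P4.HNDivDesc

attribute [local instance] Fermat.Agent.GJ.EigAsm.algKbC

variable {M : ℕ} [NeZero M] {ℓ : ℕ} [Fact ℓ.Prime]
variable (F₀ : IntermediateField ℚ (LaurentSeries ℚ))

/-- **(HN1-div) for `T_ℓ` on `Γ₁(M)`**, general representatives: `δ` is the moduli diamond `⟨ℓ⟩`
(realised by `σ'`, `σ'₁₁ ≡ ℓ⁻¹`), `σ` the twist of the Hecke representatives (`σ₁₁ ≡ ℓ`). -/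
theorem hnDiv1_Gamma1 (p : ℕ) [Fact p.Prime] (x₀ : FL F₀) [IsGen Qb x₀]
    (realC : ↥(laurentBaseChange ℂ F₀) →+* Mer)
    (hconst : ∀ c : ℂ, realC (algebraMap ℂ ↥(laurentBaseChange ℂ F₀) c) = algebraMap ℂ Mer c)
    (hexp : ∀ f : ↥(laurentBaseChange ℂ F₀), MerCE 1 (realC f) (f : LaurentSeries ℂ))
    (hgen : FieldGenHol (Gamma1 M) M realC) (hq : QuotHol (Gamma1 M) M realC)
    (hℓM : ¬ ℓ ∣ M) {σ σ' : SL(2, ℤ)} (hσ : IsTwist M ℓ σ) (hσ'0 : (M : ℤ) ∣ σ' 1 0)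
    (hσ'1 : ((σ' 1 1 : ℤ) : ZMod M) * (ℓ : ZMod M) = 1)
    (δ : FL F₀ ≃ₐ[Qb] FL F₀)
    (hδ : ∀ u : FL F₀, realC (bcG F₀ (δ u)) = compM σ' (realC (bcG F₀ u))) :
    HNDiv1 F₀ p ℓ δ := by
  haveI : CharZero Qb := charZero_of_injective_algebraMap (algebraMap ℚ Qb).injective
  haveI : IsGen ℂ (bcHom Qb ℂ F₀ x₀) := isGen_bcHom Qb ℂ F₀ x₀
  refine hnDiv1_of_an F₀ p ℓ δ x₀ realC (heckeNormT1 ℓ σ) ?_ ?_
  · intro w Tw hTw hw Q
    exact dvd_ord_heckeNormT1' hℓM hσ.dvd hσ.d_eq realC hconst hgen (quotHyp_of_quotHol hq)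
      (bcHom Qb ℂ F₀ x₀) (p : ℤ) w Tw hTw hw Q
  · intro u x hx
    obtain ⟨Tu, h1, h2⟩ := exists_hn1 F₀ realC hexp hgen hq hℓM hσ hσ'0 hσ'1 δ hδ u
    have hxT : x = Tu := Subtype.ext (hx.trans h1.symm)
    rw [hxT, h2, hδ u]

/-- **(HN1-div)** with the canonical representatives of `HeckeMerTriple` — same inputs as helper86's
`HNAsm.hnMem1_Gamma1`. -/
theorem hnDiv1_Gamma1_merD (p : ℕ) [Fact p.Prime] (x₀ : FL F₀) [IsGen Qb x₀]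
    (realC : ↥(laurentBaseChange ℂ F₀) →+* Mer)
    (hconst : ∀ c : ℂ, realC (algebraMap ℂ ↥(laurentBaseChange ℂ F₀) c) = algebraMap ℂ Mer c)
    (hexp : ∀ f : ↥(laurentBaseChange ℂ F₀), MerCE 1 (realC f) (f : LaurentSeries ℂ))
    (hgen : FieldGenHol (Gamma1 M) M realC) (hq : QuotHol (Gamma1 M) M realC)
    (hℓM : ¬ ℓ ∣ M) (δ : FL F₀ ≃ₐ[Qb] FL F₀)
    (hδ : ∀ u : FL F₀, realC (bcG F₀ (δ u))
      = HeckeMerTriple.merD (Coh1.unitOf hℓM) (realC (bcG F₀ u))) :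
    HNDiv1 F₀ p ℓ δ :=
  hnDiv1_Gamma1 F₀ p x₀ realC hconst hexp hgen hq hℓM (HeckeMerTriple.isTwist_sigmaOf hℓM)
    (Coh1.sigmaOf_dvd _)
    (by rw [Coh1.sigmaOf_cast, ← Coh1.coe_unitOf hℓM, ← Units.val_mul, inv_mul_cancel,
      Units.val_one]) δ hδ

/-- the binder `hD` of helper69's `PortAsm.portExport1_of_leaves` (shape of `KumType1.HNDiv1`) -/
theorem hnDiv1_Gamma1_P5 (p : ℕ) [Fact p.Prime] (x₀ : FL F₀) [IsGen Qb x₀]
    (realC : ↥(laurentBaseChange ℂ F₀) →+* Mer)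
    (hconst : ∀ c : ℂ, realC (algebraMap ℂ ↥(laurentBaseChange ℂ F₀) c) = algebraMap ℂ Mer c)
    (hexp : ∀ f : ↥(laurentBaseChange ℂ F₀), MerCE 1 (realC f) (f : LaurentSeries ℂ))
    (hgen : FieldGenHol (Gamma1 M) M realC) (hq : QuotHol (Gamma1 M) M realC)
    (hℓM : ¬ ℓ ∣ M) (δ : FL F₀ ≃ₐ[Qb] FL F₀)
    (hδ : ∀ u : FL F₀, realC (bcG F₀ (δ u))
      = HeckeMerTriple.merD (Coh1.unitOf hℓM) (realC (bcG F₀ u))) :
    Fermat.Agent.DS.P5.KumType1.HNDiv1 p ℓ δ :=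
  Fermat.Agent.DS.P5.FromP4.hnDiv1_of_P4 fun {_} =>
    hnDiv1_Gamma1_merD F₀ p x₀ realC hconst hexp hgen hq hℓM δ hδ

end Fermat.Agent.DS.P4.HNDivGamma1
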