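/-
GATE-N / J1-PORT node P4 (helper17): **the binders `hM`, `hD` of helper69's
`PortAsm.portExport1_of_leaves` / `PlugTest2.portExport1_of_open_leaves2` at `F₀ := F1 M`**,
from `D : WeberData M` and the diamond law (P1e) `hHND` ALONE.

* `hconstC`, `hexpC`, `quotHolC` : the realisation `PlugTest.realC D` of `F1 M ⊗ ℂ` (helper69's
  transport of helper30's `real1C D`) is the identity on constants, has the right `q`-expansions
  (helper16 `ExpBridge.merCE_realOf`) and the quotient presentation (helper26 `quotHol_real1C`);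
* `hD_F1` : `∀ q prime, q ∤ M, KumType1.HNDiv1 p q (diaP dia hq hqM)`   (orbit-norm, `HNDivGamma1`);
* `hM_F1` : `∀ q prime, q ∤ M, KumType1.HNMem1 q (diaP dia hq hqM)`     (helper86 `hnMem1_Gamma1`).
-/
import Mathlib
import Fermat.Agent.DS.P4.HNDivGamma1
import Fermat.Agent.DS.Port.PlugTest
import Fermat.Agent.DS.P1.QuotHolF1
import Fermat.Agent.DS.P1.ExpBridge

set_option autoImplicit false
set_option linter.unusedSectionVars false
set_option linter.style.haveILetI false

open Complex ModularCurve ModularForm CongruenceSubgroup AlgebraicCurve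
open UpperHalfPlane hiding I
open scoped MatrixGroups

noncomputable section

namespace Fermat.Agent.DS.P4.FinalF1

open Fermat.Agent.S24 Fermat.Agent.S24_helper82
open Fermat.Agent.GJ.HeckeMer Fermat.Agent.GJ.TwEis Fermat.Agent.GJ.Kum Fermat.Agent.GJ.Desc
open Fermat.Agent.DS.P0 Fermat.Agent.DS.P1.RealizeF1
open Fermat.Agent.DS.P3 Fermat.Agent.DS.P3.HNMem Fermat.Agent.DS.P3.TwEisG
open Fermat.Agent.DS.P3.Desc1G Fermat.Agent.DS.P3.HNAsm
open Fermat.Agent.DS.P4 Fermat.Agent.DS.P4.HNDivGamma1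
open Fermat.Agent.DS.P5 Fermat.Agent.DS.P5.KumType1
open Fermat.Agent.DS.Port.PlugTest

attribute [local instance] Fermat.Agent.GJ.EigAsm.algKbC

variable {M : ℕ} [NeZero M] (D : WeberData M)

/-- `realC D` is the identity on constants -/
theorem hconstC (c : ℂ) :
    realC D (algebraMap ℂ ↥(laurentBaseChange ℂ (F1 M)) c) = algebraMap ℂ Mer c := by
  rw [realC_apply, AlgEquiv.commutes]
  exact (real1C D).commutes c

/-- (EXP) the `q`-expansion at `i∞` of `realC D f` is `f` -/
theorem hexpC (f : ↥(laurentBaseChange ℂ (F1 M))) :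
    MerCE 1 (realC D f) (f : LaurentSeries ℂ) := by
  rw [realC_apply]
  exact Fermat.Agent.DS.P1.ExpBridge.merCE_realOf (genFam D) (isCE_genFam D) (F1C_eq_FG D)
    (eC M f)

/-- (QUOT) the quotient presentation of `realC D` -/
theorem quotHolC : QuotHol (Gamma1 M) M (realC D) := by
  intro f
  obtain ⟨A, B, hB, hA1, hB1, hA2, hB2, hf⟩ :=
    Fermat.Agent.DS.P1.QuotHolF1.quotHol_real1C D (eC M f)
  exact ⟨A, B, hB, hA1, hB1, hA2, hB2, hf⟩

variable (p : ℕ) [Fact p.Prime] (dia : (ZMod M)ˣ → (FL (F1 M) ≃ₐ[Qb] FL (F1 M)))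

/-- **the binder `hD`** (HN1-div) of the port at `F₀ := F1 M`, from the diamond law (P1e) -/
theorem hD_F1
    (hHND : ∀ (d : (ZMod M)ˣ) (u : FL (F1 M)),
      realC D (bcG (F1 M) (dia d u)) = HeckeMerTriple.merD d (realC D (bcG (F1 M) u))) :
    ∀ (q : ℕ) (hq : q.Prime) (hqM : ¬ q ∣ M), KumType1.HNDiv1 p q (diaP dia hq hqM) := by
  intro q hq hqM
  haveI : Fact q.Prime := ⟨hq⟩
  haveI : IsGen Qb (x₀ M) := isGen_x₀ D
  have h := hnDiv1_Gamma1_P5 (F1 M) p (x₀ M) (realC D) (hconstC D) (hexpC D) (fieldGenHolC D)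
    (quotHolC D) hqM (diaP dia hq hqM) (fun u => hHND _ u)
  unfold KumType1.HNDiv1
  intro _
  exact h

/-- **the binder `hM`** (HN1-mem) of the port at `F₀ := F1 M`, from the diamond law (P1e) -/
theorem hM_F1
    (hHND : ∀ (d : (ZMod M)ˣ) (u : FL (F1 M)),
      realC D (bcG (F1 M) (dia d u)) = HeckeMerTriple.merD d (realC D (bcG (F1 M) u))) :
    ∀ (q : ℕ) (hq : q.Prime) (hqM : ¬ q ∣ M), KumType1.HNMem1 q (diaP dia hq hqM) := by
  intro q hq hqM
  haveI : Fact q.Prime := ⟨hq⟩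
  have h := hnMem1_Gamma1 (F1 M) (realC D) (hexpC D) (fieldGenHolC D) (quotHolC D) hqM
    (diaP dia hq hqM) (fun u => hHND _ u)
  unfold KumType1.HNMem1
  intro _
  exact h

end Fermat.Agent.DS.P4.FinalF1
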