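/-
GATE-N / J1-PORT node P4, leaf S48-P4-HNDIV1-F1 (helper49): **function fields in towers**
(S24 `IsGen` API).

`F` a function field in one variable over `K` (`[IsGen K x₀]`):
* `exists_finset_adjoin_eq_top` : `F` is finitely generated as a field over `K`;
* `finite_adjoin_iff`           : for `φ : F →ₐ[K] E`, `E` is finite over `K(x)` (through `φ`) iff it
                                  is finite over `K(φ x)`;
* `isGen_algebraMap_of_finite`  : a finite extension `E / F` is a function field, generated by the
                                  image of `x₀`;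
* `isIntegral_of_isGen`         : every `K`-algebra map `φ : F →ₐ[K] E` into a function field in one
                                  variable is integral (`E` is algebraic over `φ(F)`: transcendence
                                  degree one), in the shape `φ.toRingHom.IsIntegral` of the prelude.
-/
import Mathlib
import Fermat.Agent.S24.Gen

set_option autoImplicit false
set_option linter.style.haveILetI false

namespace Fermat.Agent.DS.P4.GenTower

open IntermediateField Fermat.Agent.S24

variable {K F E : Type*} [Field K] [Field F] [Field E] [Algebra K F] [Algebra K E]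

/-- a function field in one variable is a finitely generated field extension -/
theorem exists_finset_adjoin_eq_top (x₀ : F) [IsGen K x₀] :
    ∃ s : Finset F, IntermediateField.adjoin K (s : Set F) = ⊤ := by
  classical
  obtain ⟨n, b, hb⟩ := Module.Finite.exists_fin (R := K⟮x₀⟯) (M := F)
  refine ⟨insert x₀ (Finset.univ.image b), top_unique fun f _ => ?_⟩
  set L := IntermediateField.adjoin K ((insert x₀ (Finset.univ.image b) : Finset F) : Set F)
    with hL
  have hx₀ : x₀ ∈ L := IntermediateField.subset_adjoin K _ (by simp)
  have hbi : ∀ i, b i ∈ L := fun i => IntermediateField.subset_adjoin K _ (by simp)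
  have hle : K⟮x₀⟯ ≤ L := IntermediateField.adjoin_le_iff.mpr (by
    intro y hy
    rw [Set.mem_singleton_iff] at hy
    subst hy
    exact hx₀)
  have hf : f ∈ Submodule.span K⟮x₀⟯ (Set.range b) := by rw [hb]; trivial
  obtain ⟨c, rfl⟩ := (Submodule.mem_span_range_iff_exists_fun _).mp hf
  refine sum_mem fun i _ => ?_
  rw [Algebra.smul_def]
  exact mul_mem (hle (c i).2) (hbi i)

section Transport

variable (φ : F →ₐ[K] E) (x : F)

/-- `E` as an algebra over `K(x) ⊆ F` through `φ` -/
@[reducible] noncomputable def algAdjoin : Algebra K⟮x⟯ E :=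
  (φ.toRingHom.comp (algebraMap K⟮x⟯ F)).toAlgebra

/-- `K(x) ≃ K(φ x)` -/
noncomputable def adjoinEquiv : K⟮x⟯ ≃ₐ[K] K⟮φ x⟯ :=
  (IntermediateField.equivMap K⟮x⟯ φ).trans
    (IntermediateField.equivOfEq (by rw [IntermediateField.adjoin_map, Set.image_singleton]))

theorem coe_adjoinEquiv (z : K⟮x⟯) : ((adjoinEquiv φ x z : K⟮φ x⟯) : E) = φ (z : F) := rfl

theorem finite_adjoin_iff :
    @Module.Finite K⟮x⟯ E _ _ (algAdjoin φ x).toModule ↔ Module.Finite K⟮φ x⟯ E := by
  letI := algAdjoin φ x
  constructor
  · intro h
    exact Module.Finite.of_equiv_equiv (adjoinEquiv φ x).toRingEquiv (RingEquiv.refl E)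
      (by ext z; rfl)
  · intro h
    exact Module.Finite.of_equiv_equiv (adjoinEquiv φ x).symm.toRingEquiv (RingEquiv.refl E)
      (by
        ext z
        obtain ⟨w, rfl⟩ := (adjoinEquiv φ x).surjective z
        show φ (((adjoinEquiv φ x).symm (adjoinEquiv φ x w) : K⟮x⟯) : F) =
          ((adjoinEquiv φ x w : K⟮φ x⟯) : E)
        rw [AlgEquiv.symm_apply_apply, coe_adjoinEquiv])

end Transport

/-- a finite extension of a function field in one variable is one, with the same generator -/
theorem isGen_algebraMap_of_finite [Algebra F E] [IsScalarTower K F E] [FiniteDimensional F E]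
    (x₀ : F) [hx : IsGen K x₀] : IsGen K (algebraMap F E x₀) := by
  refine ⟨(transcendental_algebraMap_iff (algebraMap F E).injective).mpr hx.transcendental, ?_⟩
  have e : (inferInstance : Algebra K⟮x₀⟯ E) = algAdjoin (IsScalarTower.toAlgHom K F E) x₀ :=
    Algebra.algebra_ext _ _ fun _ => rfl
  have h0 : Module.Finite K⟮x₀⟯ E := Module.Finite.trans F E
  have h := (finite_adjoin_iff (IsScalarTower.toAlgHom K F E) x₀).mp (by
    rw [← e]
    exact h0)
  exact h

/-- **every map between function fields in one variable is integral** -/
theorem isIntegral_of_isGen (φ : F →ₐ[K] E) (x₀ : F) [hx : IsGen K x₀] (e₀ : E) [IsGen K e₀] :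
    φ.toRingHom.IsIntegral := by
  have htr : Transcendental K (φ x₀) := by
    intro h
    exact hx.transcendental ((isAlgebraic_algHom_iff φ φ.injective).mp h)
  haveI : IsGen K (φ x₀) := IsGen.of_transcendental e₀ htr
  have h1 : Module.Finite K⟮φ x₀⟯ E := IsGen.finiteDimensional (φ x₀)
  have h2 := (finite_adjoin_iff φ x₀).mpr h1
  letI := algAdjoin φ x₀
  letI : Algebra F E := φ.toRingHom.toAlgebra
  haveI : IsScalarTower K⟮x₀⟯ F E := IsScalarTower.of_algebraMap_eq fun _ => rfl
  haveI : Module.Finite K⟮x₀⟯ E := h2
  haveI : Module.Finite F E := Module.Finite.of_restrictScalars_finite K⟮x₀⟯ F E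
  intro e
  exact (Algebra.IsIntegral.isIntegral (R := F) e)

end Fermat.Agent.DS.P4.GenTower
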