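/-
GATE-N / J1-PORT node P4, leaf S48-P4-HNDIV1-F1 (helper49): **(HN1-mem) and (HN1-div) at
`F₀ := F1 M`** — the binders `hM`, `hD` of helper69's `PlugTest2.portExport1_of_open_leaves2`
VERBATIM, from `D : WeberData M` and ONE open input, the diamond law (P1e)

  `hHND : realC D (bc (dia d u)) = merD d (realC D (bc u))`      (`merD d = compM σ_{d⁻¹}`),

in the shape consumed by helper69 `PlugTest2.eig1Prime_F1` / helper94 `EigFinalF1`.

Pieces called: helper17 `HNDivInst1.dvd_ord_heckeNormT1'` (orbit-norm, analytic form over `ℂ`),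
helper86 `HNAsm.exists_hn1_merT` / `hnMem1_Gamma1` (membership + analytic bridge), helper62
`HN1Q1.merCE_realOf` (EXP), helper16/helper30 `QuotHolF1.quotHol_real1C`, helper69
`PlugTest.realC / x₀ / fieldGenHolC`, `Desc1G.d1G / d1convG` (descent `ℂ → ℚ̄`),
`GJ/Desc/Gen.isGen_bcHom`.

* `hexpC D`, `quotHolC D`, `realC_algebraMap D` : (EXP), (QUOT), constants for `PlugTest.realC D`;
* `hnDiv1_F1_at`, `hnMem1_F1_at` : one prime `ℓ ∤ M`, any `δ` realised by `merD (unitOf hℓM)`;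
* **`hD_F1`, `hM_F1`** : the binders `hD`, `hM` for a diamond family `dia` with (P1e).
-/
import Mathlib
import Fermat.Agent.DS.P4.HNDivInst1
import Fermat.Agent.DS.P4.HNDivDesc
import Fermat.Agent.DS.P3.HNAsm
import Fermat.Agent.DS.P3.HN1Q1.RealizeInst
import Fermat.Agent.DS.P1.QuotHolF1
import Fermat.Agent.DS.Port.PlugTest
import Fermat.Agent.GJ.Desc.Gen

set_option autoImplicit false
set_option linter.style.haveILetI false
set_option linter.unusedSectionVars false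

open UpperHalfPlane Complex AlgebraicCurve ModularCurve CongruenceSubgroup
open scoped MatrixGroups

noncomputable section

namespace Fermat.Agent.DS.P4.HNDiv1F1

open Fermat.Agent.S24 Fermat.Agent.S24_helper82 Fermat.Agent.GJ.HeckeMer Fermat.Agent.GJ.Desc
open Fermat.Agent.GJ.KumGroup Fermat.Agent.S28 Fermat.Agent.GJ.TwEis
open Fermat.Agent.DS.P0 Fermat.Agent.DS.P1.RealizeF1 Fermat.Agent.DS.P1.RealizeGen
open Fermat.Agent.DS.P3 Fermat.Agent.DS.P3.Desc1G Fermat.Agent.DS.P3.HeckeMer1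
open Fermat.Agent.DS.P3.HNMem Fermat.Agent.DS.P3.TwEisG Fermat.Agent.DS.P3.EigDescG
open Fermat.Agent.DS.P5 Fermat.Agent.DS.P5.KumType1
open Fermat.Agent.DS.Port.PlugTest

attribute [local instance] Fermat.Agent.GJ.EigAsm.algKbC

variable {M : ℕ} [NeZero M]

/-! ### (EXP), (QUOT), constants for `PlugTest.realC D` -/

theorem coe_equivOfEq' {K L : Type*} [Field K] [Field L] [Algebra K L]
    {F F' : IntermediateField K L} (h : F = F') (x : F) :
    ((IntermediateField.equivOfEq h x : F') : L) = (x : L) := by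
  subst h
  rfl

theorem coe_eC (f : ↥(laurentBaseChange ℂ (F1 M))) :
    ((eC M f : ↥(F1C ℂ M)) : LaurentSeries ℂ) = (f : LaurentSeries ℂ) :=
  coe_equivOfEq' _ f

/-- (EXP): the `q`-expansion of `realC D f` at `i∞` is `f` -/
theorem hexpC (D : WeberData M) (f : ↥(laurentBaseChange ℂ (F1 M))) :
    MerCE 1 (realC D f) (f : LaurentSeries ℂ) := by
  have h := Fermat.Agent.DS.P3.HN1Q1.merCE_realOf (genFam D) (isCE_genFam D) (F1C_eq_FG D)
    (eC M f)
  rw [coe_eC] at h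
  exact h

/-- (QUOT) -/
theorem quotHolC (D : WeberData M) : QuotHol (Gamma1 M) M (realC D) := fun f =>
  Fermat.Agent.DS.P1.QuotHolF1.quotHol_real1C D (eC M f)

/-- constants -/
theorem realC_algebraMap (D : WeberData M) (c : ℂ) :
    realC D (algebraMap ℂ ↥(laurentBaseChange ℂ (F1 M)) c) = algebraMap ℂ Mer c := by
  rw [realC_apply, AlgEquiv.commutes]
  exact (real1C D).commutes c

/-! ### One prime -/

section OnePrime

variable {ℓ : ℕ} [Fact ℓ.Prime] (D : WeberData M) (hℓM : ¬ ℓ ∣ M)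
  (δ : FL (F1 M) ≃ₐ[Kb] FL (F1 M))

/-- **(HN1-mem) at `F1 M`**, one prime -/
theorem hnMem1_F1_at
    (hδ : ∀ u : FL (F1 M), realC D (bcG (F1 M) (δ u))
      = HeckeMerTriple.merD (Coh1.unitOf hℓM) (realC D (bcG (F1 M) u))) :
    KumType1.HNMem1 ℓ δ :=
  Fermat.Agent.DS.P3.HNAsm.hnMem1_Gamma1 (F1 M) (realC D) (hexpC D) (fieldGenHolC D)
    (quotHolC D) hℓM δ hδ

/-- **(HN1-div) at `F1 M`**, one prime -/
theorem hnDiv1_F1_at (p : ℕ) [Fact p.Prime]
    (hδ : ∀ u : FL (F1 M), realC D (bcG (F1 M) (δ u))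
      = HeckeMerTriple.merD (Coh1.unitOf hℓM) (realC D (bcG (F1 M) u))) :
    KumType1.HNDiv1 p ℓ δ := by
  intro _ u x _ hx hdiv
  haveI : IsGen Kb (x₀ M) := isGen_x₀ D
  haveI : CharZero Kb := charZero_of_injective_algebraMap (algebraMap ℚ Kb).injective
  haveI : IsGen ℂ (bcHom Kb ℂ (F1 M) (x₀ M)) := isGen_bcHom Kb ℂ (F1 M) (x₀ M)
  obtain ⟨Tu, hTs, hTr⟩ := Fermat.Agent.DS.P3.HNAsm.exists_hn1_merT (F1 M) (realC D) (hexpC D)
    (fieldGenHolC D) (quotHolC D) hℓM δ hδ u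
  have hxT : x = Tu := Subtype.ext (hx.trans hTs.symm)
  subst hxT
  have hdivδ : ∀ P : Place Kb (FL (F1 M)), (p : ℤ) ∣ P.ord (δ u) :=
    Fermat.Agent.DS.P4.dia_divDvd (F₀ := F1 M) (p := p) (dia := δ) hdiv
  refine d1G (F1 M) p (x₀ M) x ?_
  have htw := HeckeMerTriple.isTwist_sigmaOf (M := M) hℓM
  refine Fermat.Agent.DS.P4.HNDivInst1.dvd_ord_heckeNormT1' (N := M) hℓM htw.dvd htw.d_eq
    (realC D) (realC_algebraMap D) (fieldGenHolC D)
    (Fermat.Agent.DS.P4.HNDivInst1.quotHyp_of_quotHol (quotHolC D))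
    (bcHom Kb ℂ (F1 M) (x₀ M)) (p : ℤ) (bcG (F1 M) (δ u)) (bcG (F1 M) x) ?_
    (d1convG (F1 M) p (δ u) hdivδ)
  rw [hTr, hδ]
  rfl

end OnePrime

/-! ### The binders of `portExport1_of_open_leaves2` -/

section Family

variable (D : WeberData M) (dia : (ZMod M)ˣ → (FL (F1 M) ≃ₐ[Kb] FL (F1 M)))

/-- **the binder `hM`** of `PlugTest2.portExport1_of_open_leaves2` -/
theorem hM_F1
    (hHND : ∀ (d : (ZMod M)ˣ) (u : FL (F1 M)),
      realQ (bcG (F1 M)) (realC D) (dia d u) =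
        HeckeMerTriple.merD d (realQ (bcG (F1 M)) (realC D) u)) :
    ∀ (q : ℕ) (hq : q.Prime) (hqM : ¬ q ∣ M), KumType1.HNMem1 q (diaP dia hq hqM) := by
  intro q hq hqM
  haveI : Fact q.Prime := ⟨hq⟩
  have h := hnMem1_F1_at D hqM (diaP dia hq hqM) fun u => hHND _ u
  intro _
  exact h

/-- **the binder `hD`** of `PlugTest2.portExport1_of_open_leaves2` -/
theorem hD_F1 (p : ℕ) [Fact p.Prime]
    (hHND : ∀ (d : (ZMod M)ˣ) (u : FL (F1 M)),
      realQ (bcG (F1 M)) (realC D) (dia d u) =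
        HeckeMerTriple.merD d (realQ (bcG (F1 M)) (realC D) u)) :
    ∀ (q : ℕ) (hq : q.Prime) (hqM : ¬ q ∣ M), KumType1.HNDiv1 p q (diaP dia hq hqM) := by
  intro q hq hqM
  haveI : Fact q.Prime := ⟨hq⟩
  have h := hnDiv1_F1_at D hqM (diaP dia hq hqM) p fun u => hHND _ u
  intro _
  exact h

end Family

end Fermat.Agent.DS.P4.HNDiv1F1
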