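/-
GATE-N / J1-PORT node P4, leaf S48-P4-HNDIV1-F1 (helper49): **the multiplicative Hecke norm of an
abstract Hecke correspondence preserves `p ∣ div`** — the instance of helper17's ORBIT-NORM route
(`DS/P4/OrbitNorm.lean`, `GJ/HInputs/OrdNorm.lean`) in which the auxiliary field `F'` is built
INSIDE `Mer`: no level-`Mℓ` function field, no realisation of a compositum, no descent `ℂ → ℚ̄`.

Setting: `Γ ≤ SL(2, ℤ)`, `S : HeckeSys Γ` (helper42) with integral representatives of positive
determinant, transitive, with a base point `xb`; `F` a function field in one variable over an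
algebraically closed field `K` of characteristic zero (`[IsGen K x₀]`), realised in `Mer`
(`[Algebra F Mer]`, `r := algebraMap F Mer`) with
* (GEN)  `FieldGenHol Γ N r`   : `Γ`-invariant holomorphic functions of moderate growth are realised;
* (PRES) `QuotHol Γ N r`       : every `r f` is a quotient of such functions;
* constants of `K` are realised by constants of `ℂ`.

`E := F(φ₀ g₁, …, φ₀ gₙ) ⊆ Mer`, `φ₀ := compMGL (rep xb) ∘ r`, `gᵢ` field generators of `F / K`.
Every element of `E` is a quotient of holomorphic functions of moderate growth invariant under the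
stabiliser of `xb`; the translates `s_x := compM g_x` (`g_x xb = x`) are `F`-embeddings `E → Mer`
permuted transitively by `Γ`, and `∏ₓ (T - s_x y)` has `Γ`-invariant coefficients, which are
quotients of holomorphic `Γ`-invariant functions of moderate growth, hence in `r(F)[T]`.
ORBIT-NORM gives `merSys S (r u) = r (Norm_{E/F} (φ u))^k`, and `dvd_ord_normAlong` concludes.

* `quotField N P`            : the subfield of `Mer` of quotients of `P`-invariant elements of `MG N`;
* `exists_poly_of_family`    : the polynomial lemma (POLY);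
* **`dvd_ord_of_merSys`**    : `r Tu = merSys S hdet (r u)`, `p ∣ div u` ⟹ `p ∣ div Tu`.
-/
import Mathlib
import Fermat.Agent.DS.P3.HNMem
import Fermat.Agent.DS.P4.OrbitNorm
import Fermat.Agent.DS.P4.HNDivGen
import Fermat.Agent.DS.P4.GenTower
import Fermat.Agent.GJ.HInputs.OrdNorm
import Fermat.Agent.GJ.FF.PrincipalGen
import Fermat.Agent.S24.DegOne

set_option autoImplicit false
set_option linter.unusedSectionVars false
set_option linter.style.haveILetI false

open UpperHalfPlane
open scoped MatrixGroups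

noncomputable section

namespace Fermat.Agent.DS.P4.HNDivSys

open Fermat.Agent.S24_helper82 Fermat.Agent.GJ.HeckeMer Fermat.Agent.GJ.Dict.FieldGen
open Fermat.Agent.DS.P3 Fermat.Agent.DS.P3.HeckeMerG Fermat.Agent.DS.P3.HeckeMerSys
open Fermat.Agent.DS.P3.TwEisG Fermat.Agent.DS.P3.HNMem Fermat.Agent.DS.ES
open Fermat.Agent.S24 Fermat.Agent.GJ.HInputs AlgebraicCurve
open Matrix.SpecialLinearGroup Polynomial

/-! ### Quotients of invariant holomorphic functions of moderate growth -/

section Quot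

variable (N : ℕ) [NeZero N] (P : SL(2, ℤ) → Prop)

/-- `z = A / B` with `A`, `B` holomorphic of moderate growth, invariant under all `γ` with `P γ` -/
def IsQuot (z : Mer) : Prop :=
  ∃ A B : Hol, B ≠ 0 ∧ (∀ γ, P γ → compSL γ A = A) ∧ (∀ γ, P γ → compSL γ B = B) ∧
    A ∈ MG N ∧ B ∈ MG N ∧ z = algebraMap Hol Mer A / algebraMap Hol Mer B

/-- the subfield of `Mer` of quotients of `P`-invariant holomorphic functions of moderate growth -/
def quotField : Subfield Mer where
  carrier := {z | IsQuot N P z}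
  mul_mem' := by
    rintro _ _ ⟨A, B, hB, hA1, hB1, hA2, hB2, rfl⟩ ⟨A', B', hB', hA1', hB1', hA2', hB2', rfl⟩
    refine ⟨A * A', B * B', mul_ne_zero hB hB', fun γ hγ => ?_, fun γ hγ => ?_,
      mul_mem hA2 hA2', mul_mem hB2 hB2', ?_⟩
    · rw [map_mul, hA1 γ hγ, hA1' γ hγ]
    · rw [map_mul, hB1 γ hγ, hB1' γ hγ]
    · rw [map_mul, map_mul, div_mul_div_comm]
  one_mem' := ⟨1, 1, one_ne_zero, fun _ _ => map_one _, fun _ _ => map_one _, one_mem _,
    one_mem _, by rw [map_one, div_one]⟩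
  add_mem' := by
    rintro _ _ ⟨A, B, hB, hA1, hB1, hA2, hB2, rfl⟩ ⟨A', B', hB', hA1', hB1', hA2', hB2', rfl⟩
    refine ⟨A * B' + B * A', B * B', mul_ne_zero hB hB', fun γ hγ => ?_, fun γ hγ => ?_,
      add_mem (mul_mem hA2 hB2') (mul_mem hB2 hA2'), mul_mem hB2 hB2', ?_⟩
    · rw [map_add, map_mul, map_mul, hA1 γ hγ, hB1' γ hγ, hB1 γ hγ, hA1' γ hγ]
    · rw [map_mul, hB1 γ hγ, hB1' γ hγ]
    · rw [map_add, map_mul, map_mul, map_mul,
        div_add_div _ _ (algebraMap_ne_zero hB) (algebraMap_ne_zero hB')]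
  zero_mem' := ⟨0, 1, one_ne_zero, fun _ _ => map_zero _, fun _ _ => map_one _, zero_mem _,
    one_mem _, by rw [map_zero, zero_div]⟩
  neg_mem' := by
    rintro _ ⟨A, B, hB, hA1, hB1, hA2, hB2, rfl⟩
    refine ⟨-A, B, hB, fun γ hγ => ?_, hB1, neg_mem hA2, hB2, ?_⟩
    · rw [map_neg, hA1 γ hγ]
    · rw [map_neg, neg_div]
  inv_mem' := by
    rintro _ ⟨A, B, hB, hA1, hB1, hA2, hB2, rfl⟩
    by_cases hA : A = 0
    · refine ⟨0, 1, one_ne_zero, fun _ _ => map_zero _, fun _ _ => map_one _, zero_mem _,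
        one_mem _, ?_⟩
      rw [hA, map_zero, zero_div, inv_zero, zero_div]
    · exact ⟨B, A, hA, hB1, hA1, hB2, hA2, by rw [inv_div]⟩

theorem mem_quotField {z : Mer} : z ∈ quotField N P ↔ IsQuot N P z := Iff.rfl

end Quot

/-! ### The polynomial lemma -/

section Poly

variable {N : ℕ} [NeZero N] {Γ : Subgroup SL(2, ℤ)} {F : Type*} [Field F] {real : F →+* Mer}

/-- **(POLY)**: for a finite family of quotients `A x / B x` of holomorphic functions of moderate
growth which is permuted by `Γ`, the polynomial `∏ₓ (T - A x / B x)` has coefficients in the image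
of the function field. -/
theorem exists_poly_of_family (hgen : FieldGenHol Γ N real) {ι : Type*} [Fintype ι]
    (A B : ι → Hol) (hB : ∀ x, B x ≠ 0) (hA' : ∀ x, A x ∈ MG N) (hB' : ∀ x, B x ∈ MG N)
    (π : Γ → Equiv.Perm ι)
    (hπA : ∀ (γ : Γ) x, compSL (γ : SL(2, ℤ)) (A x) = A (π γ x))
    (hπB : ∀ (γ : Γ) x, compSL (γ : SL(2, ℤ)) (B x) = B (π γ x)) :
    ∃ Q : F[X], Q.map real =
      ∏ x, (X - C (algebraMap Hol Mer (A x) / algebraMap Hol Mer (B x))) := by
  classical
  set Q : Hol[X] := ∏ x, (C (B x) * X - C (A x)) with hQ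
  set D : Hol := ∏ x, B x with hD
  -- invariance
  have hQinv : ∀ γ (hγ : γ ∈ Γ), Q.map (compSL γ).toRingHom = Q := by
    intro γ hγ
    rw [hQ, Polynomial.map_prod]
    have h1 : ∀ x, (C (B x) * X - C (A x)).map (compSL γ).toRingHom =
        C (B (π ⟨γ, hγ⟩ x)) * X - C (A (π ⟨γ, hγ⟩ x)) := by
      intro x
      rw [Polynomial.map_sub, Polynomial.map_mul, Polynomial.map_X, Polynomial.map_C,
        Polynomial.map_C]
      show C (compSL γ (B x)) * X - C (compSL γ (A x)) = _
      rw [hπA ⟨γ, hγ⟩ x, hπB ⟨γ, hγ⟩ x]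
    rw [Finset.prod_congr rfl fun x _ => h1 x]
    exact Fintype.prod_equiv (π ⟨γ, hγ⟩) _ _ fun x => rfl
  have hDinv : ∀ γ (hγ : γ ∈ Γ), compSL γ D = D := by
    intro γ hγ
    rw [hD, map_prod, Finset.prod_congr rfl fun x _ => hπB ⟨γ, hγ⟩ x]
    exact Fintype.prod_equiv (π ⟨γ, hγ⟩) _ _ fun x => rfl
  -- moderate growth
  have hQmg : ∀ n, Q.coeff n ∈ MG N := by
    intro n
    have hQlift : Q ∈ Polynomial.lifts (MG N).val.toRingHom := by
      rw [hQ]
      refine Subsemiring.prod_mem _ fun x _ => ?_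
      have h0 : C (B x) * X - C (A x) = C (B x) * X + C (-(A x)) := by
        rw [C_neg]
        exact sub_eq_add_neg (C (B x) * X) (C (A x))
      rw [h0]
      refine add_mem (mul_mem ?_ (X_mem_lifts _)) ?_
      · exact C_mem_lifts (MG N).val.toRingHom (⟨B x, hB' x⟩ : MG N)
      · exact C_mem_lifts (MG N).val.toRingHom (⟨-A x, neg_mem (hA' x)⟩ : MG N)
    obtain ⟨y, hy⟩ := (Polynomial.lifts_iff_coeff_lifts _).mp hQlift n
    rw [← hy]
    exact y.2
  have hDmg : D ∈ MG N := Subalgebra.prod_mem _ fun x _ => hB' x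
  have hD0 : D ≠ 0 := Finset.prod_ne_zero_iff.mpr fun x _ => hB x
  -- lifting
  have hlift : Q.map (algebraMap Hol Mer) ∈ Polynomial.lifts real := by
    rw [Polynomial.lifts_iff_coeff_lifts]
    intro n
    obtain ⟨f, hf⟩ := hgen (Q.coeff n) (fun γ hγ => by
      have := congrArg (fun R : Hol[X] => R.coeff n) (hQinv γ hγ)
      simpa [Polynomial.coeff_map] using this) (hQmg n)
    exact ⟨f, by rw [hf, Polynomial.coeff_map]⟩
  obtain ⟨Q', hQ'⟩ := (Polynomial.mem_lifts _).mp hlift
  obtain ⟨d, hd⟩ := hgen D hDinv hDmg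
  have hd0 : algebraMap Hol Mer D ≠ 0 := algebraMap_ne_zero hD0
  -- the product identity
  have hprod : Q.map (algebraMap Hol Mer) = C (algebraMap Hol Mer D) *
      ∏ x, (X - C (algebraMap Hol Mer (A x) / algebraMap Hol Mer (B x))) := by
    rw [hQ, hD, Polynomial.map_prod, map_prod, map_prod, ← Finset.prod_mul_distrib]
    refine Finset.prod_congr rfl fun x _ => ?_
    rw [Polynomial.map_sub, Polynomial.map_mul, Polynomial.map_X, Polynomial.map_C,
      Polynomial.map_C, mul_sub, ← C_mul, mul_div_cancel₀ _ (algebraMap_ne_zero (hB x))]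
  refine ⟨C d⁻¹ * Q', ?_⟩
  rw [Polynomial.map_mul, Polynomial.map_C, hQ', hprod, map_inv₀, hd, ← mul_assoc, ← C_mul,
    inv_mul_cancel₀ hd0, C_1, one_mul]

end Poly

/-! ### Translates along a Hecke correspondence -/

section Sys

variable {N : ℕ} [NeZero N] {Γ : Subgroup SL(2, ℤ)} (S : HeckeSys Γ)
  (hdet : ∀ x, 0 < (S.rep x).det.val)

/-- membership in the stabiliser of `xb` (as a predicate on `SL(2, ℤ)`) -/
def Stab (xb : S.X) (γ : SL(2, ℤ)) : Prop := ∃ h : γ ∈ Γ, S.perm ⟨γ, h⟩ xb = xb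

theorem perm_inv_perm (g : Γ) (x : S.X) : S.perm g⁻¹ (S.perm g x) = x := by
  rw [← S.perm_mul, mul_inv_cancel, S.perm_one]

theorem perm_perm_inv (g : Γ) (x : S.X) : S.perm g (S.perm g⁻¹ x) = x := by
  rw [← S.perm_mul, inv_mul_cancel, S.perm_one]

theorem compSL_compGL_rel {α α' : GL (Fin 2) ℝ} (hα : 0 < α.det.val) (hα' : 0 < α'.det.val)
    (γ c : SL(2, ℤ)) (h : α * mapGL ℝ γ = mapGL ℝ c * α') (A : Hol) :
    compSL γ (compGL α hα A) = compGL α' hα' (compSL c A) := by
  rw [← compGL_mapGL, ← compGL_mul hα (det_mapGL_pos γ), ← compGL_mapGL c,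
    ← compGL_mul (det_mapGL_pos c) hα']
  exact compGL_congr h _ _ A

theorem compM_compMGL_rel {α α' : GL (Fin 2) ℝ} (hα : 0 < α.det.val) (hα' : 0 < α'.det.val)
    (γ c : SL(2, ℤ)) (h : α * mapGL ℝ γ = mapGL ℝ c * α') (m : Mer) :
    compM γ (compMGL α hα m) = compMGL α' hα' (compM c m) := by
  rw [← compMGL_mapGL, ← compMGL_mul hα (det_mapGL_pos γ), ← compMGL_mapGL c,
    ← compMGL_mul (det_mapGL_pos c) hα']
  exact compMGL_congr h _ _ m

/-- translates of a `Γ`-invariant holomorphic function by the representatives are permuted -/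
theorem compSL_compGL_rep {A : Hol} (hA : ∀ γ ∈ Γ, compSL γ A = A) (γ : Γ) (x : S.X) :
    compSL (γ : SL(2, ℤ)) (compGL (S.rep x) (hdet x) A)
      = compGL (S.rep (S.perm γ x)) (hdet _) A := by
  rw [compSL_compGL_rel (hdet x) (hdet (S.perm γ x)) γ (S.c γ x) (S.c_rel γ x),
    hA _ (S.c γ x).2]

theorem compM_compMGL_rep {m : Mer} (hm : ∀ γ ∈ Γ, compM γ m = m) (γ : Γ) (x : S.X) :
    compM (γ : SL(2, ℤ)) (compMGL (S.rep x) (hdet x) m)
      = compMGL (S.rep (S.perm γ x)) (hdet _) m := by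
  rw [compM_compMGL_rel (hdet x) (hdet (S.perm γ x)) γ (S.c γ x) (S.c_rel γ x),
    hm _ (S.c γ x).2]

/-- a function invariant under the stabiliser of `xb` has the same translate along two elements
moving `xb` to the same point -/
theorem compSL_eq_of_perm_eq (xb : S.X) {A : Hol} (hA : ∀ γ, Stab S xb γ → compSL γ A = A)
    (g g' : Γ) (h : S.perm g xb = S.perm g' xb) :
    compSL (g : SL(2, ℤ)) A = compSL (g' : SL(2, ℤ)) A := by
  have hk : Stab S xb ((g * g'⁻¹ : Γ) : SL(2, ℤ)) :=
    ⟨(g * g'⁻¹).2, by rw [S.perm_mul, h, perm_inv_perm]⟩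
  have h1 : (g : SL(2, ℤ)) = ((g * g'⁻¹ : Γ) : SL(2, ℤ)) * (g' : SL(2, ℤ)) := by
    rw [← Subgroup.coe_mul, inv_mul_cancel_right]
  rw [h1, compSL_mul, hA _ hk]

theorem compM_eq_of_perm_eq (xb : S.X) {z : Mer} (hz : z ∈ quotField N (Stab S xb))
    (g g' : Γ) (h : S.perm g xb = S.perm g' xb) :
    compM (g : SL(2, ℤ)) z = compM (g' : SL(2, ℤ)) z := by
  obtain ⟨A, B, -, hA1, hB1, -, -, rfl⟩ := hz
  rw [compM_div, compM_div, compSL_eq_of_perm_eq S xb hA1 g g' h,
    compSL_eq_of_perm_eq S xb hB1 g g' h]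

variable {F : Type*} [Field F] {real : F →+* Mer}

/-- **(POLY) for the translates** of an element invariant under the stabiliser of `xb` -/
theorem exists_poly_translates (hgen : FieldGenHol Γ N real) (xb : S.X) (gx : S.X → Γ)
    (hgx : ∀ x, S.perm (gx x) xb = x) {z : Mer} (hz : z ∈ quotField N (Stab S xb)) :
    ∃ Q : F[X], Q.map real = ∏ x, (X - C (compM (gx x : SL(2, ℤ)) z)) := by
  obtain ⟨A, B, hB, hA1, hB1, hA2, hB2, rfl⟩ := hz
  have key : ∀ {A : Hol}, (∀ γ, Stab S xb γ → compSL γ A = A) → ∀ (γ : Γ) (x : S.X),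
      compSL (γ : SL(2, ℤ)) (compSL (gx x : SL(2, ℤ)) A)
        = compSL (gx (S.perm γ x) : SL(2, ℤ)) A := by
    intro A hA γ x
    rw [← compSL_mul, ← Subgroup.coe_mul]
    refine compSL_eq_of_perm_eq S xb hA _ _ ?_
    rw [S.perm_mul, hgx, hgx]
  obtain ⟨Q, hQ⟩ := exists_poly_of_family hgen (fun x => compSL (gx x : SL(2, ℤ)) A)
    (fun x => compSL (gx x : SL(2, ℤ)) B) (fun x => compSL_ne_zero _ hB)
    (fun x => compSL_mem_MG N _ hA2) (fun x => compSL_mem_MG N _ hB2) S.perm
    (fun γ x => key hA1 γ x) (fun γ x => key hB1 γ x)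
  refine ⟨Q, ?_⟩
  rw [hQ]
  refine Finset.prod_congr rfl fun x _ => ?_
  rw [compM_div]

/-- **(POLY) for the Hecke translates** of a realised function: `∏ₓ (T - (r f) ∘ rep x)` has
coefficients in `r(F)`, and is monic. -/
theorem exists_poly_rep (hgen : FieldGenHol Γ N real) (hq : QuotHol Γ N real)
    (hint : ∀ x, IsIntGL (S.rep x)) (f : F) :
    ∃ Q : F[X], Q.Monic ∧
      Q.map real = ∏ x, (X - C (compMGL (S.rep x) (hdet x) (real f))) := by
  obtain ⟨A, B, hB, hA1, hB1, hA2, hB2, hf⟩ := hq f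
  obtain ⟨Q, hQ⟩ := exists_poly_of_family hgen (fun x => compGL (S.rep x) (hdet x) A)
    (fun x => compGL (S.rep x) (hdet x) B) (fun x => compGL_ne_zero _ _ hB)
    (fun x => compGL_mem_MG (hint x) (hdet x) hA2) (fun x => compGL_mem_MG (hint x) (hdet x) hB2)
    S.perm (fun γ x => compSL_compGL_rep S hdet hA1 γ x)
    (fun γ x => compSL_compGL_rep S hdet hB1 γ x)
  have hQ' : Q.map real = ∏ x, (X - C (compMGL (S.rep x) (hdet x) (real f))) := by
    rw [hQ]
    refine Finset.prod_congr rfl fun x _ => ?_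
    rw [hf, compMGL_div]
  refine ⟨Q, ?_, hQ'⟩
  apply Polynomial.monic_of_injective real.injective
  rw [hQ']
  exact Polynomial.monic_prod_of_monic _ _ fun x _ => Polynomial.monic_X_sub_C _

end Sys

/-! ### The main theorem -/

section Main

variable {N : ℕ} [NeZero N] {Γ : Subgroup SL(2, ℤ)} (S : HeckeSys Γ)
  (hdet : ∀ x, 0 < (S.rep x).det.val)
variable {K F : Type*} [Field K] [Field F] [Algebra K F] {real : F →+* Mer}

theorem compM_real_of_quotHol (hq : QuotHol Γ N real) (f : F) (γ : SL(2, ℤ)) (hγ : γ ∈ Γ) :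
    compM γ (real f) = real f := by
  obtain ⟨A, B, -, hA1, hB1, -, -, hf⟩ := hq f
  rw [hf, compM_div, hA1 γ hγ, hB1 γ hγ]

theorem real_mem_quotField (hq : QuotHol Γ N real) (xb : S.X) (f : F) :
    real f ∈ quotField N (Stab S xb) := by
  obtain ⟨A, B, hB, hA1, hB1, hA2, hB2, hf⟩ := hq f
  exact ⟨A, B, hB, fun γ hγ => hA1 γ hγ.1, fun γ hγ => hB1 γ hγ.1, hA2, hB2, hf⟩

theorem compMGL_real_mem_quotField (hq : QuotHol Γ N real) (hint : ∀ x, IsIntGL (S.rep x))
    (xb : S.X) (f : F) :
    compMGL (S.rep xb) (hdet xb) (real f) ∈ quotField N (Stab S xb) := by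
  obtain ⟨A, B, hB, hA1, hB1, hA2, hB2, hf⟩ := hq f
  refine ⟨compGL (S.rep xb) (hdet xb) A, compGL (S.rep xb) (hdet xb) B, compGL_ne_zero _ _ hB,
    ?_, ?_, compGL_mem_MG (hint xb) (hdet xb) hA2, compGL_mem_MG (hint xb) (hdet xb) hB2, ?_⟩
  · rintro γ ⟨hγ, hst⟩
    have := compSL_compGL_rep S hdet hA1 ⟨γ, hγ⟩ xb
    rw [this]
    exact compGL_congr (by rw [hst]) _ _ A
  · rintro γ ⟨hγ, hst⟩
    have := compSL_compGL_rep S hdet hB1 ⟨γ, hγ⟩ xb
    rw [this]
    exact compGL_congr (by rw [hst]) _ _ B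
  · rw [hf, compMGL_div]

/-- **The multiplicative Hecke norm of a transitive Hecke correspondence preserves `p ∣ div`.** -/
theorem dvd_ord_of_merSys [IsAlgClosed K] [CharZero K] (x₀ : F) [IsGen K x₀]
    (hgen : FieldGenHol Γ N real) (hq : QuotHol Γ N real)
    (hconst : ∀ c : K, ∃ c' : ℂ, real (algebraMap K F c) = algebraMap ℂ Mer c')
    (hint : ∀ x, IsIntGL (S.rep x)) (xb : S.X) (htrans : ∀ x, ∃ g : Γ, S.perm g xb = x)
    (p : ℤ) (u Tu : F) (hTu : real Tu = merSys S hdet (real u))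
    (hu : ∀ P : Place K F, p ∣ P.ord u) (P : Place K F) : p ∣ P.ord Tu := by
  classical
  letI : Algebra F Mer := real.toAlgebra
  letI : Algebra K Mer := (real.comp (algebraMap K F)).toAlgebra
  haveI : IsScalarTower K F Mer := IsScalarTower.of_algebraMap_eq fun _ => rfl
  haveI : CharZero F := charZero_of_injective_algebraMap (algebraMap K F).injective
  obtain ⟨gens, hgens⟩ := GenTower.exists_finset_adjoin_eq_top (K := K) x₀
  choose gx hgx using htrans
  let φ₀ : F →+* Mer := (compMGL (S.rep xb) (hdet xb)).comp real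
  let E : IntermediateField F Mer := IntermediateField.adjoin F (φ₀ '' (gens : Set F))
  -- `E / F` is finite
  haveI : FiniteDimensional F E := IntermediateField.finiteDimensional_adjoin (by
    rintro _ ⟨g, -, rfl⟩
    obtain ⟨Q, hQm, hQ⟩ := exists_poly_rep S hdet hgen hq hint g
    refine ⟨Q, hQm, ?_⟩
    show Polynomial.eval₂ real (compMGL (S.rep xb) (hdet xb) (real g)) Q = 0
    rw [← Polynomial.eval_map, hQ, Polynomial.eval_prod]
    exact Finset.prod_eq_zero (Finset.mem_univ xb) (by simp))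
  -- `E` consists of quotients invariant under the stabiliser
  have hEq : ∀ y : E, (y : Mer) ∈ quotField N (Stab S xb) := by
    rintro ⟨y, hy⟩
    show y ∈ quotField N (Stab S xb)
    induction hy using IntermediateField.adjoin_induction with
    | mem z hz =>
      obtain ⟨g, -, rfl⟩ := hz
      exact compMGL_real_mem_quotField S hdet hq hint xb g
    | algebraMap f => exact real_mem_quotField S hq xb f
    | add a b _ _ ha hb => exact add_mem ha hb
    | inv a _ ha => exact inv_mem ha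
    | mul a b _ _ ha hb => exact mul_mem ha hb
  -- `φ₀` maps into `E`
  have hφmem : ∀ f : F, φ₀ f ∈ E := by
    intro f
    have hf : f ∈ IntermediateField.adjoin K (gens : Set F) := by rw [hgens]; trivial
    induction hf using IntermediateField.adjoin_induction with
    | mem z hz => exact IntermediateField.subset_adjoin F _ ⟨z, hz, rfl⟩
    | algebraMap c =>
      obtain ⟨c', hc'⟩ := hconst c
      have : φ₀ (algebraMap K F c) = algebraMap F Mer (algebraMap K F c) := by
        show compMGL (S.rep xb) (hdet xb) (real (algebraMap K F c)) = real (algebraMap K F c)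
        rw [hc', compMGL_const]
      rw [this]
      exact E.algebraMap_mem _
    | add a b _ _ ha hb => rw [map_add]; exact add_mem ha hb
    | inv a _ ha => rw [map_inv₀]; exact inv_mem ha
    | mul a b _ _ ha hb => rw [map_mul]; exact mul_mem ha hb
  -- the two maps `F → E`
  let ψ : F →ₐ[K] E := IsScalarTower.toAlgHom K F E
  let φ : F →ₐ[K] E :=
    { toFun := fun f => ⟨φ₀ f, hφmem f⟩
      map_one' := Subtype.ext (map_one φ₀)
      map_mul' := fun a b => Subtype.ext (map_mul φ₀ a b)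
      map_zero' := Subtype.ext (map_zero φ₀)
      map_add' := fun a b => Subtype.ext (map_add φ₀ a b)
      commutes' := fun c => by
        apply Subtype.ext
        obtain ⟨c', hc'⟩ := hconst c
        show compMGL (S.rep xb) (hdet xb) (real (algebraMap K F c)) = real (algebraMap K F c)
        rw [hc', compMGL_const] }
  have hφ_coe : ∀ f, ((φ f : E) : Mer) = compMGL (S.rep xb) (hdet xb) (real f) := fun f => rfl
  -- function field structure on `E`
  haveI : IsGen K (algebraMap F E x₀) := GenTower.isGen_algebraMap_of_finite x₀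
  haveI : HasPrincipalDivisors K E :=
    Fermat.Agent.GJ.FF.PrincipalOf.hasPrincipalDivisors_gen (algebraMap F E x₀)
  have hφint : φ.toRingHom.IsIntegral := GenTower.isIntegral_of_isGen φ x₀ (algebraMap F E x₀)
  have hψint : ψ.toRingHom.IsIntegral := GenTower.isIntegral_of_isGen ψ x₀ (algebraMap F E x₀)
  have halg : algebraAlong ψ = (inferInstance : Algebra F E) :=
    Algebra.algebra_ext _ _ fun _ => rfl
  have hfin : FiniteAlong K ψ := by
    show @Module.Finite F E _ _ (algebraAlong ψ).toModule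
    rw [halg]
    infer_instance
  have hdeg : ∀ P : Place K F, P.deg = 1 := fun P => PlaceB.deg_eq_one P x₀
  -- the translates
  have hinv : ∀ (f : F) (γ : Γ), compM (γ : SL(2, ℤ)) (real f) = real f :=
    fun f γ => compM_real_of_quotHol hq f γ γ.2
  let cA : Γ → (Mer →ₐ[F] Mer) := fun g =>
    { compM (g : SL(2, ℤ)) with commutes' := fun f => hinv f g }
  let s : S.X → (E →ₐ[F] Mer) := fun x => (cA (gx x)).comp E.val
  have hs : ∀ x (y : E), s x y = compM (gx x : SL(2, ℤ)) (y : Mer) := fun x y => rfl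
  have hρ : ∀ (γ : Γ) (x : S.X) (y : E), compM (γ : SL(2, ℤ)) (s x y) = s (S.perm γ x) y := by
    intro γ x y
    rw [hs, hs, ← compM_mul, ← Subgroup.coe_mul]
    refine compM_eq_of_perm_eq S xb (hEq y) _ _ ?_
    rw [S.perm_mul, hgx, hgx]
  letI : MulAction Γ S.X :=
    { smul := fun g x => S.perm g⁻¹ x
      one_smul := fun x => by
        show S.perm (1 : Γ)⁻¹ x = x
        rw [inv_one, S.perm_one]
      mul_smul := fun g h x => by
        show S.perm (g * h)⁻¹ x = S.perm g⁻¹ (S.perm h⁻¹ x)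
        rw [mul_inv_rev, S.perm_mul] }
  have hsmul : ∀ (g : Γ) (x : S.X), g • x = S.perm g⁻¹ x := fun g x => rfl
  haveI : MulAction.IsPretransitive Γ S.X := ⟨fun x x' => by
    refine ⟨((gx x)⁻¹ * gx x')⁻¹, ?_⟩
    rw [hsmul, inv_inv, S.perm_mul]
    have : S.perm (gx x)⁻¹ x = xb := by
      have h := perm_inv_perm S (gx x) xb
      rwa [hgx] at h
    rw [this, hgx]⟩
  haveI : Nonempty S.X := ⟨xb⟩
  obtain ⟨k, -, hk⟩ := OrbitNorm.prod_eq_norm_pow (G := Γ) s
    (fun y => by
      obtain ⟨Q, hQ⟩ := exists_poly_translates S hgen xb gx hgx (hEq y)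
      exact ⟨Q, hQ⟩)
    (fun g x x' h => by
      ext y
      rw [hsmul, hsmul, ← hρ, ← hρ, h])
  -- the product formula
  have hprod : ∏ x, s x (φ u) = merSys S hdet (real u) := by
    rw [merSys_apply]
    refine Finset.prod_congr rfl fun x _ => ?_
    rw [hs, hφ_coe, compM_compMGL_rep S hdet (fun γ hγ => compM_real_of_quotHol hq u γ hγ), hgx]
  have hTu' : Tu = Algebra.norm F (φ u) ^ k := by
    apply real.injective
    rw [hTu, ← hprod, hk, map_pow]
    rfl
  have hnorm : Algebra.norm F (φ u) = normAlong ψ (φ u) := by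
    rw [normAlong_def, halg]
  rw [hTu', hnorm, HNDivGen.ord_pow_nat']
  exact Dvd.dvd.mul_left (dvd_ord_normAlong φ ψ hφint hψint hfin hdeg p u hu P) _

end Main

end Fermat.Agent.DS.P4.HNDivSys
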